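import Mathlib

/-!
# Components: discrete valuations with a residue map
-/

set_option autoImplicit false
set_option linter.unusedSectionVars false

namespace Fermat.Agent.Car

/-- a discrete valuation ring `W` of `F`, with uniformiser `ϖ` and residue map `π` -/
structure Comp (F κ : Type*) [Field F] [Field κ] where
  W : Subring F
  π : W →+* κ
  ϖ : F
  hϖ : ϖ ∈ W
  πϖ : π ⟨ϖ, hϖ⟩ = 0
  ne : ϖ ≠ 0
  inv_mem : ∀ y : W, π y ≠ 0 → (y : F)⁻¹ ∈ W
  exists_unit : ∀ x : F, x ≠ 0 → ∃ m : ℤ, ∃ y : W, π y ≠ 0 ∧ x = ϖ ^ m * (y : F)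

namespace Comp

variable {F κ : Type*} [Field F] [Field κ] (C : Comp F κ)

theorem ne_zero_of_π {y : C.W} (h : C.π y ≠ 0) : (y : F) ≠ 0 := by
  intro h0
  apply h
  have : y = 0 := Subtype.ext h0
  rw [this, map_zero]

theorem isUnit_of_π {y : C.W} (h : C.π y ≠ 0) : IsUnit y := by
  refine ⟨⟨y, ⟨_, C.inv_mem y h⟩, ?_, ?_⟩, rfl⟩
  · exact Subtype.ext (mul_inv_cancel₀ (C.ne_zero_of_π h))
  · exact Subtype.ext (inv_mul_cancel₀ (C.ne_zero_of_π h))

theorem π_inv {y : C.W} (h : C.π y ≠ 0) : C.π ⟨_, C.inv_mem y h⟩ = (C.π y)⁻¹ := by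
  apply eq_inv_of_mul_eq_one_right
  rw [← map_mul, ← map_one C.π]
  congr 1
  exact Subtype.ext (mul_inv_cancel₀ (C.ne_zero_of_π h))

theorem not_pow_unit {m : ℤ} (hm : 0 < m) {y z : C.W} (hy : C.π y ≠ 0) (hz : C.π z ≠ 0)
    (h : C.ϖ ^ m * (y : F) = z) : False := by
  obtain ⟨n, rfl⟩ := Int.eq_ofNat_of_zero_le hm.le
  have hn : n ≠ 0 := by rintro rfl; simp at hm
  rw [zpow_natCast] at h
  have h1 : (⟨C.ϖ, C.hϖ⟩ : C.W) ^ n * y = z := Subtype.ext h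
  apply hz
  rw [← h1, map_mul, map_pow, C.πϖ, zero_pow hn, zero_mul]

theorem unique {m m' : ℤ} {y y' : C.W} (hy : C.π y ≠ 0) (hy' : C.π y' ≠ 0)
    (h : C.ϖ ^ m * (y : F) = C.ϖ ^ m' * (y' : F)) : m = m' := by
  rcases lt_trichotomy m m' with h1 | h1 | h1
  · exfalso
    apply C.not_pow_unit (sub_pos.2 h1) hy' hy
    rw [zpow_sub₀ C.ne, div_mul_eq_mul_div, ← h, mul_div_assoc, mul_comm,
      div_mul_cancel₀ _ (zpow_ne_zero _ C.ne)]
  · exact h1
  · exfalso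
    apply C.not_pow_unit (sub_pos.2 h1) hy hy'
    rw [zpow_sub₀ C.ne, div_mul_eq_mul_div, h, mul_div_assoc, mul_comm,
      div_mul_cancel₀ _ (zpow_ne_zero _ C.ne)]

open Classical in
/-- the valuation -/
noncomputable def v (x : F) : ℤ := if h : x = 0 then 0 else (C.exists_unit x h).choose

theorem v_eq {x : F} {m : ℤ} {y : C.W} (hy : C.π y ≠ 0) (h : x = C.ϖ ^ m * (y : F)) :
    C.v x = m := by
  have hx : x ≠ 0 := by
    rw [h]; exact mul_ne_zero (zpow_ne_zero _ C.ne) (C.ne_zero_of_π hy)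
  rw [v, dif_neg hx]
  obtain ⟨y', hy', h'⟩ := (C.exists_unit x hx).choose_spec
  exact C.unique hy' hy (h'.symm.trans h)

theorem v_spec {x : F} (hx : x ≠ 0) : ∃ y : C.W, C.π y ≠ 0 ∧ x = C.ϖ ^ (C.v x) * (y : F) := by
  obtain ⟨m, y, hy, h⟩ := C.exists_unit x hx
  rw [C.v_eq hy h]
  exact ⟨y, hy, h⟩

@[simp] theorem v_zero : C.v 0 = 0 := by rw [v, dif_pos rfl]

theorem v_ϖ : C.v C.ϖ = 1 :=
  C.v_eq (y := 1) (by rw [map_one]; exact one_ne_zero) (by simp)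

theorem v_of_π {y : C.W} (h : C.π y ≠ 0) : C.v (y : F) = 0 :=
  C.v_eq h (by simp)

@[simp] theorem v_one : C.v 1 = 0 :=
  C.v_of_π (y := 1) (by rw [map_one]; exact one_ne_zero)

theorem v_mul {x y : F} (hx : x ≠ 0) (hy : y ≠ 0) : C.v (x * y) = C.v x + C.v y := by
  obtain ⟨a, ha, hxa⟩ := C.v_spec hx
  obtain ⟨b, hb, hyb⟩ := C.v_spec hy
  refine C.v_eq (y := a * b) (by rw [map_mul]; exact mul_ne_zero ha hb) ?_
  conv_lhs => rw [hxa, hyb]
  rw [zpow_add₀ C.ne]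
  push_cast
  ring

theorem v_inv (x : F) : C.v x⁻¹ = -C.v x := by
  rcases eq_or_ne x 0 with rfl | hx
  · simp
  have := C.v_mul hx (inv_ne_zero hx)
  rw [mul_inv_cancel₀ hx, v_one] at this
  linarith

theorem v_div {x y : F} (hx : x ≠ 0) (hy : y ≠ 0) : C.v (x / y) = C.v x - C.v y := by
  rw [div_eq_mul_inv, C.v_mul hx (inv_ne_zero hy), v_inv]; ring

theorem v_pow (x : F) (n : ℕ) : C.v (x ^ n) = n * C.v x := by
  rcases eq_or_ne x 0 with rfl | hx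
  · rcases Nat.eq_zero_or_pos n with rfl | hn
    · simp
    · rw [zero_pow hn.ne', v_zero, mul_zero]
  induction n with
  | zero => simp
  | succ n ih =>
    rw [pow_succ, C.v_mul (pow_ne_zero _ hx) hx, ih]
    push_cast; ring

theorem v_zpow (x : F) (n : ℤ) : C.v (x ^ n) = n * C.v x := by
  obtain ⟨m, rfl | rfl⟩ := n.eq_nat_or_neg
  · rw [zpow_natCast, v_pow]
  · rw [zpow_neg, v_inv, zpow_natCast, v_pow]; ring

theorem v_neg (x : F) : C.v (-x) = C.v x := by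
  rcases eq_or_ne x 0 with rfl | hx
  · simp
  obtain ⟨a, ha, hxa⟩ := C.v_spec hx
  refine C.v_eq (y := -a) (by rw [map_neg]; exact neg_ne_zero.2 ha) ?_
  conv_lhs => rw [hxa]
  push_cast
  ring

theorem mem_iff {x : F} : x ∈ C.W ↔ x = 0 ∨ 0 ≤ C.v x := by
  rcases eq_or_ne x 0 with rfl | hx
  · simp [C.W.zero_mem]
  obtain ⟨a, ha, hxa⟩ := C.v_spec hx
  constructor
  · intro h
    right
    by_contra hlt
    push Not at hlt
    by_cases h0 : C.π ⟨x, h⟩ = 0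
    · have h1 : (⟨x, h⟩ : C.W) * (⟨C.ϖ, C.hϖ⟩ : C.W) ^ (-(C.v x)).toNat = a := by
        apply Subtype.ext
        push_cast
        rw [← zpow_natCast, Int.toNat_of_nonneg (by linarith), zpow_neg]
        have : x * (C.ϖ ^ C.v x)⁻¹ = C.ϖ ^ (C.v x) * (a : F) * (C.ϖ ^ C.v x)⁻¹ := by rw [← hxa]
        rw [this, mul_comm, ← mul_assoc, inv_mul_cancel₀ (zpow_ne_zero _ C.ne), one_mul]
      apply ha
      rw [← h1, map_mul, h0, zero_mul]
    · have := C.v_of_π h0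
      change C.v x = 0 at this
      omega
  · rintro (h | h)
    · exact absurd h hx
    rw [hxa, ← Int.toNat_of_nonneg h, zpow_natCast]
    exact mul_mem (pow_mem C.hϖ _) a.2

theorem π_eq_zero_iff {x : F} (h : x ∈ C.W) : C.π ⟨x, h⟩ = 0 ↔ x = 0 ∨ 1 ≤ C.v x := by
  rcases eq_or_ne x 0 with rfl | hx
  · have : (⟨0, h⟩ : C.W) = 0 := rfl
    rw [this, map_zero]
    simp
  have h0 : 0 ≤ C.v x := (C.mem_iff.1 h).resolve_left hx
  constructor
  · intro h1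
    right
    by_contra hlt
    have hv : C.v x = 0 := by omega
    obtain ⟨a, ha, hxa⟩ := C.v_spec hx
    rw [hv, zpow_zero, one_mul] at hxa
    apply ha
    have : (⟨x, h⟩ : C.W) = a := Subtype.ext hxa
    rw [← this, h1]
  · rintro (h1 | h1)
    · exact absurd h1 hx
    by_contra h2
    have := C.v_of_π h2
    change C.v x = 0 at this
    omega

theorem π_ne_zero_iff {x : F} (h : x ∈ C.W) : C.π ⟨x, h⟩ ≠ 0 ↔ x ≠ 0 ∧ C.v x = 0 := by
  rw [Ne, C.π_eq_zero_iff h, not_or]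
  constructor
  · rintro ⟨h1, h2⟩
    have := (C.mem_iff.1 h).resolve_left h1
    exact ⟨h1, by omega⟩
  · rintro ⟨h1, h2⟩
    exact ⟨h1, by omega⟩

/-- `x` has valuation at least `n` -/
def Ge (n : ℤ) (x : F) : Prop := x = 0 ∨ n ≤ C.v x

variable {C}

theorem ge_zero (n : ℤ) : C.Ge n 0 := Or.inl rfl

theorem ge_zero_iff {x : F} : C.Ge 0 x ↔ x ∈ C.W := C.mem_iff.symm

theorem Ge.mono {n m : ℤ} {x : F} (h : C.Ge n x) (hmn : m ≤ n) : C.Ge m x :=
  h.imp id (fun h => hmn.trans h)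

theorem Ge.mul {n m : ℤ} {x y : F} (hx : C.Ge n x) (hy : C.Ge m y) : C.Ge (n + m) (x * y) := by
  rcases eq_or_ne x 0 with rfl | hx0
  · rw [zero_mul]; exact ge_zero _
  rcases eq_or_ne y 0 with rfl | hy0
  · rw [mul_zero]; exact ge_zero _
  right
  rw [C.v_mul hx0 hy0]
  exact add_le_add (hx.resolve_left hx0) (hy.resolve_left hy0)

theorem Ge.iff_zpow {n : ℤ} {x : F} : C.Ge n x ↔ C.ϖ ^ (-n) * x ∈ C.W := by
  rw [C.mem_iff]
  rcases eq_or_ne x 0 with rfl | hx0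
  · simp [ge_zero]
  rw [C.v_mul (zpow_ne_zero _ C.ne) hx0, C.v_zpow, C.v_ϖ]
  have h1 : C.ϖ ^ (-n) * x ≠ 0 := mul_ne_zero (zpow_ne_zero _ C.ne) hx0
  constructor
  · intro h
    right
    have := h.resolve_left hx0
    linarith
  · intro h
    right
    have := h.resolve_left h1
    linarith

theorem Ge.add {n : ℤ} {x y : F} (hx : C.Ge n x) (hy : C.Ge n y) : C.Ge n (x + y) := by
  rw [Ge.iff_zpow] at hx hy ⊢
  rw [mul_add]
  exact add_mem hx hy

theorem Ge.neg {n : ℤ} {x : F} (hx : C.Ge n x) : C.Ge n (-x) := by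
  rw [Ge.iff_zpow] at hx ⊢
  rw [mul_neg]
  exact neg_mem hx

theorem Ge.sub {n : ℤ} {x y : F} (hx : C.Ge n x) (hy : C.Ge n y) : C.Ge n (x - y) := by
  rw [sub_eq_add_neg]; exact hx.add hy.neg

theorem Ge.sum {ι : Type*} {n : ℤ} {s : Finset ι} {x : ι → F} (h : ∀ i ∈ s, C.Ge n (x i)) :
    C.Ge n (∑ i ∈ s, x i) := by
  classical
  induction s using Finset.induction_on with
  | empty => simp [ge_zero]
  | insert a s ha ih =>
    rw [Finset.sum_insert ha]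
    exact (h a (Finset.mem_insert_self _ _)).add (ih fun i hi => h i (Finset.mem_insert_of_mem hi))

theorem Ge.pow {n : ℤ} {x : F} (hx : C.Ge n x) (k : ℕ) : C.Ge (k * n) (x ^ k) := by
  induction k with
  | zero => right; simp
  | succ k ih =>
    rw [pow_succ]
    have := ih.mul hx
    refine this.mono ?_
    push_cast
    linarith

theorem ge_of_le {n : ℤ} {x : F} (h : n ≤ C.v x) : C.Ge n x := Or.inr h

theorem ge_of_mem {x : F} (h : x ∈ C.W) : C.Ge 0 x := ge_zero_iff.2 h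

theorem ge_one_iff {x : F} : C.Ge 1 x ↔ ∃ h : x ∈ C.W, C.π ⟨x, h⟩ = 0 := by
  constructor
  · intro h
    exact ⟨ge_zero_iff.1 (h.mono (by norm_num)), (C.π_eq_zero_iff _).2 h⟩
  · rintro ⟨h, h1⟩
    exact (C.π_eq_zero_iff h).1 h1

/-- a unit is characterised by its residue -/
theorem v_eq_zero_iff {x : F} (h : x ∈ C.W) (hx : x ≠ 0) : C.v x = 0 ↔ C.π ⟨x, h⟩ ≠ 0 := by
  rw [C.π_ne_zero_iff h]
  exact ⟨fun h => ⟨hx, h⟩, fun h => h.2⟩

variable (C)

open Classical in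
/-- the residue, as a total function -/
noncomputable def r (x : F) : κ := if h : x ∈ C.W then C.π ⟨x, h⟩ else 0

variable {C}

theorem r_eq {x : F} (h : x ∈ C.W) : C.r x = C.π ⟨x, h⟩ := by rw [r, dif_pos h]

theorem r_mul {x y : F} (hx : x ∈ C.W) (hy : y ∈ C.W) : C.r (x * y) = C.r x * C.r y := by
  rw [r_eq hx, r_eq hy, r_eq (mul_mem hx hy), ← map_mul]; rfl

theorem r_add {x y : F} (hx : x ∈ C.W) (hy : y ∈ C.W) : C.r (x + y) = C.r x + C.r y := by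
  rw [r_eq hx, r_eq hy, r_eq (add_mem hx hy), ← map_add]; rfl

theorem r_sub {x y : F} (hx : x ∈ C.W) (hy : y ∈ C.W) : C.r (x - y) = C.r x - C.r y := by
  rw [r_eq hx, r_eq hy, r_eq (sub_mem hx hy), ← map_sub]; rfl

theorem r_neg {x : F} (hx : x ∈ C.W) : C.r (-x) = -C.r x := by
  rw [r_eq hx, r_eq (neg_mem hx), ← map_neg]; rfl

theorem r_pow {x : F} (hx : x ∈ C.W) (n : ℕ) : C.r (x ^ n) = C.r x ^ n := by
  rw [r_eq hx, r_eq (pow_mem hx n), ← map_pow]; rfl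

variable (C) in
@[simp] theorem r_one : C.r 1 = 1 := by
  rw [r_eq C.W.one_mem]; exact map_one C.π

variable (C) in
@[simp] theorem r_zero : C.r 0 = 0 := by
  rw [r_eq C.W.zero_mem]; exact map_zero C.π

theorem r_eq_zero_iff {x : F} (h : x ∈ C.W) : C.r x = 0 ↔ C.Ge 1 x := by
  rw [r_eq h, C.π_eq_zero_iff h]; rfl

theorem r_ne_zero_iff {x : F} (hx : x ≠ 0) : C.r x ≠ 0 ↔ C.v x = 0 := by
  by_cases h : x ∈ C.W
  · rw [r_eq h, C.π_ne_zero_iff h]
    exact ⟨fun h => h.2, fun h => ⟨hx, h⟩⟩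
  · rw [r, dif_neg h]
    constructor
    · intro h1; exact absurd rfl h1
    · intro h1
      exact absurd (C.mem_iff.2 (Or.inr h1.ge)) h

theorem r_inv {x : F} (h : C.v x = 0) : C.r x⁻¹ = (C.r x)⁻¹ := by
  rcases eq_or_ne x 0 with rfl | hx
  · simp
  have h1 : x ∈ C.W := C.mem_iff.2 (Or.inr h.ge)
  have h2 : x⁻¹ ∈ C.W := C.mem_iff.2 (Or.inr (by rw [C.v_inv, h, neg_zero]))
  apply eq_inv_of_mul_eq_one_right
  rw [← r_mul h1 h2, mul_inv_cancel₀ hx, r_one]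

theorem r_div {x y : F} (hx : x ∈ C.W) (h : C.v y = 0) : C.r (x / y) = C.r x / C.r y := by
  have h2 : y⁻¹ ∈ C.W := C.mem_iff.2 (Or.inr (by rw [C.v_inv, h, neg_zero]))
  rw [div_eq_mul_inv, r_mul hx h2, r_inv h, div_eq_mul_inv]

theorem mem_of_v {x : F} (h : 0 ≤ C.v x) : x ∈ C.W := C.mem_iff.2 (Or.inr h)

end Comp

end Fermat.Agent.Car
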