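import Fermat.Agent.Car.FG
import Fermat.Agent.Car.Comp
import Fermat.Agent.Car.Rigid
import Fermat.Agent.Nod.Model

/-!
# Models with several components over a discrete valuation ring
-/

set_option autoImplicit false
set_option linter.unusedSectionVars false
set_option linter.style.haveILetI false

namespace Fermat.Agent.Car

open Module Polynomial IntermediateField AlgebraicCurve Fermat.Agent.Red Fermat.Agent.RR
  Fermat.Agent.Nod Fermat.Agent.Curve

section Emb

/-- Galois descent data for the extension `F ⊂ L`, `K ⊂ Ω`. -/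
structure Desc (K F Ω L : Type*) [Field K] [Field F] [Algebra K F] [Field Ω] [Field L]
    [Algebra Ω L] [Algebra K Ω] where
  emb : F →+* L
  hemb : ∀ c : K, emb (algebraMap K F c) = algebraMap Ω L (algebraMap K Ω c)
  Γ : Set (L →+* L)
  Γ_emb : ∀ σ ∈ Γ, ∀ x, σ (emb x) = emb x
  Γ_semi : ∀ σ ∈ Γ, ∀ c : Ω, ∃ c' : Ω, σ (algebraMap Ω L c) = algebraMap Ω L c'
  desc : ∀ V : Submodule Ω L, FiniteDimensional Ω V → (∀ σ ∈ Γ, ∀ x ∈ V, σ x ∈ V) →
    V ≤ Submodule.span Ω (emb '' {x | emb x ∈ V})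
  indep : ∀ (n : ℕ) (x : Fin n → F), LinearIndependent K x →
    LinearIndependent Ω (fun i => emb (x i))

variable {K F Ω L : Type*} [Field K] [Field F] [Algebra K F] [Field Ω] [Field L]
    [Algebra Ω L] [Algebra K Ω] (D : Desc K F Ω L)

namespace Desc

/-- the descended space -/
def low (V : Submodule Ω L) : Submodule K F where
  carrier := {x | D.emb x ∈ V}
  add_mem' := fun {x y} hx hy => by
    change D.emb (x + y) ∈ V
    rw [map_add]; exact V.add_mem hx hy
  zero_mem' := by
    change D.emb 0 ∈ V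
    rw [map_zero]; exact V.zero_mem
  smul_mem' := fun c x hx => by
    change D.emb (c • x) ∈ V
    rw [Algebra.smul_def, map_mul, D.hemb, ← Algebra.smul_def]
    exact V.smul_mem _ hx

theorem mem_low {V : Submodule Ω L} {x : F} : x ∈ D.low V ↔ D.emb x ∈ V := Iff.rfl

/-- `V` is stable under `Γ` -/
def Stable (V : Submodule Ω L) : Prop := ∀ σ ∈ D.Γ, ∀ x ∈ V, σ x ∈ V

variable {D} in
theorem exists_basis {V : Submodule Ω L} [FiniteDimensional Ω V] (hV : D.Stable V) :
    ∃ b : Fin (finrank Ω V) → F, (∀ i, b i ∈ D.low V) ∧ LinearIndependent Ω (fun i => D.emb (b i)) ∧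
      LinearIndependent K b ∧ Submodule.span K (Set.range b) = D.low V := by
  classical
  have h1 : Submodule.span Ω (D.emb '' {x | D.emb x ∈ V}) = V :=
    le_antisymm (Submodule.span_le.2 (by rintro _ ⟨x, hx, rfl⟩; exact hx)) (D.desc V inferInstance hV)
  obtain ⟨s, hs1, hs2, hs3⟩ := exists_linearIndependent Ω (D.emb '' {x | D.emb x ∈ V})
  rw [h1] at hs2
  have hfin : s.Finite := by
    have h4 : LinearIndependent Ω (fun x : s => (⟨x, by
      rw [← hs2]; exact Submodule.subset_span x.2⟩ : V)) := by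
      apply LinearIndependent.of_comp V.subtype
      exact hs3
    haveI := h4.finite
    exact Set.toFinite s
  haveI := hfin.fintype
  have hcard : Fintype.card s = finrank Ω V := by
    rw [← hs2]
    have := finrank_span_eq_card hs3
    rw [Subtype.range_coe] at this
    exact this.symm
  let e : Fin (finrank Ω V) ≃ s := (finCongr hcard.symm).trans (Fintype.equivFin s).symm
  have hch : ∀ i : Fin (finrank Ω V), ∃ x : F, D.emb x ∈ V ∧ D.emb x = (e i : L) := by
    intro i
    obtain ⟨x, hx, hx'⟩ := hs1 (e i).2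
    exact ⟨x, hx, hx'⟩
  choose b hb1 hb2 using hch
  have hli : LinearIndependent Ω (fun i => D.emb (b i)) := by
    have : (fun i => D.emb (b i)) = (fun x : s => (x : L)) ∘ e := funext hb2
    rw [this]
    exact hs3.comp e e.injective
  have hliK : LinearIndependent K b := by
    rw [Fintype.linearIndependent_iff] at hli ⊢
    intro g hg i
    have h2 : ∑ i, (algebraMap K Ω (g i)) • D.emb (b i) = 0 := by
      have := congrArg D.emb hg
      rw [map_sum, map_zero] at this
      rw [← this]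
      refine Finset.sum_congr rfl fun i _ => ?_
      rw [Algebra.smul_def, Algebra.smul_def, map_mul, D.hemb]
    have := hli _ h2 i
    exact (map_eq_zero _).1 this
  refine ⟨b, hb1, hli, hliK, le_antisymm ?_ ?_⟩
  · rw [Submodule.span_le]
    rintro _ ⟨i, rfl⟩
    exact hb1 i
  · intro x hx
    by_contra hxs
    have h5 : LinearIndependent K (Fin.snoc b x : Fin (finrank Ω V + 1) → F) :=
      hliK.finSnoc hxs
    have h6 := D.indep _ _ h5
    have h7 : LinearIndependent Ω (fun i => (⟨D.emb ((Fin.snoc b x : Fin (finrank Ω V + 1) → F) i), by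
        refine Fin.lastCases ?_ (fun i => ?_) i
        · rw [Fin.snoc_last]; exact hx
        · rw [Fin.snoc_castSucc]; exact hb1 i⟩ : V)) := by
      apply LinearIndependent.of_comp V.subtype
      exact h6
    have h8 := h7.fintype_card_le_finrank
    simp at h8

variable {D} in
theorem finite_low {V : Submodule Ω L} [FiniteDimensional Ω V] (hV : D.Stable V) :
    FiniteDimensional K (D.low V) := by
  obtain ⟨b, -, -, hb, hs⟩ := exists_basis hV
  rw [← hs]
  exact FiniteDimensional.span_of_finite K (Set.finite_range b)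

variable {D} in
theorem finrank_low {V : Submodule Ω L} [FiniteDimensional Ω V] (hV : D.Stable V) :
    finrank K (D.low V) = finrank Ω V := by
  obtain ⟨b, -, -, hb, hs⟩ := exists_basis hV
  rw [← hs, finrank_span_eq_card hb, Fintype.card_fin]

variable {D} in
/-- a proper subspace does not contain all descended elements -/
theorem exists_not_mem {V U : Submodule Ω L} [FiniteDimensional Ω V] (hV : D.Stable V)
    (h : ¬ V ≤ U) : ∃ x ∈ D.low V, D.emb x ∉ U := by
  by_contra hc
  push Not at hc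
  apply h
  refine (D.desc V inferInstance hV).trans ?_
  rw [Submodule.span_le]
  rintro _ ⟨x, hx, rfl⟩
  exact hc x hx

end Desc

end Emb


/-- A model with components indexed by `J`. -/
structure CModel (A K F k R κ Ω L : Type*) [CommRing A] [IsDomain A] [IsDiscreteValuationRing A]
    [Field K] [Algebra A K] [IsFractionRing A K] [Field F] [Algebra K F] [Algebra A F]
    [IsScalarTower A K F] [Field k] [Algebra A k] [CommRing R] [Algebra k R] [Algebra A R]
    [IsScalarTower A k R] [Field κ] [Algebra k κ] [Field Ω] [Field L] [Algebra Ω L] [Algebra K Ω]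
    (ι J : Type*) [Fintype ι] [Fintype J] extends Desc K F Ω L where
  G : GaussData A K F k R ι
  hk : Function.Surjective (algebraMap A k)
  hspan : ∀ x : F, ∃ q : K[X], q ≠ 0 ∧ ∃ P : ι → K[X], aeval G.t q * x = G.comb P
  comp : J → Comp F κ
  mem_W : ∀ x, x ∈ G.W ↔ ∀ j, x ∈ (comp j).W
  p : A
  p_ne : p ≠ 0
  hp : ∀ a : A, algebraMap A k a = 0 → ∃ b, a = p * b
  e : J → ℕ
  e_pos : ∀ j, 0 < e j
  v_p : ∀ j, (comp j).v (algebraMap A F p) = e j
  ρ : J → R →ₐ[k] κ
  ρ_π : ∀ j (x : F) (hx : x ∈ G.W), ρ j (G.π ⟨x, hx⟩) = (comp j).r x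
  π_surj : Function.Surjective G.π
  ker_π : ∀ (x : F) (hx : x ∈ G.W), (∀ j, (comp j).Ge (e j) x) → G.π ⟨x, hx⟩ = 0
  sep : ∀ j, ∃ c : F, c ∈ G.W ∧ (comp j).r c ≠ 0 ∧ ∀ i, i ≠ j → (comp i).Ge 1 c

variable {A K F k R κ Ω L : Type*} [CommRing A] [IsDomain A] [IsDiscreteValuationRing A]
    [Field K] [Algebra A K] [IsFractionRing A K] [Field F] [Algebra K F] [Algebra A F]
    [IsScalarTower A K F] [Field k] [Algebra A k] [CommRing R] [Algebra k R] [Algebra A R]
    [IsScalarTower A k R] [Field κ] [Algebra k κ] [Field Ω] [Field L] [Algebra Ω L] [Algebra K Ω]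
    {ι J : Type*} [Fintype ι] [Fintype J]

namespace CModel

variable (M : CModel A K F k R κ Ω L ι J)

/-- exchange `t` and `t⁻¹` -/
noncomputable def inv : CModel A K F k R κ Ω L ι J where
  toDesc := M.toDesc
  G := M.G.inv
  hk := M.hk
  hspan := M.G.inv_hspan M.hspan
  comp := M.comp
  mem_W := M.mem_W
  p := M.p
  p_ne := M.p_ne
  hp := M.hp
  e := M.e
  e_pos := M.e_pos
  v_p := M.v_p
  ρ := M.ρ
  ρ_π := M.ρ_π
  π_surj := M.π_surj
  ker_π := M.ker_π
  sep := M.sep

/-- the parameter -/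
def t : F := M.G.t

theorem t_inv : M.inv.t = M.t⁻¹ := rfl

theorem t_ne : M.t ≠ 0 := M.G.t_ne_zero

theorem inv_W : M.inv.G.W = M.G.W := rfl

theorem inv_comp : M.inv.comp = M.comp := rfl

theorem t_mem : M.t ∈ M.G.W := M.G.ht

theorem t_memj (j : J) : M.t ∈ (M.comp j).W := (M.mem_W _).1 M.t_mem j

theorem memj {x : F} (hx : x ∈ M.G.W) (j : J) : x ∈ (M.comp j).W := (M.mem_W _).1 hx j

/-- the reduction of the parameter -/
noncomputable def tb (j : J) : κ := (M.comp j).r M.t

theorem ρ_t (j : J) : M.ρ j (M.G.π ⟨M.t, M.t_mem⟩) = M.tb j := M.ρ_π j _ _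

theorem transcendental_tb (j : J) : Transcendental k (M.tb j) := by
  rw [transcendental_iff]
  intro q hq
  by_contra hq0
  have h1 := (M.G.isUnit_t q hq0).map (M.ρ j)
  rw [← aeval_algHom_apply] at h1
  have h2 : M.ρ j (M.G.π ⟨M.G.t, M.G.ht⟩) = M.tb j := M.ρ_t j
  rw [h2, hq] at h1
  exact not_isUnit_zero h1

theorem tb_ne (j : J) : M.tb j ≠ 0 := fun h => M.transcendental_tb j (h ▸ isAlgebraic_zero)

theorem v_t (j : J) : (M.comp j).v M.t = 0 :=
  (Comp.r_ne_zero_iff M.t_ne).1 (M.tb_ne j)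

theorem tb_inv (j : J) : M.inv.tb j = (M.tb j)⁻¹ := Comp.r_inv (M.v_t j)

include M in
theorem nontrivial_R (j : J) : Nontrivial R := by
  refine ⟨⟨0, 1, fun h => ?_⟩⟩
  have := congrArg (M.ρ j) h
  rw [map_zero, map_one] at this
  exact zero_ne_one this

include M in
theorem nonempty_ι [Nonempty J] : Nonempty ι := by
  by_contra hι
  rw [not_nonempty_iff] at hι
  obtain ⟨q, hq, P, hP⟩ := M.hspan 1
  obtain ⟨j⟩ := ‹Nonempty J›
  rw [mul_one] at hP
  have h0 : M.G.comb P = 0 := by
    rw [GaussData.comb]; exact Finset.sum_of_isEmpty _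
  rw [h0] at hP
  obtain ⟨c, hc, Q, hQ, h2⟩ := GaussData.exists_primitive_one (A := A) (k := k) K hq
  have h3 := M.G.aeval_ne_zero hQ
  apply h3
  rw [h2, map_mul, aeval_C, GaussData.aeval_map_K] at hP
  exact (mul_eq_zero.1 hP).resolve_left (by simpa using hc)

theorem transcendental_t [Nonempty J] : Transcendental K M.t := by
  haveI := M.nonempty_ι
  exact M.G.transcendental

theorem p_memj (j : J) : algebraMap A F M.p ∈ (M.comp j).W := M.memj (M.G.W.algebraMap_mem _) j

include M in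
theorem algebraMap_inj : Function.Injective (algebraMap A F) := by
  rw [IsScalarTower.algebraMap_eq A K F]
  exact (algebraMap K F).injective.comp (IsFractionRing.injective A K)

theorem pF_ne : algebraMap A F M.p ≠ 0 := by
  rw [Ne, map_eq_zero_iff _ M.algebraMap_inj]
  exact M.p_ne

theorem ge_of_π_eq_zero {x : F} {hx : x ∈ M.G.W} (h : M.G.π ⟨x, hx⟩ = 0) (j : J) :
    (M.comp j).Ge (M.e j) x := by
  obtain ⟨a, ha, y, hy⟩ := M.G.ker_mem M.hk M.hspan ⟨x, hx⟩ h
  obtain ⟨b, rfl⟩ := M.hp a ha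
  have h1 : x = algebraMap A F M.p * (algebraMap A F b * (y : F)) := by
    have := congrArg Subtype.val hy
    change x = (M.p * b) • (y : F) at this
    rw [this, Algebra.smul_def, map_mul, mul_assoc]
  rw [h1]
  have h2 : (M.comp j).Ge (M.e j) (algebraMap A F M.p) := Or.inr (M.v_p j).ge
  have h3 : (M.comp j).Ge 0 (algebraMap A F b * (y : F)) :=
    Comp.ge_of_mem (M.memj (mul_mem (M.G.W.algebraMap_mem _) y.2) j)
  exact (h2.mul h3).mono (by simp)

theorem π_eq_zero_iff {x : F} (hx : x ∈ M.G.W) : M.G.π ⟨x, hx⟩ = 0 ↔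
    ∀ j, (M.comp j).Ge (M.e j) x := ⟨M.ge_of_π_eq_zero, M.ker_π x hx⟩

/-- `x / p` for `x` vanishing to the right order -/
theorem div_p_mem {x : F} (h : ∀ j, (M.comp j).Ge (M.e j) x) :
    (algebraMap A F M.p)⁻¹ * x ∈ M.G.W := by
  rw [M.mem_W]
  intro j
  rw [← Comp.ge_zero_iff]
  have h1 : (M.comp j).Ge (-(M.e j)) (algebraMap A F M.p)⁻¹ :=
    Or.inr (by rw [Comp.v_inv, M.v_p])
  exact (h1.mul (h j)).mono (by simp)

/-- the ring of integral elements regular where `t` is finite -/
def B : Subring F where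
  carrier := {x | x ∈ M.G.W ∧ Reg Ω (M.emb M.t) (M.emb x)}
  mul_mem' := fun {x y} hx hy => ⟨mul_mem hx.1 hy.1, by
    rw [map_mul]; exact hx.2.mul hy.2⟩
  one_mem' := ⟨M.G.W.one_mem, by rw [map_one]; exact Reg.one _⟩
  add_mem' := fun {x y} hx hy => ⟨add_mem hx.1 hy.1, by
    rw [map_add]; exact hx.2.add hy.2⟩
  zero_mem' := ⟨M.G.W.zero_mem, by rw [map_zero]; exact fun v _ => Ge.zero v 0⟩
  neg_mem' := fun {x} hx => ⟨neg_mem hx.1, by
    rw [map_neg]; exact fun v hv => (hx.2 v hv).neg⟩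

theorem mem_B {x : F} : x ∈ M.B ↔ x ∈ M.G.W ∧ Reg Ω (M.emb M.t) (M.emb x) := Iff.rfl

theorem t_mem_B : M.t ∈ M.B := ⟨M.t_mem, fun _ hv => Ge.of_le hv⟩

theorem emb_K (c : K) : Reg Ω (M.emb M.t) (M.emb (algebraMap K F c)) := by
  rw [M.hemb]; exact Reg.algebraMap _ _

theorem algebraMap_mem_B (a : A) : algebraMap A F a ∈ M.B := by
  refine ⟨M.G.W.algebraMap_mem a, ?_⟩
  rw [IsScalarTower.algebraMap_apply A K F]
  exact M.emb_K _

theorem aeval_mem_B (P : A[X]) : aeval M.t P ∈ M.B := by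
  rw [aeval_eq_sum_range]
  refine sum_mem fun i _ => ?_
  rw [Algebra.smul_def]
  exact mul_mem (M.algebraMap_mem_B _) (pow_mem M.t_mem_B _)

end CModel

end Fermat.Agent.Car
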