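import Fermat.Agent.Car.Node

/-!
# Comparison of the two charts of a model
-/

set_option autoImplicit false
set_option linter.unusedSectionVars false
set_option linter.style.haveILetI false

namespace Fermat.Agent.Car

open Module Polynomial IntermediateField AlgebraicCurve Fermat.Agent.Red Fermat.Agent.RR
  Fermat.Agent.Nod Fermat.Agent.Curve

section Gen

variable {k E : Type*} [Field k] [Field E] [Algebra k E]

theorem ge_of_val_ne {v : Place k E} {x : E} (h : val v x ≠ 0) : Ge v 0 x := by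
  classical
  by_contra hc
  apply h
  rw [Nod.val, dif_neg]
  rintro ⟨a, ha⟩
  apply hc
  have h1 : Ge v 0 (x - algebraMap k E a) := ha.mono (by norm_num)
  have h2 := h1.add (Ge.algebraMap v a)
  rwa [sub_add_cancel] at h2

theorem ord_eq_zero_of_val_ne [IsAlgClosed k] [FunField k E] {v : Place k E} {x : E}
    (h : val v x ≠ 0) : v.ord x = 0 := by
  have h0 : x ≠ 0 := by
    rintro rfl
    rw [val_zero] at h
    exact h rfl
  exact (val_ne_zero_iff (ge_of_val_ne h) h0).1 h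

theorem val_ne_of_ord [IsAlgClosed k] [FunField k E] {v : Place k E} {x : E} (hx : x ≠ 0)
    (h : v.ord x = 0) : val v x ≠ 0 :=
  (val_ne_zero_iff (Ge.of_le h.ge) hx).2 h

/-- bounded poles -/
theorem exists_pow_reg [IsAlgClosed k] [FunField k E] {t x : E} (ht : t ≠ 0) (hx : Reg k t⁻¹ x) :
    ∃ N : ℕ, Reg k t (t ^ N * x) := by
  refine ⟨∑ v ∈ (divisor k x).support, (v.ord x).natAbs, fun v hv => ?_⟩
  set N := ∑ v ∈ (divisor k x).support, (v.ord x).natAbs with hN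
  rcases eq_or_ne x 0 with rfl | hx0
  · rw [mul_zero]; exact Ge.zero _ _
  apply Ge.of_le
  rw [v.ord_mul (pow_ne_zero _ ht) hx0, ord_pow]
  have hN0 : (0 : ℤ) ≤ N := Int.natCast_nonneg _
  rcases hv.eq_or_lt with h | h
  · have h1 : 0 ≤ v.ord t⁻¹ := by rw [v.ord_inv, ← h, neg_zero]
    rw [← h, mul_zero, zero_add]
    exact (hx v h1).le_ord hx0
  · by_cases hv' : v ∈ (divisor k x).support
    · have h1 : (v.ord x).natAbs ≤ N := Finset.single_le_sum
        (f := fun v : Place k E => (v.ord x).natAbs) (fun _ _ => Nat.zero_le _) hv'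
      have h2 : -((v.ord x).natAbs : ℤ) ≤ v.ord x := by omega
      have h3 : ((v.ord x).natAbs : ℤ) ≤ N := by exact_mod_cast h1
      have h4 : (N : ℤ) * 1 ≤ N * v.ord t := mul_le_mul_of_nonneg_left h hN0
      rw [mul_one] at h4
      exact le_trans (by omega) (add_le_add_left (h3.trans h4) _)
    · rw [Finsupp.notMem_support_iff, divisor_apply] at hv'
      rw [hv', add_zero]
      exact mul_nonneg hN0 h.le

end Gen

variable {A K F k R κ Ω L : Type*} [CommRing A] [IsDomain A] [IsDiscreteValuationRing A]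
    [Field K] [Algebra A K] [IsFractionRing A K] [Field F] [Algebra K F] [Algebra A F]
    [IsScalarTower A K F] [Field k] [Algebra A k] [CommRing R] [Algebra k R] [Algebra A R]
    [IsScalarTower A k R] [Field κ] [Algebra k κ] [Field Ω] [Field L] [Algebra Ω L] [Algebra K Ω]
    {ι J : Type*} [Fintype ι] [Fintype J]

namespace CModel

variable (M : CModel A K F k R κ Ω L ι J)

theorem inv_inv_B : M.inv.inv.B = M.B := by
  ext x
  rw [mem_B, mem_B]
  have h1 : M.inv.inv.G.W = M.G.W := rfl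
  have h2 : M.inv.inv.emb M.inv.inv.t = M.emb M.t := by
    change M.emb (M.t⁻¹)⁻¹ = _
    rw [inv_inv]
  rw [h1, h2]
  exact Iff.rfl

variable [IsAlgClosed Ω] [CharZero Ω] [FunField Ω L] [Algebra.IsAlgebraic K Ω] [Nonempty J]
  [IsAlgClosed k] [FunField k κ]

theorem emb_t_ne : M.emb M.t ≠ 0 := (_root_.map_ne_zero _).2 M.t_ne

variable {M}

theorem exists_tpow_mul_mem {x : F} (hx : x ∈ M.inv.B) : ∃ N : ℕ, M.t ^ N * x ∈ M.B := by
  obtain ⟨N, hN⟩ := exists_pow_reg M.emb_t_ne (x := M.emb x) (by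
    have := hx.2
    change Reg Ω (M.emb M.t⁻¹) (M.emb x) at this
    rwa [map_inv₀] at this)
  refine ⟨N, mul_mem (pow_mem M.t_mem N) hx.1, ?_⟩
  rw [map_mul, map_pow]
  exact hN

theorem t_inv_mem : M.t⁻¹ ∈ M.G.W := M.inv.t_mem

/-- the relation on the overlap of the two charts -/
theorem SameAt.to_inv {j i : J} {Q Q' : Place k κ} (hQ : Q.ord (M.tb j) = 0)
    (hQ' : Q'.ord (M.tb i) = 0) (h : M.SameAt j Q i Q') : M.inv.SameAt j Q i Q' := by
  intro x hx
  obtain ⟨N, hN⟩ := exists_tpow_mul_mem hx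
  have h1 := h _ hN
  have h2 := h _ M.t_mem_B
  have hxj : ∀ l, x ∈ (M.comp l).W := fun l => M.inv.memj hx.1 l
  have hgx : ∀ (l : J) (P : Place k κ), P.ord (M.tb l) = 0 → Ge P 0 ((M.comp l).r x) := by
    intro l P hP
    have h0 : 0 ≤ P.ord (M.inv.tb l) := by rw [M.tb_inv, P.ord_inv, hP, neg_zero]
    exact M.inv.reg_r hx l P h0
  rw [Comp.r_mul (pow_mem (M.t_memj j) N) (hxj j), Comp.r_mul (pow_mem (M.t_memj i) N) (hxj i),
    Comp.r_pow (M.t_memj j), Comp.r_pow (M.t_memj i)] at h1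
  change val Q (M.tb j ^ N * _) = val Q' (M.tb i ^ N * _) at h1
  change val Q (M.tb j) = val Q' (M.tb i) at h2
  have g1 : Ge Q 0 (M.tb j) := Ge.of_le hQ.ge
  have g2 : Ge Q' 0 (M.tb i) := Ge.of_le hQ'.ge
  rw [val_mul (ge_zero_pow g1 N) (hgx j Q hQ), val_mul (ge_zero_pow g2 N) (hgx i Q' hQ'),
    val_pow g1, val_pow g2, h2] at h1
  exact mul_left_cancel₀ (pow_ne_zero _ (val_ne_of_ord (M.tb_ne i) hQ')) h1

theorem SameAt.of_inv {j i : J} {Q Q' : Place k κ} (hQ : Q.ord (M.tb j) = 0)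
    (hQ' : Q'.ord (M.tb i) = 0) (h : M.inv.SameAt j Q i Q') : M.SameAt j Q i Q' := by
  have h1 := SameAt.to_inv (M := M.inv) (by rw [M.tb_inv, Q.ord_inv, hQ, neg_zero])
    (by rw [M.tb_inv, Q'.ord_inv, hQ', neg_zero]) h
  intro x hx
  exact h1 x (by rwa [M.inv_inv_B])

/-- the value of `t` at equivalent points -/
theorem SameAt.ord_tb {j i : J} {Q Q' : Place k κ} (hQ : Q.ord (M.tb j) = 0)
    (h : M.SameAt j Q i Q') : Q'.ord (M.tb i) = 0 := by
  have h2 := h _ M.t_mem_B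
  change val Q (M.tb j) = val Q' (M.tb i) at h2
  apply ord_eq_zero_of_val_ne
  rw [← h2]
  exact val_ne_of_ord (M.tb_ne j) hQ

/-- regularity on the overlap of the two charts -/
theorem star_inv (H : M.Good) {j : J} {Q : Place k κ} (hQ : Q.ord (M.tb j) = 0) :
    ∃ i, ∃ Q' : Place k κ, 0 ≤ Q'.ord (M.inv.tb i) ∧
    M.inv.SameAt j Q i Q' ∧ ∃ u ∈ M.inv.B, (M.inv.comp i).v u = 1 ∧
      ∃ z, Reg Ω (M.inv.emb M.inv.t) (M.inv.emb z) ∧
      (M.inv.comp i).v z = -1 ∧ (∀ l, l ≠ i → (M.inv.comp l).Ge 0 z) ∧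
      val Q' ((M.inv.comp i).r (u * z)) ≠ 0 := by
  obtain ⟨i, Q', hQ', hs, u, hu, hu1, z, hz, hz1, hzl, hval⟩ := H.star j Q hQ.ge
  have hQi : Q'.ord (M.tb i) = 0 := hs.ord_tb hQ
  have hvt : ∀ (l : J) (N : ℕ), (M.comp l).v (M.t⁻¹ ^ N) = 0 := by
    intro l N
    rw [Comp.v_pow, Comp.v_inv, M.v_t, neg_zero, mul_zero]
  have hti : ∀ N : ℕ, M.t⁻¹ ^ N ≠ 0 := fun N => pow_ne_zero _ (inv_ne_zero M.t_ne)
  obtain ⟨N, hN⟩ := exists_tpow_mul_mem (M := M.inv) (x := u) (by rwa [M.inv_inv_B])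
  obtain ⟨N', hN'⟩ := exists_pow_reg (t := M.emb M.t⁻¹) (x := M.emb z)
    ((_root_.map_ne_zero _).2 (inv_ne_zero M.t_ne)) (by rwa [map_inv₀, inv_inv])
  have hu0 : u ≠ 0 := by
    rintro rfl
    rw [Comp.v_zero] at hu1
    exact zero_ne_one hu1
  have hz0 : z ≠ 0 := by
    rintro rfl
    rw [Comp.v_zero] at hz1
    norm_num at hz1
  refine ⟨i, Q', ?_, hs.to_inv hQ hQi, _, hN, ?_, M.t⁻¹ ^ N' * z, ?_, ?_, ?_, ?_⟩
  · rw [M.tb_inv, Q'.ord_inv, hQi, neg_zero]
  · change (M.comp i).v (M.t⁻¹ ^ N * u) = 1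
    rw [Comp.v_mul _ (hti N) hu0, hvt, hu1, zero_add]
  · change Reg Ω (M.emb M.t⁻¹) (M.emb (M.t⁻¹ ^ N' * z))
    rw [map_mul, map_pow]
    exact hN'
  · change (M.comp i).v (M.t⁻¹ ^ N' * z) = -1
    rw [Comp.v_mul _ (hti N') hz0, hvt, hz1, zero_add]
  · intro l hl
    change (M.comp l).Ge 0 (M.t⁻¹ ^ N' * z)
    have h1 : (M.comp l).Ge 0 (M.t⁻¹ ^ N') := Or.inr (hvt l N').ge
    have := h1.mul (hzl l hl)
    rwa [add_zero] at this
  · change val Q' ((M.comp i).r (M.t⁻¹ ^ N * u * (M.t⁻¹ ^ N' * z))) ≠ 0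
    have e1 : M.t⁻¹ ^ N * u * (M.t⁻¹ ^ N' * z) = M.t⁻¹ ^ (N + N') * (u * z) := by
      rw [pow_add]; ring
    have htW : M.t⁻¹ ∈ (M.comp i).W := M.memj M.t_inv_mem i
    have huz : u * z ∈ (M.comp i).W := Comp.mem_of_v (by
      rw [Comp.v_mul _ hu0 hz0, hu1, hz1]; norm_num)
    have e2 : (M.comp i).r M.t⁻¹ = (M.tb i)⁻¹ := Comp.r_inv (M.v_t i)
    rw [e1, Comp.r_mul (pow_mem htW _) huz, Comp.r_pow htW, e2]
    have hg : Q'.ord (M.tb i)⁻¹ = 0 := by rw [Q'.ord_inv, hQi, neg_zero]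
    have g1 : Ge Q' 0 (M.tb i)⁻¹ := Ge.of_le hg.ge
    rw [val_mul (ge_zero_pow g1 _) (ge_of_val_ne hval), val_pow g1]
    exact mul_ne_zero (pow_ne_zero _ (val_ne_of_ord (inv_ne_zero (M.tb_ne i)) hg)) hval

/-- the intersection points of the second chart -/
theorem node_inv (hN : M.Node) (hcusp : ∀ j (Q : Place k κ) i (Q' : Place k κ),
    Q.ord (M.tb j) < 0 → Q'.ord (M.tb i) < 0 → M.inv.SameAt j Q i Q' → j = i) :
    M.inv.Node := by
  intro j Q i Q' hQ hQ' hs hji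
  rw [M.tb_inv, Place.ord_inv] at hQ hQ'
  have h2 := hs _ M.inv.t_mem_B
  have e : ∀ l, (M.inv.comp l).r M.inv.t = (M.tb l)⁻¹ := fun l => M.tb_inv l
  rw [e, e] at h2
  rcases (neg_nonneg.1 hQ).eq_or_lt with h | h
  · -- the overlap
    have h3 : Q'.ord (M.tb i) = 0 := by
      have h4 : val Q (M.tb j)⁻¹ ≠ 0 := val_ne_of_ord (inv_ne_zero (M.tb_ne j))
        (by rw [Place.ord_inv, h, neg_zero])
      rw [h2] at h4
      have := ord_eq_zero_of_val_ne h4
      rw [Place.ord_inv] at this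
      omega
    obtain ⟨rfl, hall⟩ := hN j Q i Q' h.ge h3.ge (hs.of_inv h h3) hji
    refine ⟨rfl, fun l => ?_⟩
    have h5 := (hall l).2.ord_tb h
    refine ⟨?_, (hall l).2.to_inv h h5⟩
    rw [M.tb_inv, Place.ord_inv, h5, neg_zero]
  · exfalso
    have h3 : Q'.ord (M.tb i) < 0 := by
      rcases (neg_nonneg.1 hQ').eq_or_lt with h3 | h3
      · exfalso
        have h4 : val Q' (M.tb i)⁻¹ ≠ 0 := val_ne_of_ord (inv_ne_zero (M.tb_ne i))
          (by rw [Place.ord_inv, h3, neg_zero])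
        rw [← h2] at h4
        have := ord_eq_zero_of_val_ne h4
        rw [Place.ord_inv] at this
        omega
      · exact h3
    exact hji (hcusp j Q i Q' h h3 hs)

end CModel

end Fermat.Agent.Car
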