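import Fermat.Agent.Car.RigC

/-!
# Rigidity with a condition at the intersection points
-/

set_option autoImplicit false
set_option linter.unusedSectionVars false
set_option linter.style.haveILetI false

namespace Fermat.Agent.Car

open Module Polynomial IntermediateField AlgebraicCurve Fermat.Agent.Red Fermat.Agent.RR
  Fermat.Agent.Nod Fermat.Agent.Curve

variable {A K F k R κ Ω L : Type*} [CommRing A] [IsDomain A] [IsDiscreteValuationRing A]
    [Field K] [Algebra A K] [IsFractionRing A K] [Field F] [Algebra K F] [Algebra A F]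
    [IsScalarTower A K F] [Field k] [Algebra A k] [CommRing R] [Algebra k R] [Algebra A R]
    [IsScalarTower A k R] [Field κ] [Algebra k κ] [Field Ω] [Field L] [Algebra Ω L] [Algebra K Ω]
    {ι J : Type*} [Fintype ι] [Fintype J]

namespace CModel

variable (M : CModel A K F k R κ Ω L ι J)

/-- the intersection points lie on all components, with the same coordinate -/
def Node : Prop := ∀ j (Q : Place k κ) i (Q' : Place k κ), 0 ≤ Q.ord (M.tb j) →
  0 ≤ Q'.ord (M.tb i) → M.SameAt j Q i Q' → j ≠ i →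
    Q = Q' ∧ ∀ l, 0 ≤ Q.ord (M.tb l) ∧ M.SameAt j Q l Q

theorem SameAt.symm {j : J} {Q : Place k κ} {i : J} {Q' : Place k κ} (h : M.SameAt j Q i Q') :
    M.SameAt i Q' j Q := fun x hx => (h x hx).symm

theorem SameAt.trans {j : J} {Q : Place k κ} {i : J} {Q' : Place k κ} {l : J} {Q'' : Place k κ}
    (h : M.SameAt j Q i Q') (h' : M.SameAt i Q' l Q'') : M.SameAt j Q l Q'' :=
  fun x hx => (h x hx).trans (h' x hx)

variable [IsAlgClosed Ω] [CharZero Ω] [FunField Ω L] [Algebra.IsAlgebraic K Ω] [Nonempty J]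
  [IsAlgClosed k] [FunField k κ]

theorem eq_of_sameAt (hsurj : ∀ j (z : κ), Reg k (M.tb j) z → ∃ x ∈ M.B, (M.comp j).r x = z)
    {j : J} {Q Q' : Place k κ} (hQ : 0 ≤ Q.ord (M.tb j)) (hQ' : 0 ≤ Q'.ord (M.tb j))
    (h : M.SameAt j Q j Q') : Q = Q' := by
  apply FrobData.place_eq_of_val (M.transcendental_tb j) hQ hQ'
  intro x hx
  obtain ⟨a, ha, rfl⟩ := hsurj j x hx
  exact h a ha

variable [CharZero K]

/-- orders of normalised sections -/
theorem ge_div {f : F} (hf0 : f ≠ 0) (hv : ∀ j, (M.comp j).v f = 0) {m : ℕ}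
    (hm : m ≠ 0) {E : Divisor Ω L} (hE : ∀ v, (m : ℤ) * E v = v.ord (M.emb f)) {s : F}
    (hs : s ∈ M.M0 E) {j : J} {Q : Place k κ} (hQ : 0 ≤ Q.ord (M.tb j)) {g : κ}
    (hg : g ^ m = (M.comp j).r f) : Ge Q 0 ((M.comp j).r s / g) ∧
      val Q ((M.comp j).r s / g) ^ m = val Q ((M.comp j).r (s ^ m * f⁻¹)) := by
  have hsW : s ∈ (M.comp j).W := M.memj hs.1 j
  have hfW : f⁻¹ ∈ (M.comp j).W := Comp.mem_of_v (by rw [Comp.v_inv, hv]; norm_num)
  have h1 := M.reg_r (M.pow_mul_inv_mem_B hf0 hv hm hE hs) j Q hQ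
  have e : (M.comp j).r (s ^ m * f⁻¹) = ((M.comp j).r s / g) ^ m := by
    rw [Comp.r_mul (pow_mem hsW m) hfW, Comp.r_pow hsW, Comp.r_inv (hv j), ← hg, div_pow,
      div_eq_mul_inv]
  rw [e] at h1
  have h2 : Ge Q 0 ((M.comp j).r s / g) := by
    rcases eq_or_ne ((M.comp j).r s / g) 0 with h | h
    · rw [h]; exact Ge.zero _ _
    · have h3 := h1.le_ord (pow_ne_zero _ h)
      rw [ord_pow] at h3
      right
      have hm' : (0 : ℤ) < m := by exact_mod_cast Nat.pos_of_ne_zero hm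
      by_contra h4
      push Not at h4
      nlinarith
  exact ⟨h2, by rw [e, val_pow h2]⟩

theorem match_of_exists {f : F} (hf0 : f ≠ 0) (hv : ∀ j, (M.comp j).v f = 0) {m : ℕ}
    (hm : m ≠ 0) {E : Divisor Ω L} (hE : ∀ v, (m : ℤ) * E v = v.ord (M.emb f))
    {γ : J → κ} (hγ : ∀ j, γ j ^ m = (M.comp j).r f) {j : J} {Q : Place k κ} {i : J}
    {Q' : Place k κ} (hQ : 0 ≤ Q.ord (M.tb j)) (hQ' : 0 ≤ Q'.ord (M.tb i))
    (hsame : M.SameAt j Q i Q') {s : F} (hs : s ∈ M.M0 E)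
    (hsQ : val Q ((M.comp j).r (s ^ m * f⁻¹)) ≠ 0)
    (heq : val Q ((M.comp j).r s / γ j) = val Q' ((M.comp i).r s / γ i))
    {s' : F} (hs' : s' ∈ M.M0 E) :
    val Q ((M.comp j).r s' / γ j) = val Q' ((M.comp i).r s' / γ i) := by
  have hy := M.mul_pow_mul_inv_mem_B hf0 hv hm hE hs hs'
  have hη := M.pow_mul_inv_mem_B hf0 hv hm hE hs
  have hkey : ∀ l (P : Place k κ), 0 ≤ P.ord (M.tb l) →
      val P ((M.comp l).r (s' * s ^ (m - 1) * f⁻¹)) * val P ((M.comp l).r s / γ l) =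
      val P ((M.comp l).r (s ^ m * f⁻¹)) * val P ((M.comp l).r s' / γ l) := by
    intro l P hP
    have g1 := (M.ge_div hf0 hv hm hE hs hP (hγ l)).1
    have g2 := (M.ge_div hf0 hv hm hE hs' hP (hγ l)).1
    rw [← val_mul (M.reg_r hy l P hP) g1, ← val_mul (M.reg_r hη l P hP) g2]
    congr 1
    have hsW : s ∈ (M.comp l).W := M.memj hs.1 l
    have hsW' : s' ∈ (M.comp l).W := M.memj hs'.1 l
    have hfW : f⁻¹ ∈ (M.comp l).W := Comp.mem_of_v (by rw [Comp.v_inv, hv]; norm_num)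
    rw [Comp.r_mul (mul_mem hsW' (pow_mem hsW _)) hfW, Comp.r_mul hsW' (pow_mem hsW _),
      Comp.r_mul (pow_mem hsW m) hfW, Comp.r_pow hsW, Comp.r_pow hsW]
    have : (M.comp l).r s ^ m = (M.comp l).r s ^ (m - 1) * (M.comp l).r s := by
      rw [← pow_succ, Nat.sub_add_cancel (Nat.pos_of_ne_zero hm)]
    rw [this, div_eq_mul_inv, div_eq_mul_inv]
    ring
  have k1 := hkey j Q hQ
  have k2 := hkey i Q' hQ'
  have e1 := hsame _ hy
  have e2 := hsame _ hη
  rw [e1, heq, k2, ← e2] at k1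
  exact mul_left_cancel₀ hsQ k1.symm

/-- **Rigidity with a condition at the intersection points.** -/
theorem rigN (H : M.Good) (H' : M.inv.Good) (hN : M.Node) (hN' : M.inv.Node)
    {q : ℕ} [Fact q.Prime] [CharP k q] {f : F}
    (hf0 : f ≠ 0) (hv : ∀ j, (M.comp j).v f = 0) {m : ℕ}
    (hm : (m : k) ≠ 0) {E : Divisor Ω L} (hE : ∀ v, (m : ℤ) * E v = v.ord (M.emb f))
    (γ : J → κ) (hγ : ∀ j, γ j ^ m = (M.comp j).r f)
    (hmatch : ∀ (Q : Place k κ), (∀ l, 0 ≤ Q.ord (M.tb l)) → (∀ l l', M.SameAt l Q l' Q) →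
      ∃ s, s ∈ M.M0 E ∧ (∀ l, val Q ((M.comp l).r (s ^ m * f⁻¹)) ≠ 0) ∧
      ∀ l l', val Q ((M.comp l).r s / γ l) = val Q ((M.comp l').r s / γ l'))
    (hmatch' : ∀ (Q : Place k κ), (∀ l, 0 ≤ Q.ord (M.inv.tb l)) →
      (∀ l l', M.inv.SameAt l Q l' Q) →
      ∃ s, s ∈ M.inv.M0 E ∧ (∀ l, val Q ((M.comp l).r (s ^ m * f⁻¹)) ≠ 0) ∧
      ∀ l l', val Q ((M.comp l).r s / γ l) = val Q ((M.comp l').r s / γ l')) :
    ∃ x : L, x ^ m = M.emb f := by
  have hm0 : m ≠ 0 := by rintro rfl; simp at hm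
  refine M.rigC H H' hf0 hv hm hE γ hγ ?_ ?_
  · intro j Q i Q' hQ hQ' hsame s hs hne
    by_cases hji : j = i
    · subst hji
      rw [M.eq_of_sameAt H.surj hQ hQ' hsame]
    · obtain ⟨rfl, hall⟩ := hN j Q i Q' hQ hQ' hsame hji
      have hsm : ∀ l l', M.SameAt l Q l' Q := fun l l' => ((hall l).2.symm).trans M (hall l').2
      obtain ⟨s₀, hs₀, hs₀Q, heq⟩ := hmatch Q (fun l => (hall l).1) hsm
      exact M.match_of_exists hf0 hv hm0 hE hγ hQ hQ' hsame hs₀ (hs₀Q j) (heq j i) hs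
  · intro j Q i Q' hQ hQ' hsame s hs hne
    by_cases hji : j = i
    · subst hji
      rw [M.inv.eq_of_sameAt H'.surj hQ hQ' hsame]
    · obtain ⟨rfl, hall⟩ := hN' j Q i Q' hQ hQ' hsame hji
      have hsm : ∀ l l', M.inv.SameAt l Q l' Q := fun l l' =>
        ((hall l).2.symm).trans M.inv (hall l').2
      obtain ⟨s₀, hs₀, hs₀Q, heq⟩ := hmatch' Q (fun l => (hall l).1) hsm
      exact M.inv.match_of_exists hf0 hv hm0 hE hγ hQ hQ' hsame hs₀ (hs₀Q j) (heq j i) hs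

end CModel

end Fermat.Agent.Car
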