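import Fermat.Agent.Car.Fib
import Fermat.Agent.Nod.Rigid

/-!
# Rigidity for models with components
-/

set_option autoImplicit false
set_option linter.unusedSectionVars false
set_option linter.style.haveILetI false

namespace Fermat.Agent.Car

open Module Polynomial IntermediateField AlgebraicCurve Fermat.Agent.Red Fermat.Agent.RR
  Fermat.Agent.Nod Fermat.Agent.Curve

section General

variable {k E : Type*} [Field k] [Field E] [Algebra k E] [IsAlgClosed k] [FunField k E]

theorem mem_of_pow_mul_inv_mem {t : E} {f : E} (hf : f ≠ 0) {m : ℕ} (hm : m ≠ 0)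
    {D : Divisor k E} (hD : ∀ v, (m : ℤ) * D v = v.ord f) {a b : ℕ} {x : E}
    (hx : x ^ m * f⁻¹ ∈ riemannRochSpace (DD k t (m * a) (m * b))) :
    x ∈ riemannRochSpace (DD k t a b - D) := by
  rcases eq_or_ne x 0 with rfl | hx0
  · exact zero_mem _
  rw [mem_L] at hx ⊢
  intro v
  right
  have hne : x ^ m * f⁻¹ ≠ 0 := mul_ne_zero (pow_ne_zero _ hx0) (inv_ne_zero hf)
  have h1 := (hx v).le_ord hne
  have e1 : v.ord (x ^ m * f⁻¹) = m * v.ord x - m * D v := by
    rw [← div_eq_mul_inv, ord_div v (pow_ne_zero _ hx0) hf, ord_pow, hD]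
  rw [e1] at h1
  have e2 : DD k t (m * a) (m * b) v = m * DD k t a b v := by
    rw [DD_apply, DD_apply]; push_cast; ring
  rw [e2] at h1
  rw [Finsupp.sub_apply]
  have hm' : (0 : ℤ) < m := by exact_mod_cast Nat.pos_of_ne_zero hm
  have h2 : (m : ℤ) * (-(DD k t a b v - D v)) ≤ m * v.ord x := by linarith
  exact le_of_mul_le_mul_left h2 hm'

end General

variable {A K F k R κ Ω L : Type*} [CommRing A] [IsDomain A] [IsDiscreteValuationRing A]
    [Field K] [Algebra A K] [IsFractionRing A K] [Field F] [Algebra K F] [Algebra A F]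
    [IsScalarTower A K F] [Field k] [Algebra A k] [CommRing R] [Algebra k R] [Algebra A R]
    [IsScalarTower A k R] [Field κ] [Algebra k κ] [Field Ω] [Field L] [Algebra Ω L] [Algebra K Ω]
    {ι J : Type*} [Fintype ι] [Fintype J]

namespace CModel

variable (M : CModel A K F k R κ Ω L ι J)

variable [IsAlgClosed Ω] [CharZero Ω] [FunField Ω L] [Algebra.IsAlgebraic K Ω] [Nonempty J]

omit [Algebra.IsAlgebraic K Ω] [Nonempty J] in
theorem reg_stable {σ : L →+* L} (hσ : σ ∈ M.Γ) {s x : L} (hs : σ s = s)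
    (htr : Transcendental Ω s) (h : Reg Ω s x) : Reg Ω s (σ x) := by
  rw [reg_iff_isIntegralElem htr] at h ⊢
  choose g hg using M.Γ_semi σ hσ
  have hinj := (algebraMap Ω L).injective
  let g' : Ω →+* Ω :=
    { toFun := g
      map_one' := hinj (by rw [← hg, map_one, map_one])
      map_mul' := fun x y => hinj (by rw [← hg, map_mul, map_mul, map_mul, hg, hg])
      map_zero' := hinj (by rw [← hg, map_zero, map_zero])
      map_add' := fun x y => hinj (by rw [← hg, map_add, map_add, map_add, hg, hg]) }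
  obtain ⟨P, hP, hPx⟩ := h
  refine ⟨P.map (mapRingHom g'), hP.map _, ?_⟩
  rw [eval₂_map]
  have e : (aeval s : (Polynomial Ω) →ₐ[Ω] L).toRingHom.comp (mapRingHom g') =
      σ.comp (aeval s : (Polynomial Ω) →ₐ[Ω] L).toRingHom := by
    apply Polynomial.ringHom_ext
    · intro a
      change aeval s ((C a).map g') = σ (aeval s (C a))
      rw [map_C, aeval_C, aeval_C, hg]
      rfl
    · change aeval s ((X : (Polynomial Ω)).map g') = σ (aeval s X)
      rw [map_X, aeval_X, hs]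
  rw [e, ← hom_eval₂, hPx, map_zero]

/-- `L(aP+bZ-E)` over the small field -/
noncomputable def LD (E : Divisor Ω L) (a b : ℕ) : Submodule K F :=
  M.low (riemannRochSpace (DD Ω (M.emb M.t) a b - E))

theorem mem_LD {E : Divisor Ω L} {a b : ℕ} {x : F} :
    x ∈ M.LD E a b ↔ M.emb x ∈ riemannRochSpace (DD Ω (M.emb M.t) a b - E) := Iff.rfl

theorem stable_DD (a b : ℕ) : M.toDesc.Stable (riemannRochSpace (DD Ω (M.emb M.t) a b)) := by
  intro σ hσ x hx
  rw [mem_DD_iff M.transcendental_emb_t] at hx ⊢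
  have h1 := M.Γ_emb σ hσ M.t
  have e1 := M.reg_stable hσ h1 M.transcendental_emb_t hx.1
  have e2 := M.reg_stable hσ (s := (M.emb M.t)⁻¹) (by rw [map_inv₀, h1])
    (RR.transcendental_inv M.transcendental_emb_t) hx.2
  rw [map_mul, map_pow, h1] at e1
  rw [map_mul, map_pow, map_inv₀, h1] at e2
  exact ⟨e1, e2⟩

theorem stable_DD_sub {f : F} (hf : f ≠ 0) {m : ℕ} (hm : m ≠ 0) {E : Divisor Ω L}
    (hE : ∀ v, (m : ℤ) * E v = v.ord (M.emb f)) (a b : ℕ) :
    M.toDesc.Stable (riemannRochSpace (DD Ω (M.emb M.t) a b - E)) := by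
  intro σ hσ x hx
  have hf' : M.emb f ≠ 0 := by rwa [Ne, map_eq_zero]
  apply mem_of_pow_mul_inv_mem hf' hm hE
  have h1 := M.stable_DD _ _ σ hσ _ (pow_mul_inv_mem hf' hm hE hx)
  rwa [map_mul, map_pow, map_inv₀, M.Γ_emb σ hσ] at h1

theorem stable_DD_zero (a b : ℕ) :
    M.toDesc.Stable (riemannRochSpace (DD Ω (M.emb M.t) a b - 0)) := by
  rw [sub_zero]; exact M.stable_DD a b

instance fin_L (D : Divisor Ω L) : FiniteDimensional Ω (riemannRochSpace D) := inferInstance

theorem finrank_LD {E : Divisor Ω L}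
    (hst : ∀ a b, M.toDesc.Stable (riemannRochSpace (DD Ω (M.emb M.t) a b - E)))
    (hE0 : Divisor.degree E = 0) : ∃ n₀ : ℕ, ∀ a b, n₀ ≤ a + b →
      (finrank K (M.LD E a b) : ℤ) = (a + b) * finrank Ω⟮M.emb M.t⟯ L + 1 - rrGenus Ω L := by
  obtain ⟨c, hc⟩ := exists_riemann (K := Ω) (F := L)
  refine ⟨c.toNat, fun a b hab => ?_⟩
  have h1 := degree_DD (k := Ω) M.transcendental_emb_t a b
  have h2 : (1 : ℤ) ≤ finrank Ω⟮M.emb M.t⟯ L := by
    exact_mod_cast Nod.finrank_pos M.transcendental_emb_t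
  have h3 : (c.toNat : ℤ) ≤ a + b := by exact_mod_cast hab
  have h4 := Int.self_le_toNat c
  have h5 : Divisor.degree (DD Ω (M.emb M.t) a b - E) = (a + b) * finrank Ω⟮M.emb M.t⟯ L := by
    rw [map_sub, hE0, sub_zero, h1]
  have h6 := hc (DD Ω (M.emb M.t) a b - E) (by rw [h5]; nlinarith)
  rw [h5] at h6
  rw [← h6, LD, Desc.finrank_low (hst a b)]
  rfl

theorem mem_LD_zero_iff {a b : ℕ} {x : F} (hx : x ∈ M.G.W) : x ∈ M.LD 0 a b ↔
    M.t ^ b * x ∈ M.B ∧ M.t⁻¹ ^ a * x ∈ M.inv.B := by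
  rw [mem_LD, sub_zero, mem_DD_iff M.transcendental_emb_t]
  constructor
  · rintro ⟨h1, h2⟩
    refine ⟨⟨M.pow_mul_mem hx b, ?_⟩, ⟨M.inv_pow_mul_mem hx a, ?_⟩⟩
    · rw [map_mul, map_pow]; exact h1
    · change Reg Ω (M.emb M.t⁻¹) (M.emb (M.t⁻¹ ^ a * x))
      rw [map_mul, map_pow, map_inv₀]; exact h2
  · rintro ⟨⟨-, h1⟩, ⟨-, h2⟩⟩
    rw [map_mul, map_pow] at h1
    change Reg Ω (M.emb M.t⁻¹) (M.emb (M.t⁻¹ ^ a * x)) at h2
    rw [map_mul, map_pow, map_inv₀] at h2
    exact ⟨h1, h2⟩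

/-- the reduction model -/
noncomputable def RM : RedModel A K F k R := M.G.toRedModel M.hk M.hspan

variable [CharZero K]

theorem rd_LD_zero : ∃ N : ℕ, ∀ a b, N ≤ a + b → M.RM.rd M.hk (M.LD 0 a b) = M.S a b := by
  obtain ⟨N, hN⟩ := M.exists_lift_S
  refine ⟨N, fun a b hab => ?_⟩
  ext r
  constructor
  · rintro ⟨x, hx, hxr⟩
    have h1 := (M.mem_LD_zero_iff (x := x) hx.1).1 hx.2
    have hxr' : M.G.π ⟨x, hx.1⟩ = r := hxr
    rw [mem_S, ← hxr', ← M.π_pow_mul hx.1 b (M.pow_mul_mem hx.1 b),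
      ← M.π_inv_pow_mul hx.1 a (M.inv_pow_mul_mem hx.1 a)]
    exact ⟨M.π_mem_BB h1.1, M.inv.π_mem_BB h1.2⟩
  · intro hr
    obtain ⟨x, hx, h1, h2, h3⟩ := hN a b hab r hr
    exact ⟨x, ⟨hx, (M.mem_LD_zero_iff hx).2 ⟨h1, h2⟩⟩, h3⟩

theorem finite_low' {V : Submodule Ω L} (hfin : FiniteDimensional Ω V) (hV : M.toDesc.Stable V) :
    FiniteDimensional K (M.toDesc.low V) := Desc.finite_low hV

/-- **Rigidity**: `f` is an `m`-th power as soon as sections of the root divisor reduce to regular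
multiples of a root `γ` of the reduction. -/
theorem rigid {m : ℕ} (hm : (m : k) ≠ 0) {f : F} (hf0 : f ≠ 0) (hf : f ∈ M.G.W)
    {E : Divisor Ω L} (hE : ∀ v, (m : ℤ) * E v = v.ord (M.emb f)) {γ : Rˣ}
    (hγ : M.G.π ⟨f, hf⟩ = (γ : R) ^ m)
    (hloc : ∀ x (hx : x ∈ M.G.W), (∀ v : Place Ω L, 0 ≤ v.ord (M.emb M.t) →
      Ge v (E v) (M.emb x)) → (↑γ⁻¹ : R) * M.G.π ⟨x, hx⟩ ∈ M.BB)
    (hloc' : ∀ x (hx : x ∈ M.G.W), (∀ v : Place Ω L, 0 ≤ v.ord (M.emb M.t⁻¹) →
      Ge v (E v) (M.emb x)) → (↑γ⁻¹ : R) * M.G.π ⟨x, hx⟩ ∈ M.inv.BB) :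
    ∃ x : L, x ^ m = M.emb f := by
  have hm0 : m ≠ 0 := by rintro rfl; simp at hm
  have hemb0 : M.emb f ≠ 0 := by rwa [Ne, map_eq_zero]
  have hdegE := degree_eq_zero_of hm0 hE
  have hstE := fun a b => M.stable_DD_sub hf0 hm0 hE a b
  have hst0 := fun a b => M.stable_DD_zero a b
  obtain ⟨N1, hN1⟩ := M.S_split
  obtain ⟨N2, hN2⟩ := M.rd_LD_zero
  obtain ⟨N3, hN3⟩ := M.finrank_LD hstE hdegE
  obtain ⟨N4, hN4⟩ := M.finrank_LD hst0 (map_zero _)
  haveI : ∀ a b, FiniteDimensional K (M.LD 0 a b) := fun a b =>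
    M.finite_low' inferInstance (hst0 a b)
  haveI : ∀ a b, FiniteDimensional K (M.LD E a b) := fun a b =>
    M.finite_low' inferInstance (hstE a b)
  set n0 := N1 + N2 + N3 + N4 with hn0
  have hA : ∃ t : A, t ≠ 0 ∧ ¬ IsUnit t := by
    obtain ⟨j⟩ := ‹Nonempty J›
    refine ⟨M.p, M.p_ne, fun hu => ?_⟩
    have h1 := M.v_p j
    obtain ⟨u, hu⟩ := hu
    have h2 : (M.comp j).v (algebraMap A F M.p) + (M.comp j).v (algebraMap A F ↑u⁻¹) = 0 := by
      rw [← Comp.v_mul, ← map_mul, ← hu, Units.mul_inv, map_one, Comp.v_one]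
      · exact M.pF_ne
      · rw [Ne, map_eq_zero_iff _ M.algebraMap_inj]; exact Units.ne_zero _
    have h3 : 0 ≤ (M.comp j).v (algebraMap A F (↑u⁻¹ : A)) := by
      have := M.memj (M.G.W.algebraMap_mem (↑u⁻¹ : A)) j
      rw [Comp.mem_iff] at this
      rcases this with h | h
      · rw [h, Comp.v_zero]
      · exact h
    have h4 := M.e_pos j
    rw [h1] at h2
    omega
  refine rigidity_abstract M.emb M.hemb M.RM M.hk hA ?_ hm (f := f) hf (g := (γ : R)) γ.isUnit hγ
    (M.LD 0) (M.LD E) ?_ ?_ ?_ ?_ ?_ ?_ M.S (fun a b => M.one_mem_S a b) n0 ?_ ?_ ?_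
  · -- rank one
    intro a c ha hc
    obtain ⟨n, u, hu⟩ := IsDiscreteValuationRing.associated_pow_irreducible hc
      (IsDiscreteValuationRing.exists_irreducible A).choose_spec
    set ϖ := (IsDiscreteValuationRing.exists_irreducible A).choose with hϖ
    have hϖi : Irreducible ϖ := (IsDiscreteValuationRing.exists_irreducible A).choose_spec
    have h1 : ϖ ∣ a := by
      by_contra h2
      have : IsUnit a := by
        by_contra h3
        apply h2
        have h4 : a ∈ IsLocalRing.maximalIdeal A := h3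
        rw [hϖi.maximalIdeal_eq, Ideal.mem_span_singleton] at h4
        exact h4
      have h5 := this.map (algebraMap A k)
      rw [ha] at h5
      exact not_isUnit_zero h5
    refine ⟨n, ?_⟩
    have h6 : ϖ ^ n ∣ a ^ n := pow_dvd_pow_of_dvd h1 n
    have h7 : c ∣ ϖ ^ n := ⟨u, hu.symm⟩
    exact h7.trans h6
  · -- monotonicity
    intro a b a' b' ha hb x hx
    exact L_mono (sub_le_sub_right (DD_mono _ ha hb) _) hx
  · intro a b a' b' ha hb x hx
    exact L_mono (sub_le_sub_right (DD_mono _ ha hb) _) hx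
  · rw [mem_LD, map_one, sub_zero, mem_L]
    intro v
    rw [DD_apply]
    simp only [Nat.cast_zero, zero_mul, add_zero, neg_zero]
    exact Ge.one v
  · intro a b c d x y hx hy
    rw [mem_LD, sub_zero, mem_L] at *
    intro v
    have := (hx v).mul (hy v)
    rw [map_mul]
    refine this.mono ?_
    rw [DD_apply, DD_apply, DD_apply]
    push_cast
    linarith
  · intro a b c d x y hx hy
    rw [mem_LD, mem_L] at *
    intro v
    have := (hx v).mul (hy v)
    rw [map_mul]
    refine this.mono ?_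
    rw [Finsupp.sub_apply, Finsupp.sub_apply, Finsupp.sub_apply, DD_apply, DD_apply, DD_apply]
    simp only [Finsupp.coe_zero, Pi.zero_apply]
    push_cast
    linarith
  · intro a b x hx
    rw [mem_LD, sub_zero, map_mul, map_pow, map_inv₀]
    exact pow_mul_inv_mem hemb0 hm0 hE hx
  · -- reduction of `V`
    intro a b hab
    have hle : M.RM.rd M.hk (M.LD E a b) ≤ (M.S a b).map (LinearMap.mulLeft k (γ : R)) := by
      rintro _ ⟨x, hx, rfl⟩
      change M.G.π ⟨x, hx.1⟩ ∈ _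
      have hxL : M.emb x ∈ riemannRochSpace (DD Ω (M.emb M.t) a b - E) := hx.2
      rw [mem_L] at hxL
      refine ⟨(↑γ⁻¹ : R) * M.G.π ⟨x, hx.1⟩, ?_, ?_⟩
      · change _ ∈ M.S a b
        rw [mem_S]
        constructor
        · have h1 := hloc (M.t ^ b * x) (M.pow_mul_mem hx.1 b) (by
            intro v hv
            have h2 := (Ge.of_le (le_refl (v.ord (M.emb M.t ^ b)))).mul (hxL v)
            rw [map_mul, map_pow]
            refine h2.mono ?_
            rw [ord_pow, Finsupp.sub_apply, DD_apply, max_eq_right (by linarith), max_eq_left hv]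
            ring_nf
            exact le_rfl)
          rw [M.π_pow_mul hx.1] at h1
          have e : M.τ ^ b * ((↑γ⁻¹ : R) * M.G.π ⟨x, hx.1⟩) =
            (↑γ⁻¹ : R) * (M.τ ^ b * M.G.π ⟨x, hx.1⟩) := by ring
          rw [e]; exact h1
        · have h1 := hloc' (M.t⁻¹ ^ a * x) (M.inv_pow_mul_mem hx.1 a) (by
            intro v hv
            have h2 := (Ge.of_le (le_refl (v.ord ((M.emb M.t)⁻¹ ^ a)))).mul (hxL v)
            rw [map_inv₀, v.ord_inv] at hv
            rw [map_mul, map_pow, map_inv₀]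
            refine h2.mono ?_
            rw [ord_pow, v.ord_inv, Finsupp.sub_apply, DD_apply, max_eq_left hv,
              max_eq_right (by linarith)]
            ring_nf
            exact le_rfl)
          rw [M.π_inv_pow_mul hx.1] at h1
          have e : M.inv.τ ^ a * ((↑γ⁻¹ : R) * M.G.π ⟨x, hx.1⟩) =
            (↑γ⁻¹ : R) * (M.inv.τ ^ a * M.G.π ⟨x, hx.1⟩) := by ring
          rw [e]; exact h1
      · rw [LinearMap.mulLeft_apply, ← mul_assoc, Units.mul_inv, one_mul]
    have hinj : Function.Injective (LinearMap.mulLeft k (γ : R)) := by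
      intro x y hxy
      simp only [LinearMap.mulLeft_apply] at hxy
      exact γ.isUnit.mul_left_cancel hxy
    have hS : FiniteDimensional k (M.S a b) := by
      rw [← hN2 a b (by omega)]
      infer_instance
    have heq : M.RM.rd M.hk (M.LD E a b) = (M.S a b).map (LinearMap.mulLeft k (γ : R)) := by
      apply Submodule.eq_of_le_of_finrank_eq hle
      rw [← (Submodule.equivMapOfInjective _ hinj (M.S a b)).finrank_eq, ← hN2 a b (by omega),
        RedModel.finrank_rd, RedModel.finrank_rd]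
      have e1 := hN3 a b (by omega)
      have e2 := hN4 a b (by omega)
      rw [← e2] at e1
      exact_mod_cast e1
    intro r
    rw [heq]
    constructor
    · rintro ⟨s, hs, rfl⟩
      exact ⟨s, hs, rfl⟩
    · rintro ⟨s, hs, rfl⟩
      exact ⟨s, hs, rfl⟩
  · intro a b ha hb s hs
    obtain ⟨n', hn'⟩ := Nat.exists_eq_add_of_le (show N1 ≤ n0 by omega)
    exact hN1 n0 (by omega) a b ha hb s hs
  · intro a b ha hb x hx
    obtain ⟨h1, h2⟩ := hx
    have h1' : M.emb x ∈ riemannRochSpace (DD Ω (M.emb M.t) a n0 - E) := h1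
    have h2' : M.emb x ∈ riemannRochSpace (DD Ω (M.emb M.t) n0 b - E) := h2
    change M.emb x ∈ riemannRochSpace (DD Ω (M.emb M.t) n0 n0 - E)
    rw [mem_L] at h1' h2' ⊢
    intro v
    rcases le_total 0 (v.ord (M.emb M.t)) with hv | hv
    · refine (h1' v).mono ?_
      rw [Finsupp.sub_apply, Finsupp.sub_apply, DD_apply, DD_apply,
        max_eq_right (a := -v.ord (M.emb M.t)) (by linarith)]
      linarith
    · refine (h2' v).mono ?_
      rw [Finsupp.sub_apply, Finsupp.sub_apply, DD_apply, DD_apply,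
        max_eq_right (a := v.ord (M.emb M.t)) hv]
      linarith

end CModel

end Fermat.Agent.Car
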