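import Fermat.Agent.Car.Pl
import Fermat.Agent.Car.Rig

/-!
# Local factoriality of models with components
-/

set_option autoImplicit false
set_option linter.unusedSectionVars false
set_option linter.style.haveILetI false

namespace Fermat.Agent.Car

open Module Polynomial IntermediateField AlgebraicCurve Fermat.Agent.Red Fermat.Agent.RR
  Fermat.Agent.Nod Fermat.Agent.Curve

variable {A K F k R κ Ω L : Type*} [CommRing A] [IsDomain A] [IsDiscreteValuationRing A]
    [Field K] [Algebra A K] [IsFractionRing A K] [Field F] [Algebra K F] [Algebra A F]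
    [IsScalarTower A K F] [Field k] [Algebra A k] [CommRing R] [Algebra k R] [Algebra A R]
    [IsScalarTower A k R] [Field κ] [Algebra k κ] [Field Ω] [Field L] [Algebra Ω L] [Algebra K Ω]
    {ι J : Type*} [Fintype ι] [Fintype J]

namespace CModel

variable (M : CModel A K F k R κ Ω L ι J)

/-- two points of the components have the same image -/
def SameAt (j : J) (Q : Place k κ) (i : J) (Q' : Place k κ) : Prop :=
  ∀ x ∈ M.B, val Q ((M.comp j).r x) = val Q' ((M.comp i).r x)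

/-- smooth components and regularity -/
structure Good : Prop where
  surj : ∀ j (z : κ), Reg k (M.tb j) z → ∃ x ∈ M.B, (M.comp j).r x = z
  star : ∀ j (Q : Place k κ), 0 ≤ Q.ord (M.tb j) → ∃ i, ∃ Q' : Place k κ, 0 ≤ Q'.ord (M.tb i) ∧
    M.SameAt j Q i Q' ∧ ∃ u ∈ M.B, (M.comp i).v u = 1 ∧ ∃ z, Reg Ω (M.emb M.t) (M.emb z) ∧
      (M.comp i).v z = -1 ∧ (∀ l, l ≠ i → (M.comp l).Ge 0 z) ∧
      val Q' ((M.comp i).r (u * z)) ≠ 0

/-- units of `W` coming from polynomials -/
theorem v_aeval {q : A[X]} (hq : q.map (algebraMap A k) ≠ 0) (j : J) :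
    (M.comp j).v (aeval M.t q) = 0 := by
  have h1 := M.memj (M.G.aeval_mem q) j
  have h2 := M.memj (M.G.inv_aeval_mem hq) j
  rw [Comp.mem_iff] at h1 h2
  have h0 : aeval M.G.t q ≠ 0 := by
    haveI := M.nontrivial_R j
    exact M.G.aeval_ne_zero hq
  rw [Comp.v_inv] at h2
  change (M.comp j).v (aeval M.G.t q) = 0
  rcases h1 with h | h
  · exact absurd h h0
  rcases h2 with h' | h'
  · exact absurd h' (inv_ne_zero h0)
  omega

theorem v_algebraMap (c : A) (j : J) : (M.comp j).Ge 0 (algebraMap A F c) :=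
  Comp.ge_of_mem (M.memj (M.G.W.algebraMap_mem c) j)

theorem mem_W_iff {x : F} : x ∈ M.G.W ↔ ∀ j, (M.comp j).Ge 0 x := by
  rw [M.mem_W]
  exact forall_congr' fun j => Comp.ge_zero_iff.symm

section Int

variable [IsAlgClosed Ω] [CharZero Ω] [FunField Ω L] [Algebra.IsAlgebraic K Ω] [Nonempty J]

/-- primitive denominators -/
theorem exists_prim (y : F) : ∃ q : A[X], q.map (algebraMap A k) ≠ 0 ∧
    Reg Ω (M.emb M.t) (M.emb (aeval M.t q * y)) := by
  haveI := M.finiteDimensional_t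
  letI : Algebra K[X] F := (aeval M.t : K[X] →ₐ[K] F).toRingHom.toAlgebra
  have halg : IsAlgebraic K[X] y := by
    obtain ⟨q, hq, P, hP⟩ := M.hspan y
    -- `y` is algebraic over `K(t)`
    have h1 : IsAlgebraic K⟮M.t⟯ y := Algebra.IsAlgebraic.isAlgebraic y
    let g : K⟮M.t⟯ := AdjoinSimple.gen K M.t
    letI : Algebra K[X] K⟮M.t⟯ := (aeval g).toRingHom.toAlgebra
    haveI : IsScalarTower K[X] K⟮M.t⟯ F := by
      refine IsScalarTower.of_algebraMap_eq fun p => ?_
      change aeval M.t p = algebraMap K⟮M.t⟯ F (aeval g p)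
      rw [← aeval_algebraMap_apply]
      rfl
    haveI : IsFractionRing K[X] K⟮M.t⟯ := by
      let e : RatFunc K ≃ₐ[K[X]] K⟮M.t⟯ :=
        AlgEquiv.ofRingEquiv (f := (RatFunc.algEquivOfTranscendental M.t M.transcendental_t).toRingEquiv)
          (fun p => RatFunc.algEquivOfTranscendental_algebraMap M.t M.transcendental_t p)
      exact IsLocalization.isLocalization_of_algEquiv (nonZeroDivisors K[X]) e
    exact (IsFractionRing.isAlgebraic_iff K[X] K⟮M.t⟯ F).2 h1
  obtain ⟨p, hp, hpy⟩ := halg.exists_integral_multiple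
  obtain ⟨c, hc, Q, hQ, hpQ⟩ := GaussData.exists_primitive_one (A := A) (k := k) K hp
  refine ⟨Q, hQ, ?_⟩
  have h2 : Reg Ω (M.emb M.t) (M.emb (aeval M.t p * y)) := by
    rw [M.isIntegralElem_iff]
    have : p • y = aeval M.t p * y := by rw [Algebra.smul_def]; rfl
    rw [← this]
    exact hpy
  have h3 : M.emb (aeval M.t Q * y) = algebraMap Ω L (algebraMap K Ω c⁻¹) *
      M.emb (aeval M.t p * y) := by
    rw [← M.hemb, ← map_mul]
    congr 1
    rw [hpQ, map_mul, aeval_C, aeval_map_algebraMap, map_inv₀]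
    have hc' : algebraMap K F c ≠ 0 := by rwa [Ne, map_eq_zero]
    field_simp
  rw [h3]
  exact (Reg.algebraMap _ _).mul h2

/-- functions with prescribed vertical divisor near a component -/
theorem exists_adj (l : J) (a : ℤ) (N : ℕ) : ∃ g : F, g ≠ 0 ∧ Reg Ω (M.emb M.t) (M.emb g) ∧
    (M.comp l).v g = a ∧ ∀ l', l' ≠ l → (N : ℤ) ≤ (M.comp l').v g := by
  classical
  obtain ⟨c, hcW, hc, hc'⟩ := M.sep l
  have hc0 : c ≠ 0 := fun h => hc (by rw [h, Comp.r_zero])
  have hvc : (M.comp l).v c = 0 := (Comp.r_ne_zero_iff hc0).1 hc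
  let ϖ := (M.comp l).ϖ
  have hϖ : ϖ ≠ 0 := (M.comp l).ne
  let N' := N + ∑ l', (a * (M.comp l').v ϖ).natAbs
  obtain ⟨q, hq, hq'⟩ := M.exists_prim (ϖ ^ a * c ^ N')
  have hq0 : aeval M.t q ≠ 0 := by
    haveI := M.nontrivial_R l
    exact M.G.aeval_ne_zero hq
  have h1 : ϖ ^ a * c ^ N' ≠ 0 := mul_ne_zero (zpow_ne_zero _ hϖ) (pow_ne_zero _ hc0)
  refine ⟨aeval M.t q * (ϖ ^ a * c ^ N'), mul_ne_zero hq0 h1, hq', ?_, fun l' hl' => ?_⟩
  · rw [Comp.v_mul _ hq0 h1, M.v_aeval hq, Comp.v_mul _ (zpow_ne_zero _ hϖ) (pow_ne_zero _ hc0),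
      Comp.v_zpow, Comp.v_ϖ, Comp.v_pow, hvc]
    ring
  · rw [Comp.v_mul _ hq0 h1, M.v_aeval hq, Comp.v_mul _ (zpow_ne_zero _ hϖ) (pow_ne_zero _ hc0),
      Comp.v_zpow, Comp.v_pow]
    have h2 : 1 ≤ (M.comp l').v c := by
      rcases hc' l' hl' with h | h
      · exact absurd h hc0
      · exact h
    have h3 : (a * (M.comp l').v ϖ).natAbs ≤ ∑ l', (a * (M.comp l').v ϖ).natAbs :=
      Finset.single_le_sum (f := fun l' => (a * (M.comp l').v ϖ).natAbs)
        (fun _ _ => Nat.zero_le _) (Finset.mem_univ l')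
    have h4 : (N' : ℤ) ≤ N' * (M.comp l').v c := by
      nlinarith [Int.natCast_nonneg N']
    have h5 : (N' : ℤ) = N + ((∑ l', (a * (M.comp l').v ϖ).natAbs : ℕ) : ℤ) := by
      simp only [N']
      push_cast
      rfl
    omega

/-- sections of a root divisor on the affine part -/
def M0 (E : Divisor Ω L) : Submodule M.B F where
  carrier := {x | x ∈ M.G.W ∧ ∀ v : Place Ω L, 0 ≤ v.ord (M.emb M.t) → Ge v (E v) (M.emb x)}
  add_mem' := fun {x y} hx hy => ⟨add_mem hx.1 hy.1, fun v hv => by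
    rw [map_add]; exact (hx.2 v hv).add (hy.2 v hv)⟩
  zero_mem' := ⟨zero_mem _, fun v _ => by rw [map_zero]; exact Ge.zero v _⟩
  smul_mem' := fun b x hx => ⟨mul_mem b.2.1 hx.1, fun v hv => by
    change Ge v (E v) (M.emb ((b : F) * x))
    rw [map_mul]
    exact ((b.2.2 v hv).mul (hx.2 v hv)).mono (by simp)⟩

theorem mem_M0 {E : Divisor Ω L} {x : F} : x ∈ M.M0 E ↔ x ∈ M.G.W ∧
    ∀ v : Place Ω L, 0 ≤ v.ord (M.emb M.t) → Ge v (E v) (M.emb x) := Iff.rfl

/-- a section of exact order at a given point -/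
theorem exists_exact {f : F} (hf0 : f ≠ 0) {m : ℕ} (hm : m ≠ 0) {E : Divisor Ω L}
    (hE : ∀ v, (m : ℤ) * E v = v.ord (M.emb f)) {P : Place Ω L} (hP : 0 ≤ P.ord (M.emb M.t)) :
    ∃ x ∈ M.M0 E, x ≠ 0 ∧ P.ord (M.emb x) = E P := by
  classical
  obtain ⟨c, hc⟩ := exists_riemann (K := Ω) (F := L)
  have hd : (1 : ℤ) ≤ finrank Ω⟮M.emb M.t⟯ L := by
    exact_mod_cast Nod.finrank_pos M.transcendental_emb_t
  let a : ℕ := (c + 1).toNat
  have ha : c + 1 ≤ a := Int.self_le_toNat _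
  have hdeg : Divisor.degree (DD Ω (M.emb M.t) a 0 - E) = a * finrank Ω⟮M.emb M.t⟯ L := by
    rw [map_sub, degree_eq_zero_of hm hE, degree_DD M.transcendental_emb_t]
    push_cast
    ring
  have h1 := hc (DD Ω (M.emb M.t) a 0 - E) (by rw [hdeg]; nlinarith [Int.natCast_nonneg a])
  have hdeg' : Divisor.degree (DD Ω (M.emb M.t) a 0 - E - Finsupp.single P 1) =
      a * finrank Ω⟮M.emb M.t⟯ L - 1 := by
    rw [map_sub, hdeg, degree_single']
  have h2 := hc (DD Ω (M.emb M.t) a 0 - E - Finsupp.single P 1) (by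
    rw [hdeg']; nlinarith [Int.natCast_nonneg a])
  have hnot : ¬ riemannRochSpace (DD Ω (M.emb M.t) a 0 - E) ≤
      riemannRochSpace (DD Ω (M.emb M.t) a 0 - E - Finsupp.single P 1) := by
    intro hle
    have h3 := Submodule.finrank_mono hle
    have h4 : ell (DD Ω (M.emb M.t) a 0 - E) ≤
      ell (DD Ω (M.emb M.t) a 0 - E - Finsupp.single P 1) := h3
    have h5 : (ell (DD Ω (M.emb M.t) a 0 - E) : ℤ) ≤
      ell (DD Ω (M.emb M.t) a 0 - E - Finsupp.single P 1) := by exact_mod_cast h4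
    rw [h1, h2, hdeg, hdeg'] at h5
    linarith
  obtain ⟨x, hx, hx'⟩ := Desc.exists_not_mem (M.stable_DD_sub hf0 hm hE a 0) hnot
  have hxL : M.emb x ∈ riemannRochSpace (DD Ω (M.emb M.t) a 0 - E) := hx
  rw [mem_L] at hxL
  obtain ⟨b, hb, hbx⟩ := M.G.scale M.hspan x
  have hbx' : b • x = algebraMap A F b * x := Algebra.smul_def _ _
  rw [hbx'] at hbx
  have hb0 : algebraMap A F b ≠ 0 := by rwa [Ne, map_eq_zero_iff _ M.algebraMap_inj]
  have hx0 : x ≠ 0 := by
    rintro rfl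
    apply hx'
    rw [map_zero]; exact zero_mem _
  have hcst : ∀ v : Place Ω L, v.ord (M.emb (algebraMap A F b)) = 0 := by
    intro v
    rw [IsScalarTower.algebraMap_apply A K F, M.hemb]
    exact ord_algebraMap v _
  have hb0' : M.emb (algebraMap A F b) ≠ 0 := by rwa [Ne, map_eq_zero]
  have hx0' : M.emb x ≠ 0 := by rwa [Ne, map_eq_zero]
  have hord : P.ord (M.emb x) = E P := by
    have h6 := (hxL P).le_ord hx0'
    rw [Finsupp.sub_apply, DD_apply, max_eq_right (by linarith)] at h6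
    simp only [mul_zero, Nat.cast_zero, zero_mul, add_zero, zero_sub, neg_neg] at h6
    by_contra hne
    apply hx'
    rw [mem_L]
    intro v
    by_cases hv : v = P
    · subst hv
      right
      rw [Finsupp.sub_apply, Finsupp.sub_apply, DD_apply, max_eq_right (by linarith),
        Finsupp.single_eq_same]
      simp only [mul_zero, Nat.cast_zero, zero_mul, add_zero, zero_sub]
      omega
    · have : (DD Ω (M.emb M.t) a 0 - E - Finsupp.single P 1 : Divisor Ω L) v =
          (DD Ω (M.emb M.t) a 0 - E : Divisor Ω L) v := by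
        rw [Finsupp.sub_apply, Finsupp.single_eq_of_ne hv, sub_zero]
      rw [this]
      exact hxL v
  refine ⟨algebraMap A F b * x, ⟨hbx, fun v hv => ?_⟩, mul_ne_zero hb0 hx0, ?_⟩
  · have h6 := hxL v
    rw [Finsupp.sub_apply, DD_apply, max_eq_right (by linarith)] at h6
    simp only [mul_zero, Nat.cast_zero, zero_mul, add_zero, zero_sub, neg_neg] at h6
    rw [map_mul]
    exact ((Ge.of_le (hcst v).ge).mul h6).mono (by simp)
  · rw [map_mul, Place.ord_mul _ hb0' hx0', hcst, zero_add, hord]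

/-- a section not vanishing on a given component -/
theorem exists_v_zero {f : F} (hf0 : f ≠ 0) {m : ℕ} (hm : m ≠ 0) {E : Divisor Ω L}
    (hE : ∀ v, (m : ℤ) * E v = v.ord (M.emb f)) (l : J) :
    ∃ x ∈ M.M0 E, x ≠ 0 ∧ (M.comp l).v x = 0 := by
  classical
  obtain ⟨P, hP⟩ := exists_pole (K := Ω) (f := (M.emb M.t)⁻¹)
    (RR.transcendental_inv M.transcendental_emb_t)
  rw [P.ord_inv] at hP
  obtain ⟨x, hx, hx0, -⟩ := M.exists_exact hf0 hm hE (P := P) (by linarith)
  obtain ⟨g, hg0, hg, hgl, hgl'⟩ := M.exists_adj l (-(M.comp l).v x)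
    (∑ l', ((M.comp l').v x).natAbs)
  refine ⟨g * x, ⟨?_, fun v hv => ?_⟩, mul_ne_zero hg0 hx0, ?_⟩
  · rw [M.mem_W_iff]
    intro l'
    right
    rw [Comp.v_mul _ hg0 hx0]
    by_cases hl : l' = l
    · subst hl
      rw [hgl]; omega
    · have h1 := hgl' l' hl
      have h3 : ((M.comp l').v x).natAbs ≤ ∑ l', ((M.comp l').v x).natAbs :=
        Finset.single_le_sum (f := fun l' => ((M.comp l').v x).natAbs)
          (fun _ _ => Nat.zero_le _) (Finset.mem_univ l')
      omega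
  · rw [map_mul]
    exact ((hg v hv).mul (hx.2 v hv)).mono (by simp)
  · rw [Comp.v_mul _ hg0 hx0, hgl]; ring

variable [CharZero K]

theorem fg_M0 {f : F} (hf0 : f ≠ 0) {m : ℕ} (hm : m ≠ 0) {E : Divisor Ω L}
    (hE : ∀ v, (m : ℤ) * E v = v.ord (M.emb f)) : (M.M0 E).FG := by
  haveI := M.isNoetherianRing_B
  have hE' : ∀ v, (m : ℤ) * (-E : Divisor Ω L) v = v.ord (M.emb f⁻¹) := by
    intro v
    rw [map_inv₀, v.ord_inv, ← hE, Finsupp.neg_apply]
    ring
  obtain ⟨j⟩ := ‹Nonempty J›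
  haveI : Nonempty J := ⟨j⟩
  obtain ⟨d, hd, hd0, -⟩ := M.exists_v_zero (inv_ne_zero hf0) hm hE' j
  have hle : M.M0 E ≤ Submodule.span M.B {d⁻¹} := by
    intro x hx
    have hdx : d * x ∈ M.B := by
      refine ⟨mul_mem hd.1 hx.1, fun v hv => ?_⟩
      rw [map_mul]
      exact ((hd.2 v hv).mul (hx.2 v hv)).mono (by rw [Finsupp.neg_apply]; linarith)
    rw [Submodule.mem_span_singleton]
    refine ⟨⟨d * x, hdx⟩, ?_⟩
    change (d * x) * d⁻¹ = x
    rw [mul_comm, inv_mul_cancel_left₀ hd0]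
  have h1 : IsNoetherian M.B (Submodule.span M.B {d⁻¹}) :=
    isNoetherian_of_fg_of_noetherian _ (Submodule.fg_span_singleton _)
  exact isNoetherian_submodule.1 h1 _ hle

end Int

end CModel

end Fermat.Agent.Car
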