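import Fermat.Agent.Car.Node

/-!
# The abstract form of Carayol's theorem: three components
-/

set_option autoImplicit false
set_option linter.unusedSectionVars false
set_option linter.style.haveILetI false

namespace Fermat.Agent.Car

open Module Polynomial IntermediateField AlgebraicCurve Fermat.Agent.Red Fermat.Agent.RR
  Fermat.Agent.Nod Fermat.Agent.Curve

variable {A K F k R κ Ω L : Type*} [CommRing A] [IsDomain A] [IsDiscreteValuationRing A]
    [Field K] [Algebra A K] [IsFractionRing A K] [Field F] [Algebra K F] [Algebra A F]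
    [IsScalarTower A K F] [Field k] [Algebra A k] [CommRing R] [Algebra k R] [Algebra A R]
    [IsScalarTower A k R] [Field κ] [Algebra k κ] [Field Ω] [Field L] [Algebra Ω L] [Algebra K Ω]
    {ι : Type*} [Fintype ι]

section Gen

variable {J : Type*} [Fintype J]

namespace CModel

variable (M : CModel A K F k R κ Ω L ι J)

variable [IsAlgClosed Ω] [CharZero Ω] [FunField Ω L] [Algebra.IsAlgebraic K Ω] [Nonempty J]
  [IsAlgClosed k] [FunField k κ]

omit [IsAlgClosed Ω] [CharZero Ω] [FunField Ω L] [Algebra.IsAlgebraic K Ω] [Nonempty J]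
  [IsAlgClosed k] [FunField k κ] in
include M in
theorem algebraMap_eq_zero_iff (a : A) : algebraMap A k a = 0 ↔ a ∈ IsLocalRing.maximalIdeal A := by
  constructor
  · intro h hu
    have := (show IsUnit a from hu).map (algebraMap A k)
    rw [h] at this
    exact not_isUnit_zero this
  · intro h
    by_contra hne
    exact h (isUnit_of_red_ne_zero M.hk hne)

omit [IsAlgClosed Ω] [CharZero Ω] [FunField Ω L] [Algebra.IsAlgebraic K Ω] [IsAlgClosed k]
  [FunField k κ] in
theorem irreducible_p : Irreducible M.p := by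
  obtain ⟨j⟩ := ‹Nonempty J›
  have hπ : algebraMap A k M.p = 0 := by
    by_contra hne
    obtain ⟨u, hu⟩ := isUnit_of_red_ne_zero M.hk hne
    have h2 : (M.comp j).v (algebraMap A F M.p) + (M.comp j).v (algebraMap A F ↑u⁻¹) = 0 := by
      rw [← Comp.v_mul, ← map_mul, ← hu, Units.mul_inv, map_one, Comp.v_one]
      · exact M.pF_ne
      · rw [Ne, map_eq_zero_iff _ M.algebraMap_inj]; exact Units.ne_zero _
    have h3 : 0 ≤ (M.comp j).v (algebraMap A F (↑u⁻¹ : A)) := by
      have := M.memj (M.G.W.algebraMap_mem (↑u⁻¹ : A)) j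
      rw [Comp.mem_iff] at this
      rcases this with h | h
      · rw [h, Comp.v_zero]
      · exact h
    have h4 := M.e_pos j
    rw [M.v_p j] at h2
    omega
  apply IsDiscreteValuationRing.irreducible_of_span_eq_maximalIdeal _ M.p_ne
  apply le_antisymm
  · intro a ha
    obtain ⟨b, rfl⟩ := M.hp a ((M.algebraMap_eq_zero_iff a).2 ha)
    exact Ideal.mem_span_singleton.2 (dvd_mul_right _ _)
  · rw [Ideal.span_singleton_le_iff_mem, ← M.algebraMap_eq_zero_iff]
    exact hπ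

omit [IsAlgClosed Ω] [CharZero Ω] [FunField Ω L] [Algebra.IsAlgebraic K Ω] [IsAlgClosed k]
  [FunField k κ] in
theorem exists_unit_pow {c : K} (hc : c ≠ 0) : ∃ (n : ℤ) (u : Aˣ),
    c = algebraMap A K (u : A) * algebraMap A K M.p ^ n := by
  have hirr := M.irreducible_p
  obtain ⟨a, b, hb, rfl⟩ := IsFractionRing.div_surjective (A := A) c
  have hb0 : b ≠ 0 := nonZeroDivisors.ne_zero hb
  have ha0 : a ≠ 0 := by
    rintro rfl
    simp at hc
  obtain ⟨n, u, rfl⟩ := IsDiscreteValuationRing.eq_unit_mul_pow_irreducible ha0 hirr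
  obtain ⟨n', u', rfl⟩ := IsDiscreteValuationRing.eq_unit_mul_pow_irreducible hb0 hirr
  have hp0 : algebraMap A K M.p ≠ 0 := by simpa using M.p_ne
  refine ⟨n - n', u * u'⁻¹, ?_⟩
  have hu' : algebraMap A K (u' : A) ≠ 0 := by simp
  have e : algebraMap A K ((u * u'⁻¹ : Aˣ) : A) = algebraMap A K (u : A) / algebraMap A K (u' : A) := by
    rw [eq_div_iff hu', ← map_mul]
    congr 1
    rw [← Units.val_mul]
    simp
  rw [e, map_mul, map_mul, map_pow, map_pow, zpow_sub₀ hp0, zpow_natCast, zpow_natCast]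
  field_simp

theorem v_unit (u : Aˣ) (j : J) : (M.comp j).v (algebraMap A F (u : A)) = 0 := by
  have h1 := M.memj (M.G.W.algebraMap_mem (u : A)) j
  have h2 := M.memj (M.G.W.algebraMap_mem (↑u⁻¹ : A)) j
  have hu0 : algebraMap A F (u : A) ≠ 0 := by
    rw [Ne, map_eq_zero_iff _ M.algebraMap_inj]; exact Units.ne_zero _
  have e : algebraMap A F (↑u⁻¹ : A) = (algebraMap A F (u : A))⁻¹ := by
    apply eq_inv_of_mul_eq_one_right
    rw [← map_mul, Units.mul_inv, map_one]
  rw [e] at h2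
  rw [Comp.mem_iff] at h1 h2
  rw [Comp.v_inv] at h2
  have h3 := h1.resolve_left hu0
  have h4 := h2.resolve_left (inv_ne_zero hu0)
  omega

theorem v_K {c : K} {n : ℤ} {u : Aˣ} (h : c = algebraMap A K (u : A) * algebraMap A K M.p ^ n)
    (j : J) : (M.comp j).v (algebraMap K F c) = n * M.e j := by
  have hu0 : algebraMap A F (u : A) ≠ 0 := by
    rw [Ne, map_eq_zero_iff _ M.algebraMap_inj]; exact Units.ne_zero _
  rw [h, map_mul, map_zpow₀, ← IsScalarTower.algebraMap_apply A K F,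
    ← IsScalarTower.algebraMap_apply A K F, Comp.v_mul _ hu0 (zpow_ne_zero _ M.pF_ne), M.v_unit,
    Comp.v_zpow, M.v_p, zero_add]

theorem exists_v_one (l : J) : ∃ g : F, g ≠ 0 ∧ (M.comp l).v g = 1 ∧
    ∀ l', l' ≠ l → (M.comp l').v g = 0 := by
  classical
  obtain ⟨ϖ, hϖ0, -, hϖl, hϖl'⟩ := M.exists_adj l 1 1
  choose e heW he1 he0 using M.exists_idem
  have he0' : ∀ i, e i ≠ 0 := fun i h => by
    have := he1 i
    rw [h, Comp.r_zero] at this
    exact zero_ne_one this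
  let y := ϖ * e l + ∑ i ∈ Finset.univ.erase l, e i ^ 2
  have hϖW : ∀ i, ϖ ∈ (M.comp i).W := by
    intro i
    apply Comp.mem_of_v
    by_cases hi : i = l
    · subst hi; omega
    · have := hϖl' i hi; omega
  have hge1 : ∀ i i', i ≠ i' → (M.comp i).Ge 1 (e i') := fun i i' h => by
    rw [← Comp.r_eq_zero_iff (M.memj (heW i') i)]
    exact he0 i' i h
  have hsum2 : (M.comp l).Ge 2 (∑ i ∈ Finset.univ.erase l, e i ^ 2) := by
    refine Comp.Ge.sum fun i hi => ?_
    exact ((hge1 l i (Finset.ne_of_mem_erase hi).symm).pow 2).mono (by norm_num)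
  have hvl : (M.comp l).v (ϖ * e l) = 1 := by
    rw [Comp.v_mul _ hϖ0 (he0' l), hϖl, (Comp.r_ne_zero_iff (he0' l)).1 (by
      rw [he1]; exact one_ne_zero), add_zero]
  have hne : ϖ * e l ≠ 0 := mul_ne_zero hϖ0 (he0' l)
  have hnot2 : ¬ (M.comp l).Ge 2 y := by
    intro h
    have h1 := h.sub hsum2
    have e1 : y - ∑ i ∈ Finset.univ.erase l, e i ^ 2 = ϖ * e l := by simp only [y]; ring
    rw [e1] at h1
    rcases h1 with h1 | h1
    · exact hne h1
    · omega
  have hy0 : y ≠ 0 := fun h => hnot2 (by rw [h]; exact Comp.ge_zero _)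
  refine ⟨y, hy0, ?_, fun l' hl' => ?_⟩
  · have h1 : (M.comp l).Ge 1 y := (Comp.ge_of_le hvl.ge).add (hsum2.mono (by norm_num))
    have h2 := h1.resolve_left hy0
    have h3 : ¬ 2 ≤ (M.comp l).v y := fun h => hnot2 (Or.inr h)
    omega
  · rw [← Comp.r_ne_zero_iff hy0]
    have hmem : l' ∈ Finset.univ.erase l := Finset.mem_erase.2 ⟨hl', Finset.mem_univ _⟩
    have hW2 : ∑ i ∈ (Finset.univ.erase l).erase l', e i ^ 2 ∈ (M.comp l').W :=
      sum_mem fun i _ => pow_mem (M.memj (heW i) l') 2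
    simp only [y]
    rw [← Finset.add_sum_erase _ _ hmem,
      Comp.r_add (mul_mem (hϖW l') (M.memj (heW l) l')) (add_mem (pow_mem (M.memj (heW l') l') 2) hW2),
      Comp.r_add (pow_mem (M.memj (heW l') l') 2) hW2, Comp.r_pow (M.memj (heW l') l'), he1,
      Comp.r_mul (hϖW l') (M.memj (heW l) l'), he0 l l' hl', mul_zero, zero_add]
    have h3 : (M.comp l').r (∑ i ∈ (Finset.univ.erase l).erase l', e i ^ 2) = 0 := by
      rw [Comp.r_eq_zero_iff hW2]
      refine Comp.Ge.sum fun i hi => ?_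
      exact ((hge1 l' i (Finset.ne_of_mem_erase hi).symm).pow 2).mono (by norm_num)
    rw [h3]
    simp

theorem exists_v (b : J → ℤ) : ∃ g : F, g ≠ 0 ∧ ∀ l, (M.comp l).v g = b l := by
  classical
  choose g hg0 hg1 hg using M.exists_v_one
  refine ⟨∏ l, g l ^ b l, Finset.prod_ne_zero_iff.2 fun l _ => zpow_ne_zero _ (hg0 l), fun i => ?_⟩
  have hprod : ∀ s : Finset J, (M.comp i).v (∏ l ∈ s, g l ^ b l) =
      ∑ l ∈ s, b l * (M.comp i).v (g l) := by
    intro s
    induction s using Finset.induction_on with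
    | empty => rw [Finset.prod_empty, Comp.v_one, Finset.sum_empty]
    | insert a s ha ih =>
      rw [Finset.prod_insert ha, Finset.sum_insert ha, Comp.v_mul _ (zpow_ne_zero _ (hg0 a))
        (Finset.prod_ne_zero_iff.2 fun l _ => zpow_ne_zero _ (hg0 l)), ih, Comp.v_zpow]
  rw [hprod, Finset.sum_eq_single i]
  · rw [hg1, mul_one]
  · intro l _ hl
    rw [hg l i hl.symm, mul_zero]
  · intro h; exact absurd (Finset.mem_univ _) h

omit [IsAlgClosed Ω] [CharZero Ω] [FunField Ω L] [Algebra.IsAlgebraic K Ω] [Nonempty J]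
  [IsAlgClosed k] [FunField k κ] in
theorem mem_B_of_pow {x : F} {m : ℕ} (hm : m ≠ 0) (h : x ^ m ∈ M.B) : x ∈ M.B := by
  rcases eq_or_ne x 0 with rfl | hx0
  · exact zero_mem _
  have hm' : (0 : ℤ) < m := by exact_mod_cast Nat.pos_of_ne_zero hm
  refine ⟨?_, fun v hv => ?_⟩
  · rw [M.mem_W_iff]
    intro j
    right
    have h1 := M.memj h.1 j
    rw [Comp.mem_iff] at h1
    have h2 := h1.resolve_left (pow_ne_zero _ hx0)
    rw [Comp.v_pow] at h2
    by_contra h3
    push Not at h3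
    nlinarith
  · have h1 := h.2 v hv
    have hx0' : M.emb x ≠ 0 := by rwa [Ne, map_eq_zero]
    rw [map_pow] at h1
    have h2 := h1.le_ord (pow_ne_zero _ hx0')
    rw [ord_pow] at h2
    right
    by_contra h3
    push Not at h3
    nlinarith

end CModel

end Gen

/-- Degeneracy operators of a model with three components. -/
structure Norm3 (M : CModel A K F k R κ Ω L ι (Fin 3)) (q : ℕ) where
  NN : F →* F
  w : F ≃+* F
  e0 : M.e 0 = 1
  e1 : M.e 1 = q - 1
  e2 : M.e 2 = 1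
  NN_ne : ∀ x, x ≠ 0 → NN x ≠ 0
  NN_K : ∀ c : K, NN (algebraMap K F c) = algebraMap K F (c ^ q)
  w_K : ∀ c : K, w (algebraMap K F c) = algebraMap K F c
  v_NN0 : ∀ x, x ≠ 0 → (M.comp 0).v (NN x) = (M.comp 0).v x + (M.comp 1).v x
  v_NN2 : ∀ x, x ≠ 0 → (M.comp 2).v (NN x) = q * (M.comp 2).v x
  r_NN0 : ∀ x, x ≠ 0 → (M.comp 0).v x = 0 → (M.comp 1).v x = 0 →
    (M.comp 0).r (NN x) = (M.comp 0).r x * (M.comp 1).r x ^ (q - 1)
  r_NN2 : ∀ x, x ≠ 0 → (M.comp 2).v x = 0 → (M.comp 2).r (NN x) = (M.comp 2).r x ^ q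
  v_w0 : ∀ x, (M.comp 0).v (w x) = (M.comp 2).v x
  v_w1 : ∀ x, (M.comp 1).v (w x) = (M.comp 1).v x
  v_w2 : ∀ x, (M.comp 2).v (w x) = (M.comp 0).v x
  r_w0 : ∀ x, (M.comp 0).r (w x) = (M.comp 2).r x
  r_w1 : ∀ x, (M.comp 1).r (w x) = (M.comp 1).r x
  r_w2 : ∀ x, (M.comp 2).r (w x) = (M.comp 0).r x

/-- the same operators for the chart at infinity -/
def Norm3.inv {M : CModel A K F k R κ Ω L ι (Fin 3)} {q : ℕ} (N : Norm3 M q) : Norm3 M.inv q where
  NN := N.NN
  w := N.w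
  e0 := N.e0
  e1 := N.e1
  e2 := N.e2
  NN_ne := N.NN_ne
  NN_K := N.NN_K
  w_K := N.w_K
  v_NN0 := N.v_NN0
  v_NN2 := N.v_NN2
  r_NN0 := N.r_NN0
  r_NN2 := N.r_NN2
  v_w0 := N.v_w0
  v_w1 := N.v_w1
  v_w2 := N.v_w2
  r_w0 := N.r_w0
  r_w1 := N.r_w1
  r_w2 := N.r_w2

/-- compatibility with the affine ring -/
structure Norm3.Stab {M : CModel A K F k R κ Ω L ι (Fin 3)} {q : ℕ} (N : Norm3 M q) : Prop where
  NN_B : ∀ x ∈ M.B, N.NN x ∈ M.B
  w_B : ∀ x ∈ M.B, N.w x ∈ M.B

section Field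

variable {κ' : Type*} [Field κ']

theorem exists_root_of_coprime {q m : ℕ} (hco : q.Coprime m) {x y : κ'} (hx : x ≠ 0)
    (h : x ^ q = y ^ m) : ∃ g : κ', g ^ m = x := by
  rcases eq_or_ne m 0 with rfl | hm
  · rw [Nat.coprime_zero_right] at hco
    subst hco
    exact ⟨1, by rw [pow_one, pow_zero] at h; rw [h, pow_zero]⟩
  have hy : y ≠ 0 := by
    rintro rfl
    rw [zero_pow hm] at h
    exact pow_ne_zero _ hx h
  obtain ⟨a, b, hab⟩ := Nat.isCoprime_iff_coprime.2 hco
  refine ⟨y ^ a * x ^ b, ?_⟩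
  have e1 : (y ^ a) ^ m = (x ^ q) ^ a := by
    rw [h, ← zpow_natCast, ← zpow_mul, mul_comm, zpow_mul, zpow_natCast]
  have e2 : (x ^ b) ^ m = x ^ (b * m) := by rw [← zpow_natCast, ← zpow_mul]
  rw [mul_pow, e1, e2, ← zpow_natCast x q, ← zpow_mul, ← zpow_add₀ hx]
  have : (q : ℤ) * a + b * m = 1 := by linarith
  rw [this, zpow_one]

end Field

section Root

variable [IsAlgClosed k] [FunField k κ]

theorem exists_const_of_pow_eq {m : ℕ} (hm : m ≠ 0) {u w : κ} (hw : w ≠ 0) (h : u ^ m = w ^ m) :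
    ∃ c : k, c ^ m = 1 ∧ u = algebraMap k κ c * w := by
  have h1 : (u / w) ^ m = 1 := by rw [div_pow, h, div_self (pow_ne_zero _ hw)]
  have halg : IsAlgebraic k (u / w) := by
    refine ⟨X ^ m - 1, ?_, ?_⟩
    · exact (monic_X_pow_sub_C (1 : k) hm).ne_zero
    · simp [h1]
  obtain ⟨c, hc⟩ := mem_range_of_isAlgebraic halg
  refine ⟨c, ?_, ?_⟩
  · apply (algebraMap k κ).injective
    rw [map_pow, hc, h1, map_one]
  · rw [hc, div_mul_cancel₀ _ hw]

end Root

end Fermat.Agent.Car
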