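import Fermat.Agent.Car.Carayol

/-!
# The abstract form of Carayol's theorem: conclusion
-/

set_option autoImplicit false
set_option linter.unusedSectionVars false
set_option linter.style.haveILetI false

namespace Fermat.Agent.Car

open Module Polynomial IntermediateField AlgebraicCurve Fermat.Agent.Red Fermat.Agent.RR
  Fermat.Agent.Nod Fermat.Agent.Curve

section Vals

variable {k κ : Type*} [Field k] [Field κ] [Algebra k κ] [IsAlgClosed k] [FunField k κ]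

/-- the normalised roots -/
noncomputable def g4 (q : ℕ) (C1 C2 : k) (γ0 γ1 γ2 : κ) : Fin 3 → κ :=
  ![algebraMap k κ (C1 ^ (q - 1)) * γ0 ^ ((q - 1) * (q + 1)), algebraMap k κ C2 * γ1 ^ (q + 1),
    γ2 ^ ((q - 1) * (q + 1))]

theorem match_vals {q : ℕ} (hq : 1 ≤ q) {Q : Place k κ} {x γ0 γ1 γ2 : κ} {y : Fin 3 → κ}
    {d1 d2 d3 : k}
    (hd1 : d1 ≠ 0) (hd2 : d2 ≠ 0) (hd3 : d3 ≠ 0) (G0 : Ge Q 0 (y 0 / γ0))
    (G1 : Ge Q 0 (y 1 ^ (q - 1) / γ1)) (G2 : Ge Q 0 (y 2 / γ2)) (hδ0 : val Q (y 0 / γ0) ≠ 0)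
    (S : val Q (y 0 / γ0) ^ (q + 1) * (d1 * d2) = d3 * val Q (y 2 / γ2) ^ (q + 1))
    (S1 : d1 * val Q (y 0 / γ0) * val Q (y 1 ^ (q - 1) / γ1) = val Q (y 2 / γ2) ^ q) (l : Fin 3) :
    val Q (y l ^ ((q - 1) * (q + 1)) / g4 q (d3 / (d1 * d2)) (d1 ^ (q + 1) * (d3 / (d1 * d2)))⁻¹
      γ0 γ1 γ2 l) = val Q (y 2 / γ2) ^ ((q - 1) * (q + 1)) := by
  set δ0 := val Q (y 0 / γ0)
  set δ2 := val Q (y 2 / γ2)
  set D1 := val Q (y 1 ^ (q - 1) / γ1)
  set C1 := d3 / (d1 * d2) with hC1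
  have hC10 : C1 ≠ 0 := div_ne_zero hd3 (mul_ne_zero hd1 hd2)
  have e0 : δ0 ^ (q + 1) = C1 * δ2 ^ (q + 1) := by
    rw [hC1]
    field_simp
    linear_combination S
  have hδ2 : δ2 ≠ 0 := by
    intro h
    rw [h, zero_pow (Nat.succ_ne_zero q), mul_zero] at e0
    exact pow_ne_zero _ hδ0 e0
  fin_cases l
  · change val Q (y 0 ^ ((q - 1) * (q + 1)) / (algebraMap k κ (C1 ^ (q - 1)) *
      γ0 ^ ((q - 1) * (q + 1)))) = _
    have e1 : y 0 ^ ((q - 1) * (q + 1)) / (algebraMap k κ (C1 ^ (q - 1)) *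
        γ0 ^ ((q - 1) * (q + 1))) = algebraMap k κ (C1 ^ (q - 1))⁻¹ *
          (y 0 / γ0) ^ ((q - 1) * (q + 1)) := by
      rw [map_inv₀, div_mul_eq_div_div_swap, div_eq_mul_inv _ (algebraMap k κ _), mul_comm,
        div_pow (y 0)]
    rw [e1, val_mul (Ge.algebraMap Q _) (ge_zero_pow G0 _), val_algebraMap, val_pow G0]
    change (C1 ^ (q - 1))⁻¹ * δ0 ^ ((q - 1) * (q + 1)) = δ2 ^ ((q - 1) * (q + 1))
    rw [mul_comm (q - 1), pow_mul, e0, mul_pow, ← pow_mul, inv_mul_cancel_left₀ (pow_ne_zero _ hC10)]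
  · change val Q (y 1 ^ ((q - 1) * (q + 1)) / (algebraMap k κ (d1 ^ (q + 1) * C1)⁻¹ *
      γ1 ^ (q + 1))) = _
    have e1 : y 1 ^ ((q - 1) * (q + 1)) / (algebraMap k κ (d1 ^ (q + 1) * C1)⁻¹ *
        γ1 ^ (q + 1)) = algebraMap k κ (d1 ^ (q + 1) * C1) *
          (y 1 ^ (q - 1) / γ1) ^ (q + 1) := by
      rw [map_inv₀, div_pow, div_mul_eq_div_div_swap, div_inv_eq_mul, mul_comm, pow_mul]
    rw [e1, val_mul (Ge.algebraMap Q _) (ge_zero_pow G1 _), val_algebraMap, val_pow G1]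
    change d1 ^ (q + 1) * C1 * D1 ^ (q + 1) = δ2 ^ ((q - 1) * (q + 1))
    have e2 : δ2 ^ (q + 1) * (d1 ^ (q + 1) * C1 * D1 ^ (q + 1)) =
        δ2 ^ (q + 1) * δ2 ^ ((q - 1) * (q + 1)) := by
      calc δ2 ^ (q + 1) * (d1 ^ (q + 1) * C1 * D1 ^ (q + 1)) =
          d1 ^ (q + 1) * (C1 * δ2 ^ (q + 1)) * D1 ^ (q + 1) := by ring
        _ = (d1 * δ0 * D1) ^ (q + 1) := by rw [← e0]; ring
        _ = (δ2 ^ q) ^ (q + 1) := by rw [S1]
        _ = _ := by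
          rw [← pow_mul, ← pow_add]
          congr 1
          obtain ⟨r, rfl⟩ := Nat.exists_eq_add_of_le hq
          rw [Nat.add_sub_cancel_left]
          ring
    exact mul_left_cancel₀ (pow_ne_zero _ hδ2) e2
  · change val Q (y 2 ^ ((q - 1) * (q + 1)) / γ2 ^ ((q - 1) * (q + 1))) = _
    rw [← div_pow, val_pow G2]

end Vals

variable {A K F k R κ Ω L : Type*} [CommRing A] [IsDomain A] [IsDiscreteValuationRing A]
    [Field K] [Algebra A K] [IsFractionRing A K] [Field F] [Algebra K F] [Algebra A F]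
    [IsScalarTower A K F] [Field k] [Algebra A k] [CommRing R] [Algebra k R] [Algebra A R]
    [IsScalarTower A k R] [Field κ] [Algebra k κ] [Field Ω] [Field L] [Algebra Ω L] [Algebra K Ω]
    {ι : Type*} [Fintype ι]

variable [IsAlgClosed Ω] [CharZero Ω] [FunField Ω L] [Algebra.IsAlgebraic K Ω]
  [IsAlgClosed k] [FunField k κ] [CharZero K]

section M0

variable {J : Type*} [Fintype J] (M : CModel A K F k R κ Ω L ι J)

omit [IsAlgClosed Ω] [CharZero Ω] [FunField Ω L] [Algebra.IsAlgebraic K Ω] [IsAlgClosed k]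
  [FunField k κ] [CharZero K] in
theorem CModel.pow_mem_M0 {E : Divisor Ω L} {s : F} (hs : s ∈ M.M0 E) (d : ℕ) :
    s ^ d ∈ M.M0 (d • E) := by
  refine ⟨pow_mem hs.1 d, fun v hv => ?_⟩
  rw [map_pow]
  refine ((hs.2 v hv).pow d).mono ?_
  rw [Finsupp.smul_apply, nsmul_eq_mul]

omit [IsAlgClosed Ω] [CharZero Ω] [FunField Ω L] [Algebra.IsAlgebraic K Ω] [IsAlgClosed k]
  [FunField k κ] [CharZero K] in
theorem CModel.r_A (a : A) (j : J) : (M.comp j).r (algebraMap A F a) =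
    algebraMap k κ (algebraMap A k a) := by
  rw [← M.ρ_r (M.G.W.algebraMap_mem a)]
  have h2 : M.G.π ⟨algebraMap A F a, M.G.W.algebraMap_mem a⟩ =
      algebraMap k R (algebraMap A k a) := by
    have := M.G.π.commutes a
    rw [IsScalarTower.algebraMap_apply A k R] at this
    exact this
  rw [h2, AlgHom.commutes]

end M0

theorem exists_div_divisor {f : L} {m : ℕ} (hm : m ≠ 0) (h : ∀ v : Place Ω L, (m : ℤ) ∣ v.ord f) :
    ∃ E : Divisor Ω L, ∀ v, (m : ℤ) * E v = v.ord f := by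
  refine ⟨(divisor Ω f).mapRange (fun n => n / (m : ℤ)) (by simp), fun v => ?_⟩
  rw [Finsupp.mapRange_apply, divisor_apply]
  exact Int.mul_ediv_cancel' (h v)

namespace Norm3

variable {M : CModel A K F k R κ Ω L ι (Fin 3)} {q : ℕ} (N : Norm3 M q)

theorem carayol_norm [Fact q.Prime] [CharP k q] (H : M.Good) (H' : M.inv.Good) (hN : M.Node)
    (hN' : M.inv.Node) (hS : N.Stab) (hS' : N.inv.Stab) {m : ℕ} (hm : (m : k) ≠ 0) {f : F}
    (hf0 : f ≠ 0) (hv : ∀ j, (M.comp j).v f = 0)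
    (hdvd : ∀ v : Place Ω L, (m : ℤ) ∣ v.ord (M.emb f)) {c₁ c₂ : K} {z₁ z₂ : F}
    (h₁ : N.NN f = algebraMap K F c₁ * z₁ ^ m)
    (h₂ : N.NN (N.w f) = algebraMap K F c₂ * z₂ ^ m) :
    ∃ x : L, x ^ m = M.emb (f ^ ((q - 1) * (q + 1))) := by
  have hm0 : m ≠ 0 := by rintro rfl; simp at hm
  have hmpos := Nat.pos_of_ne_zero hm0
  have hq := (Fact.out : q.Prime)
  have hco : q.Coprime m := by
    rw [hq.coprime_iff_not_dvd]
    intro h
    exact hm ((CharP.cast_eq_zero_iff k q m).2 h)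
  obtain ⟨E, hE⟩ := exists_div_divisor hm0 hdvd
  obtain ⟨ε1, z1, h1, hz1, v10, v12⟩ := N.exists_norm hf0 hv hm0 h₁
  obtain ⟨ε2, z2, h2, hz2, v20, v22⟩ := N.exists_norm (N.w_ne hf0) (N.v_w f hv) hm0 h₂
  -- roots of constants
  have hres : ∀ u : Aˣ, ∃ c : k, c ≠ 0 ∧ c ^ m = algebraMap A k (u : A) := by
    intro u
    obtain ⟨c, hc⟩ := IsAlgClosed.exists_pow_nat_eq (algebraMap A k (u : A)) hmpos
    refine ⟨c, ?_, hc⟩
    rintro rfl
    rw [zero_pow hm0] at hc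
    have := (u.isUnit.map (algebraMap A k))
    rw [← hc] at this
    exact not_isUnit_zero this
  obtain ⟨c1, hc1, hc1'⟩ := hres ε1
  obtain ⟨c2, hc2, hc2'⟩ := hres ε2
  have hrf : ∀ l, (M.comp l).r f ≠ 0 := fun l => (Comp.r_ne_zero_iff hf0).2 (hv l)
  have hAF : ∀ (u : Aˣ) (j : Fin 3), algebraMap A F (u : A) ∈ (M.comp j).W := fun u j =>
    M.memj (M.G.W.algebraMap_mem _) j
  have hzW : ∀ (z : F) (j : Fin 3), (M.comp j).v z = 0 → z ∈ (M.comp j).W := fun z j h =>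
    Comp.mem_of_v h.ge
  have E10 : (algebraMap k κ c1 * (M.comp 0).r z1) ^ m =
      (M.comp 0).r f * (M.comp 1).r f ^ (q - 1) := by
    rw [← N.r_NN0 f hf0 (hv 0) (hv 1), h1, Comp.r_mul (hAF ε1 0) (pow_mem (hzW z1 0 v10) m),
      Comp.r_pow (hzW z1 0 v10), M.r_A, mul_pow, ← map_pow, hc1']
  have E12 : (algebraMap k κ c1 * (M.comp 2).r z1) ^ m = (M.comp 2).r f ^ q := by
    rw [← N.r_NN2 f hf0 (hv 2), h1, Comp.r_mul (hAF ε1 2) (pow_mem (hzW z1 2 v12) m),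
      Comp.r_pow (hzW z1 2 v12), M.r_A, mul_pow, ← map_pow, hc1']
  have hwf0 := N.w_ne hf0
  have hvw := N.v_w f hv
  have E20 : (algebraMap k κ c2 * (M.comp 0).r z2) ^ m =
      (M.comp 2).r f * (M.comp 1).r f ^ (q - 1) := by
    have := N.r_NN0 _ hwf0 (hvw 0) (hvw 1)
    rw [N.r_w0, N.r_w1] at this
    rw [← this, h2, Comp.r_mul (hAF ε2 0) (pow_mem (hzW z2 0 v20) m),
      Comp.r_pow (hzW z2 0 v20), M.r_A, mul_pow, ← map_pow, hc2']
  have E22 : (algebraMap k κ c2 * (M.comp 2).r z2) ^ m = (M.comp 0).r f ^ q := by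
    have := N.r_NN2 _ hwf0 (hvw 2)
    rw [N.r_w2] at this
    rw [← this, h2, Comp.r_mul (hAF ε2 2) (pow_mem (hzW z2 2 v22) m),
      Comp.r_pow (hzW z2 2 v22), M.r_A, mul_pow, ← map_pow, hc2']
  obtain ⟨γ0, hγ0⟩ := exists_root_of_coprime hco (hrf 0) E22.symm
  obtain ⟨γ2, hγ2⟩ := exists_root_of_coprime hco (hrf 2) E12.symm
  have g0ne : γ0 ≠ 0 := fun h => hrf 0 (by rw [← hγ0, h, zero_pow hm0])
  have g2ne : γ2 ≠ 0 := fun h => hrf 2 (by rw [← hγ2, h, zero_pow hm0])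
  have hz1r0 : (M.comp 0).r z1 ≠ 0 := (Comp.r_ne_zero_iff hz1).2 v10
  have hK : ∀ c : k, c ≠ 0 → algebraMap k κ c ≠ 0 := fun c hc => by rwa [Ne, map_eq_zero]
  set γ1 := algebraMap k κ c1 * (M.comp 0).r z1 / γ0 with hγ1def
  have r10 : algebraMap k κ c1 * (M.comp 0).r z1 = γ0 * γ1 := by
    rw [hγ1def, mul_div_cancel₀ _ g0ne]
  have hγ1 : γ1 ^ m = (M.comp 1).r f ^ (q - 1) := by
    rw [hγ1def, div_pow, E10, hγ0, mul_div_cancel_left₀ _ (hrf 0)]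
  have g1ne : γ1 ≠ 0 := div_ne_zero (mul_ne_zero (hK c1 hc1) hz1r0) g0ne
  obtain ⟨d1, hd1m, r12⟩ := exists_const_of_pow_eq (k := k) hm0 (pow_ne_zero q g2ne)
    (u := algebraMap k κ c1 * (M.comp 2).r z1) (by rw [E12, ← hγ2, ← pow_mul, ← pow_mul, mul_comm])
  obtain ⟨d2, hd2m, r20⟩ := exists_const_of_pow_eq (k := k) hm0 (mul_ne_zero g2ne g1ne)
    (u := algebraMap k κ c2 * (M.comp 0).r z2) (by rw [E20, mul_pow, hγ2, hγ1])
  obtain ⟨d3, hd3m, r22⟩ := exists_const_of_pow_eq (k := k) hm0 (pow_ne_zero q g0ne)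
    (u := algebraMap k κ c2 * (M.comp 2).r z2) (by rw [E22, ← hγ0, ← pow_mul, ← pow_mul, mul_comm])
  have hne : ∀ d : k, d ^ m = 1 → d ≠ 0 := by
    rintro d hd rfl
    rw [zero_pow hm0] at hd
    exact zero_ne_one hd
  have hd1 := hne d1 hd1m
  have hd2 := hne d2 hd2m
  have hd3 := hne d3 hd3m
  set C1 := d3 / (d1 * d2) with hC1
  set C2 := (d1 ^ (q + 1) * C1)⁻¹ with hC2
  have hC1m : C1 ^ m = 1 := by rw [hC1, div_pow, mul_pow, hd1m, hd2m, hd3m]; simp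
  have hC2m : C2 ^ m = 1 := by
    rw [hC2, inv_pow, mul_pow, hC1m, ← pow_mul, mul_comm (q + 1), pow_mul, hd1m, one_pow]
    simp
  set d := (q - 1) * (q + 1) with hd
  -- the roots
  have hg4 : ∀ j, g4 q C1 C2 γ0 γ1 γ2 j ^ m = (M.comp j).r (f ^ d) := by
    intro j
    have hfW : ∀ j, f ∈ (M.comp j).W := fun j => hzW f j (hv j)
    rw [Comp.r_pow (hfW j)]
    fin_cases j
    · change (algebraMap k κ (C1 ^ (q - 1)) * γ0 ^ d) ^ m = (M.comp 0).r f ^ d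
      rw [mul_pow, ← map_pow, ← pow_mul, mul_comm (q - 1) m, pow_mul, hC1m, one_pow, map_one,
        one_mul, ← pow_mul, mul_comm d, pow_mul, hγ0]
    · change (algebraMap k κ C2 * γ1 ^ (q + 1)) ^ m = (M.comp 1).r f ^ d
      rw [mul_pow, ← map_pow, hC2m, map_one, one_mul, ← pow_mul, mul_comm (q + 1), pow_mul, hγ1,
        ← pow_mul]
    · change (γ2 ^ d) ^ m = (M.comp 2).r f ^ d
      rw [← pow_mul, mul_comm d, pow_mul, hγ2]
  have hfd0 : f ^ d ≠ 0 := pow_ne_zero _ hf0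
  have hvd : ∀ j, (M.comp j).v (f ^ d) = 0 := fun j => by rw [Comp.v_pow, hv, mul_zero]
  have hEd : ∀ v, (m : ℤ) * (d • E) v = v.ord (M.emb (f ^ d)) := by
    intro v
    rw [map_pow, ord_pow, ← hE, Finsupp.smul_apply, nsmul_eq_mul]
    ring
  have hfinal : ∀ (Q : Place k κ) (s : F), (∀ l, s ∈ (M.comp l).W) →
      (∀ l, val Q ((M.comp l).r (s ^ m * f⁻¹)) ≠ 0) →
      (∀ l, Ge Q 0 ((M.comp l).r (s ^ m * f⁻¹))) →
      Ge Q 0 ((M.comp 0).r s / γ0) → Ge Q 0 ((M.comp 1).r s ^ (q - 1) / γ1) →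
      Ge Q 0 ((M.comp 2).r s / γ2) → val Q ((M.comp 0).r s / γ0) ≠ 0 →
      val Q ((M.comp 0).r s / γ0) ^ (q + 1) * (d1 * d2) =
        d3 * val Q ((M.comp 2).r s / γ2) ^ (q + 1) →
      d1 * val Q ((M.comp 0).r s / γ0) * val Q ((M.comp 1).r s ^ (q - 1) / γ1) =
        val Q ((M.comp 2).r s / γ2) ^ q →
      (∀ l, val Q ((M.comp l).r ((s ^ d) ^ m * (f ^ d)⁻¹)) ≠ 0) ∧
      ∀ l l', val Q ((M.comp l).r (s ^ d) / g4 q C1 C2 γ0 γ1 γ2 l) =
        val Q ((M.comp l').r (s ^ d) / g4 q C1 C2 γ0 γ1 γ2 l') := by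
    intro Q s hsW hη hηge G0 G1 G2 hδ0 S S1
    constructor
    · intro l
      have e : (s ^ d) ^ m * (f ^ d)⁻¹ = (s ^ m * f⁻¹) ^ d := by
        rw [mul_pow, inv_pow, ← pow_mul, ← pow_mul, mul_comm d]
      have hW : s ^ m * f⁻¹ ∈ (M.comp l).W :=
        mul_mem (pow_mem (hsW l) m) (Comp.mem_of_v (by rw [Comp.v_inv, hv]; norm_num))
      rw [e, Comp.r_pow hW, val_pow (hηge l)]
      exact pow_ne_zero _ (hη l)
    · have key := fun l => match_vals (q := q) hq.one_lt.le (Q := Q) (x := (0 : κ))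
        (y := fun l => (M.comp l).r s) hd1 hd2 hd3 G0 G1 G2 hδ0 S S1 l
      intro l l'
      rw [Comp.r_pow (hsW l), Comp.r_pow (hsW l')]
      exact (key l).trans (key l').symm
  refine M.rigN H H' hN hN' hfd0 hvd hm hEd (g4 q C1 C2 γ0 γ1 γ2) hg4 ?_ ?_
  · intro Q hQ hsame
    obtain ⟨s, hs, hη, G0, G1, G2, hδ0, S, S1⟩ := N.node_rel H hS hm0 hf0 hv hE h1 h2 hz1 hz2 v10
      v12 v20 v22 hγ0 hγ1 hγ2 hc1 hc2 hd1 hd2 hd3 r10 r12 r20 r22 hQ hsame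
    obtain ⟨a1, a2⟩ := hfinal Q s (fun l => M.memj hs.1 l) hη
      (fun l => M.reg_r (M.pow_mul_inv_mem_B hf0 hv hm0 hE hs) l Q (hQ l)) G0 G1 G2 hδ0 S S1
    exact ⟨s ^ d, M.pow_mem_M0 hs d, a1, a2⟩
  · intro Q hQ hsame
    obtain ⟨s, hs, hη, G0, G1, G2, hδ0, S, S1⟩ := N.inv.node_rel H' hS' hm0 hf0 hv hE h1 h2 hz1 hz2
      v10 v12 v20 v22 hγ0 hγ1 hγ2 hc1 hc2 hd1 hd2 hd3 r10 r12 r20 r22 hQ hsame
    obtain ⟨a1, a2⟩ := hfinal Q s (fun l => M.memj hs.1 l) hη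
      (fun l => M.inv.reg_r (M.inv.pow_mul_inv_mem_B hf0 hv hm0 hE hs) l Q (hQ l)) G0 G1 G2 hδ0 S S1
    exact ⟨s ^ d, M.inv.pow_mem_M0 hs d, a1, a2⟩

/-- **The abstract form of Carayol's theorem.** -/
theorem carayol [Fact q.Prime] [CharP k q] (H : M.Good) (H' : M.inv.Good) (hN : M.Node)
    (hN' : M.inv.Node) (hS : N.Stab) (hS' : N.inv.Stab) {m : ℕ} (hm : (m : k) ≠ 0) {f : F}
    (hf0 : f ≠ 0) (hdvd : ∀ v : Place Ω L, (m : ℤ) ∣ v.ord (M.emb f)) {c₁ c₂ : K} {z₁ z₂ : F}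
    (h₁ : N.NN f = algebraMap K F c₁ * z₁ ^ m)
    (h₂ : N.NN (N.w f) = algebraMap K F c₂ * z₂ ^ m) :
    ∃ x : L, x ^ m = M.emb f ^ ((q + 1) * ((q - 1) * (q + 1))) := by
  have hm0 : m ≠ 0 := by rintro rfl; simp at hm
  have hmpos := Nat.pos_of_ne_zero hm0
  have hmz : (m : ℤ) ≠ 0 := by exact_mod_cast hm0
  have hq := (Fact.out : q.Prime)
  have hwf0 := N.w_ne hf0
  have hNf := N.NN_ne f hf0
  have hNwf := N.NN_ne _ hwf0
  have hc1 : c₁ ≠ 0 := by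
    rintro rfl
    rw [map_zero, zero_mul] at h₁
    exact hNf h₁
  have hz1 : z₁ ≠ 0 := by
    rintro rfl
    rw [zero_pow hm0, mul_zero] at h₁
    exact hNf h₁
  have hc2 : c₂ ≠ 0 := by
    rintro rfl
    rw [map_zero, zero_mul] at h₂
    exact hNwf h₂
  have hz2 : z₂ ≠ 0 := by
    rintro rfl
    rw [zero_pow hm0, mul_zero] at h₂
    exact hNwf h₂
  have hcF : ∀ c : K, c ≠ 0 → algebraMap K F c ≠ 0 := fun c hc => by rwa [Ne, map_eq_zero]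
  obtain ⟨n1, u1, hu1⟩ := M.exists_unit_pow hc1
  obtain ⟨n2, u2, hu2⟩ := M.exists_unit_pow hc2
  -- vertical orders
  set a0 := (M.comp 0).v f with ha0
  set a1 := (M.comp 1).v f with ha1
  set a2 := (M.comp 2).v f with ha2
  have A1 := N.v_NN0 f hf0
  have A2 := N.v_NN2 f hf0
  have A3 := N.v_NN0 _ hwf0
  have A4 := N.v_NN2 _ hwf0
  rw [h₁, Comp.v_mul _ (hcF _ hc1) (pow_ne_zero _ hz1), M.v_K hu1, N.e0, Comp.v_pow] at A1
  rw [h₁, Comp.v_mul _ (hcF _ hc1) (pow_ne_zero _ hz1), M.v_K hu1, N.e2, Comp.v_pow] at A2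
  rw [h₂, Comp.v_mul _ (hcF _ hc2) (pow_ne_zero _ hz2), M.v_K hu2, N.e0, Comp.v_pow, N.v_w0,
    N.v_w1] at A3
  rw [h₂, Comp.v_mul _ (hcF _ hc2) (pow_ne_zero _ hz2), M.v_K hu2, N.e2, Comp.v_pow, N.v_w2] at A4
  rw [← ha0, ← ha1] at A1
  rw [← ha2] at A2
  rw [← ha2, ← ha1] at A3
  rw [← ha0] at A4
  set α := (M.comp 0).v z₁ - (M.comp 2).v z₁ with hα
  set β := (M.comp 0).v z₂ - (M.comp 2).v z₂ with hβ
  have R1 : a0 + a1 - q * a2 = m * α := by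
    rw [hα]; push_cast at A1 A2; linarith
  have R2 : a2 + a1 - q * a0 = m * β := by
    rw [hβ]; push_cast at A3 A4; linarith
  obtain ⟨g, hg0, hg⟩ := M.exists_v ![0, α + q * β, β - α]
  have hpF := M.pF_ne
  set pF := algebraMap A F M.p with hpFdef
  set f1 := f ^ (q + 1) * pF ^ (-((q + 1) * a0)) with hf1
  have hf10 : f1 ≠ 0 := mul_ne_zero (pow_ne_zero _ hf0) (zpow_ne_zero _ hpF)
  set f2 := f1 * (g ^ m)⁻¹ with hf2
  have hf20 : f2 ≠ 0 := mul_ne_zero hf10 (inv_ne_zero (pow_ne_zero _ hg0))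
  have he1 : (M.e 1 : ℤ) = q - 1 := by
    rw [N.e1]
    have := hq.one_lt
    omega
  have hvf2 : ∀ j, (M.comp j).v f2 = (q + 1) * (M.comp j).v f - (q + 1) * a0 * M.e j -
      m * (M.comp j).v g := by
    intro j
    rw [hf2, Comp.v_mul _ hf10 (inv_ne_zero (pow_ne_zero _ hg0)), Comp.v_inv, Comp.v_pow, hf1,
      Comp.v_mul _ (pow_ne_zero _ hf0) (zpow_ne_zero _ hpF), Comp.v_pow, Comp.v_zpow, hpFdef, M.v_p]
    push_cast
    ring
  have hv0 : ∀ j, (M.comp j).v f2 = 0 := by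
    intro j
    rw [hvf2, hg]
    fin_cases j
    · change (q + 1) * a0 - (q + 1) * a0 * (M.e 0 : ℤ) - m * 0 = 0
      rw [N.e0]; push_cast; ring
    · change (q + 1) * a1 - (q + 1) * a0 * (M.e 1 : ℤ) - m * (α + q * β) = 0
      rw [he1]
      linear_combination (R1) + (q : ℤ) * R2
    · change (q + 1) * a2 - (q + 1) * a0 * (M.e 2 : ℤ) - m * (β - α) = 0
      rw [N.e2]
      push_cast
      linear_combination R2 - R1
  have hNpow : ∀ (x : F) (n : ℤ), x ≠ 0 → N.NN (x ^ n) = N.NN x ^ n := by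
    intro x n hx
    obtain ⟨k, rfl | rfl⟩ := n.eq_nat_or_neg
    · rw [zpow_natCast, zpow_natCast, map_pow]
    · rw [zpow_neg, zpow_neg, zpow_natCast, zpow_natCast, N.NN_inv _ (pow_ne_zero _ hx), map_pow]
  have hNp : N.NN pF = algebraMap K F (algebraMap A K M.p ^ q) := by
    rw [hpFdef, IsScalarTower.algebraMap_apply A K F, N.NN_K]
  have hwp : N.w pF = pF := by
    rw [hpFdef, IsScalarTower.algebraMap_apply A K F, N.w_K]
  have key : ∀ (c : K) (z : F) (h g' : F), g' ≠ 0 → h ≠ 0 → N.NN h = algebraMap K F c * z ^ m →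
      N.NN (h ^ (q + 1) * pF ^ (-((q + 1) * a0)) * (g' ^ m)⁻¹) =
      algebraMap K F (c ^ (q + 1) * (algebraMap A K M.p ^ q) ^ (-((q + 1) * a0))) *
        (z ^ (q + 1) * (N.NN g')⁻¹) ^ m := by
    intro c z h g' hg' hh hc
    rw [map_mul, map_mul, map_pow, hc, hNpow _ _ hpF, hNp, N.NN_inv _ (pow_ne_zero _ hg'), map_pow]
    simp only [map_mul, map_pow, map_zpow₀]
    ring
  have hw2 : N.w f2 = N.w f ^ (q + 1) * pF ^ (-((q + 1) * a0)) * (N.w g ^ m)⁻¹ := by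
    rw [hf2, hf1, map_mul, map_mul, map_pow, map_zpow₀, hwp, map_inv₀, map_pow]
  have hE2 : ∀ v : Place Ω L, (m : ℤ) ∣ v.ord (M.emb f2) := by
    intro v
    have hF' : ∀ x : F, x ≠ 0 → M.emb x ≠ 0 := fun x hx => by rwa [Ne, map_eq_zero]
    have hpv : v.ord (M.emb pF) = 0 := by
      rw [hpFdef, IsScalarTower.algebraMap_apply A K F, M.hemb]
      exact ord_algebraMap v _
    have hpz : ∀ n : ℤ, v.ord (M.emb (pF ^ n)) = 0 := by
      intro n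
      obtain ⟨k, rfl | rfl⟩ := n.eq_nat_or_neg
      · rw [zpow_natCast, map_pow, ord_pow, hpv, mul_zero]
      · rw [zpow_neg, zpow_natCast, map_inv₀, v.ord_inv, map_pow, ord_pow, hpv, mul_zero, neg_zero]
    rw [hf2, hf1, map_mul, map_mul, Place.ord_mul _ (mul_ne_zero (hF' _ (pow_ne_zero _ hf0))
      (hF' _ (zpow_ne_zero _ hpF))) (hF' _ (inv_ne_zero (pow_ne_zero _ hg0))),
      Place.ord_mul _ (hF' _ (pow_ne_zero _ hf0)) (hF' _ (zpow_ne_zero _ hpF)), hpz, map_inv₀,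
      v.ord_inv, map_pow, map_pow, ord_pow, ord_pow, add_zero]
    exact dvd_add (Dvd.dvd.mul_left (hdvd v) _) ((dvd_mul_right _ _).neg_right)
  obtain ⟨x, hx⟩ := N.carayol_norm H H' hN hN' hS hS' hm hf20 hv0 hE2 (key _ _ _ _ hg0 hf0 h₁)
    (by rw [hw2]; exact key _ _ _ _ (N.w_ne hg0) hwf0 h₂)
  -- conclude
  obtain ⟨y, hy⟩ := IsAlgClosed.exists_pow_nat_eq
    ((algebraMap K Ω (algebraMap A K M.p)) ^ ((q + 1) * a0)) hmpos
  have hpe : M.emb pF = algebraMap Ω L (algebraMap K Ω (algebraMap A K M.p)) := by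
    rw [hpFdef, IsScalarTower.algebraMap_apply A K F, M.hemb]
  refine ⟨x * (algebraMap Ω L y * M.emb g) ^ ((q - 1) * (q + 1)), ?_⟩
  have e1 : f ^ (q + 1) = f2 * pF ^ ((q + 1) * a0) * g ^ m := by
    rw [hf2, hf1, zpow_neg]
    have h3 : pF ^ ((q + 1 : ℤ) * a0) ≠ 0 := zpow_ne_zero _ hpF
    have h4 : g ^ m ≠ 0 := pow_ne_zero _ hg0
    field_simp
  have e2 : M.emb f ^ ((q + 1) * ((q - 1) * (q + 1))) =
      (M.emb (f ^ (q + 1))) ^ ((q - 1) * (q + 1)) := by rw [map_pow, ← pow_mul]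
  have e3 : algebraMap Ω L (algebraMap K Ω (algebraMap A K M.p)) ^ ((q + 1 : ℤ) * a0) =
      algebraMap Ω L y ^ m := by rw [← map_zpow₀, ← hy, map_pow]
  rw [e2, e1, map_mul, map_mul, map_zpow₀, hpe, e3, mul_pow x, hx, map_pow, map_pow]
  ring

end Norm3

end Fermat.Agent.Car
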