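import Fermat.Agent.Car.Node

/-!
# Components through a point
-/

set_option autoImplicit false
set_option linter.unusedSectionVars false
set_option linter.style.haveILetI false

namespace Fermat.Agent.Car

open Module Polynomial IntermediateField AlgebraicCurve Fermat.Agent.Red Fermat.Agent.RR
  Fermat.Agent.Nod Fermat.Agent.Curve

variable {A K F k R κ Ω L : Type*} [CommRing A] [IsDomain A] [IsDiscreteValuationRing A]
    [Field K] [Algebra A K] [IsFractionRing A K] [Field F] [Algebra K F] [Algebra A F]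
    [IsScalarTower A K F] [Field k] [Algebra A k] [CommRing R] [Algebra k R] [Algebra A R]
    [IsScalarTower A k R] [Field κ] [Algebra k κ] [Field Ω] [Field L] [Algebra Ω L] [Algebra K Ω]
    {ι J : Type*} [Fintype ι] [Fintype J]

namespace CModel

variable (M : CModel A K F k R κ Ω L ι J)
variable [IsAlgClosed Ω] [CharZero Ω] [FunField Ω L] [Algebra.IsAlgebraic K Ω] [Nonempty J]
  [IsAlgClosed k] [FunField k κ]

/-- a component passes through a point if all functions vanishing on it vanish at the point -/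
theorem through (hsurj : ∀ j (z : κ), Reg k (M.tb j) z → ∃ x ∈ M.B, (M.comp j).r x = z)
    {j : J} {Q : Place k κ} (hQ : 0 ≤ Q.ord (M.tb j)) (l : J)
    (h : ∀ b ∈ M.B, (M.comp l).r b = 0 → val Q ((M.comp j).r b) = 0) :
    ∃ Q' : Place k κ, 0 ≤ Q'.ord (M.tb l) ∧ M.SameAt j Q l Q' := by
  classical
  -- evaluation at the point
  have hval_sub : ∀ x ∈ M.B, ∀ y ∈ M.B, val Q ((M.comp j).r (x - y)) =
      val Q ((M.comp j).r x) - val Q ((M.comp j).r y) := by
    intro x hx y hy
    rw [Comp.r_sub (M.memj hx.1 j) (M.memj hy.1 j),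
      val_sub (M.reg_r hx j Q hQ) (M.reg_r hy j Q hQ)]
  let I : Ideal (regAlg k (M.tb l)) :=
    { carrier := {z | ∃ b ∈ M.B, (M.comp l).r b = z ∧ val Q ((M.comp j).r b) = 0}
      add_mem' := by
        rintro z z' ⟨b, hb, hbz, hb0⟩ ⟨b', hb', hbz', hb0'⟩
        refine ⟨b + b', add_mem hb hb', ?_, ?_⟩
        · rw [Comp.r_add (M.memj hb.1 l) (M.memj hb'.1 l), hbz, hbz']
          rfl
        · rw [Comp.r_add (M.memj hb.1 j) (M.memj hb'.1 j),
            val_add (M.reg_r hb j Q hQ) (M.reg_r hb' j Q hQ), hb0, hb0', add_zero]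
      zero_mem' := ⟨0, zero_mem _, by rw [Comp.r_zero]; rfl, by rw [Comp.r_zero, val_zero]⟩
      smul_mem' := by
        rintro c z ⟨b, hb, hbz, hb0⟩
        obtain ⟨b', hb', hbz'⟩ := hsurj l c c.2
        refine ⟨b' * b, mul_mem hb' hb, ?_, ?_⟩
        · rw [Comp.r_mul (M.memj hb'.1 l) (M.memj hb.1 l), hbz, hbz']
          rfl
        · rw [Comp.r_mul (M.memj hb'.1 j) (M.memj hb.1 j),
            val_mul (M.reg_r hb' j Q hQ) (M.reg_r hb j Q hQ), hb0, mul_zero] }
  have hI : I ≠ ⊤ := by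
    intro hI
    obtain ⟨b, hb, hb1, hb0⟩ : (1 : regAlg k (M.tb l)) ∈ I := hI ▸ Submodule.mem_top
    have h1 := h (b - 1) (sub_mem hb (one_mem _)) (by
      rw [Comp.r_sub (M.memj hb.1 l) (one_mem _), hb1, Comp.r_one]
      exact sub_self _)
    rw [hval_sub b hb 1 (one_mem _), hb0, Comp.r_one, val_one, zero_sub, neg_eq_zero] at h1
    exact one_ne_zero h1
  obtain ⟨Q', hQ', h'⟩ := exists_zero_of_ideal (M.transcendental_tb l) I hI
  refine ⟨Q', hQ', M.ev_ker_sameAt hQ hQ' fun x hx hx0 => ?_⟩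
  exact h' ⟨(M.comp l).r x, M.reg_r hx l⟩ ⟨x, hx, rfl, hx0⟩

/-- a function whose inverse is regular on the generic fibre can only vanish along components -/
theorem thru (hsurj : ∀ j (z : κ), Reg k (M.tb j) z → ∃ x ∈ M.B, (M.comp j).r x = z)
    {h : F} (hB : h ∈ M.B) (h0 : h ≠ 0) (hreg : Reg Ω (M.emb M.t) (M.emb h⁻¹))
    {j : J} {Q : Place k κ} (hQ : 0 ≤ Q.ord (M.tb j)) (hv : val Q ((M.comp j).r h) = 0) :
    ∃ l, 0 < (M.comp l).v h ∧ ∃ Q' : Place k κ, 0 ≤ Q'.ord (M.tb l) ∧ M.SameAt j Q l Q' := by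
  classical
  by_contra hcon
  push Not at hcon
  have hbl : ∀ l, ∃ b ∈ M.B, val Q ((M.comp j).r b) ≠ 0 ∧
      (0 < (M.comp l).v h → (M.comp l).Ge 1 b) := by
    intro l
    by_cases hl : 0 < (M.comp l).v h
    · by_contra hc
      push Not at hc
      obtain ⟨Q', hQ', hs⟩ := M.through hsurj hQ l (fun b hb hb0 => by
        by_contra hne
        obtain ⟨-, h2⟩ := hc b hb hne
        exact h2 ((Comp.r_eq_zero_iff (M.memj hb.1 l)).1 hb0))
      exact hcon l hl Q' hQ' hs
    · exact ⟨1, one_mem _, by rw [Comp.r_one, val_one]; exact one_ne_zero, fun h => absurd h hl⟩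
  choose b hb hbv hbge using hbl
  let N : ℕ := ∑ l, ((M.comp l).v h).toNat
  let c : F := ∏ l, b l ^ N
  have hcB : c ∈ M.B := prod_mem fun l _ => pow_mem (hb l) N
  have hB0 : ∀ x ∈ M.B, ∀ l, (M.comp l).Ge 0 x := fun x hx l => Comp.ge_of_mem (M.memj hx.1 l)
  have hcge : ∀ l, (M.comp l).Ge ((M.comp l).v h) c := by
    intro l
    by_cases hl : 0 < (M.comp l).v h
    · have h1 : (M.comp l).Ge ((N : ℤ) * 1) (b l ^ N) := (hbge l hl).pow N
      have h2 : c = b l ^ N * ∏ l' ∈ Finset.univ.erase l, b l' ^ N :=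
        (Finset.mul_prod_erase _ _ (Finset.mem_univ l)).symm
      have h3 : (M.comp l).Ge 0 (∏ l' ∈ Finset.univ.erase l, b l' ^ N) :=
        hB0 _ (prod_mem fun l' _ => pow_mem (hb l') N) l
      rw [h2]
      refine (h1.mul h3).mono ?_
      rw [mul_one, add_zero]
      have h4 : ((M.comp l).v h).toNat ≤ N :=
        Finset.single_le_sum (f := fun l => ((M.comp l).v h).toNat) (fun _ _ => Nat.zero_le _)
          (Finset.mem_univ l)
      have h5 := Int.self_le_toNat ((M.comp l).v h)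
      calc (M.comp l).v h ≤ (((M.comp l).v h).toNat : ℤ) := h5
        _ ≤ N := by exact_mod_cast h4
    · exact (hB0 c hcB l).mono (not_lt.1 hl)
  have hd : c * h⁻¹ ∈ M.B := by
    refine ⟨M.mem_W_iff.2 fun l => ?_, ?_⟩
    · have h1 : (M.comp l).Ge (-(M.comp l).v h) h⁻¹ := Or.inr (by rw [Comp.v_inv])
      have := (hcge l).mul h1
      rwa [add_neg_cancel] at this
    · rw [map_mul]
      exact hcB.2.mul hreg
  have h1 : c = (c * h⁻¹) * h := by rw [inv_mul_cancel_right₀ h0]
  have h2 : val Q ((M.comp j).r c) = 0 := by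
    rw [h1, Comp.r_mul (M.memj hd.1 j) (M.memj hB.1 j),
      val_mul (M.reg_r hd j Q hQ) (M.reg_r hB j Q hQ), hv, mul_zero]
  have h3 : ∀ s : Finset J, val Q ((M.comp j).r (∏ l ∈ s, b l ^ N)) ≠ 0 := by
    intro s
    induction s using Finset.induction_on with
    | empty => rw [Finset.prod_empty, Comp.r_one, val_one]; exact one_ne_zero
    | insert l s hl ih =>
      rw [Finset.prod_insert hl]
      have e1 : b l ^ N ∈ M.B := pow_mem (hb l) N
      have e2 : ∏ l ∈ s, b l ^ N ∈ M.B := prod_mem fun l' _ => pow_mem (hb l') N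
      rw [Comp.r_mul (M.memj e1.1 j) (M.memj e2.1 j), val_mul (M.reg_r e1 j Q hQ)
        (M.reg_r e2 j Q hQ)]
      refine mul_ne_zero ?_ ih
      have e3 : ∀ n : ℕ, val Q ((M.comp j).r (b l ^ n)) = val Q ((M.comp j).r (b l)) ^ n := by
        intro n
        induction n with
        | zero => rw [pow_zero, pow_zero, Comp.r_one, val_one]
        | succ n ih' =>
          have e4 : b l ^ n ∈ M.B := pow_mem (hb l) n
          rw [pow_succ, pow_succ, Comp.r_mul (M.memj e4.1 j) (M.memj (hb l).1 j),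
            val_mul (M.reg_r e4 j Q hQ) (M.reg_r (hb l) j Q hQ), ih']
      rw [e3]
      exact pow_ne_zero _ (hbv l)
  exact h3 _ h2

end CModel

end Fermat.Agent.Car
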