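import Fermat.Agent.Red.Rigid

/-!
# Approximate roots over a non closed field: an exact root over a big field
-/

set_option autoImplicit false
set_option linter.unusedSectionVars false
set_option linter.style.haveILetI false

namespace Fermat.Agent.Car

open Module MvPolynomial Fermat.Agent.Red Fermat.Agent.Red.RedModel

variable {A K F k R : Type*} [CommRing A] [IsDomain A] [ValuationRing A]
  [Field K] [Algebra A K] [IsFractionRing A K] [Field F] [Algebra K F] [Algebra A F]
  [IsScalarTower A K F] [Field k] [Algebra A k] [CommRing R] [Algebra k R] [Algebra A R]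
  [IsScalarTower A k R]

variable {Ω L : Type*} [Field Ω] [IsAlgClosed Ω] [Algebra K Ω] [Field L] [Algebra Ω L]
  (emb : F →+* L) (hemb : ∀ c : K, emb (algebraMap K F c) = algebraMap Ω L (algebraMap K Ω c))

variable (M : RedModel A K F k R)

include hemb in
theorem exists_root_of_approx
    (hA : ∃ t : A, t ≠ 0 ∧ ¬ IsUnit t) (V : Submodule K F) [FiniteDimensional K V] (m : ℕ) (f : F)
    (hf : f ∈ M.W)
    (h : ∀ c : A, c ≠ 0 → ∃ φ ∈ M.lat V, ∃ w ∈ M.W, φ ^ m - f = c • w) :
    ∃ x : L, x ^ m = emb f := by
  classical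
  let ι := Module.Free.ChooseBasisIndex A (M.lat V)
  let b : Basis ι A (M.lat V) := Module.Free.chooseBasis A (M.lat V)
  have hbW : ∀ i, ((b i : M.lat V) : F) ∈ M.W := fun i => (b i).2.1
  let Ψ : MvPolynomial ι F := (∑ i, C ((b i : M.lat V) : F) * X i) ^ m - C f
  let ΨW : MvPolynomial ι M.W := (∑ i, C (⟨(b i : F), hbW i⟩ : M.W) * X i) ^ m - C ⟨f, hf⟩
  have hΨ : MvPolynomial.map (M.W.val : M.W →+* F) ΨW = Ψ := by
    simp [ΨW, Ψ, map_sum]
  have hcoefW : ∀ d, Ψ.coeff d ∈ M.W := by
    intro d
    rw [← hΨ, coeff_map]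
    exact (ΨW.coeff d).2
  let U : Submodule K F := Submodule.span K ((Ψ.support.image fun d => Ψ.coeff d : Finset F) : Set F)
  haveI : FiniteDimensional K U := FiniteDimensional.span_finset K _
  have hcoefU : ∀ d, Ψ.coeff d ∈ U := by
    intro d
    by_cases hd : d ∈ Ψ.support
    · exact Submodule.subset_span (by
        rw [Finset.coe_image]
        exact ⟨d, hd, rfl⟩)
    · rw [notMem_support_iff.1 hd]; exact U.zero_mem
  have hcoef : ∀ d, Ψ.coeff d ∈ M.lat U := fun d => ⟨hcoefW d, hcoefU d⟩
  let κ := Module.Free.ChooseBasisIndex A (M.lat U)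
  let u : Basis κ A (M.lat U) := Module.Free.chooseBasis A (M.lat U)
  let P : κ → MvPolynomial ι A := fun j =>
    ∑ d ∈ Ψ.support, monomial d (u.repr ⟨Ψ.coeff d, hcoef d⟩ j)
  -- evaluation formula
  have hcoefsum : ∀ d, Ψ.coeff d = ∑ j, (u.repr ⟨Ψ.coeff d, hcoef d⟩ j) • ((u j : M.lat U) : F) := by
    intro d
    have := congrArg Subtype.val (u.sum_repr ⟨Ψ.coeff d, hcoef d⟩)
    simp only [AddSubmonoidClass.coe_finsetSum, SetLike.val_smul] at this
    exact this.symm
  have hpoly : Ψ = ∑ j, C ((u j : M.lat U) : F) * (P j).map (algebraMap A F) := by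
    ext d
    rw [MvPolynomial.coeff_sum]
    simp only [coeff_C_mul, coeff_map, P, MvPolynomial.coeff_sum, coeff_monomial]
    by_cases hd : d ∈ Ψ.support
    · simp only [Finset.sum_ite_eq', hd, if_true]
      conv_lhs => rw [hcoefsum d]
      refine Finset.sum_congr rfl fun j _ => ?_
      rw [Algebra.smul_def, mul_comm]
    · simp only [Finset.sum_ite_eq', hd, if_false, map_zero, mul_zero, Finset.sum_const_zero]
      exact notMem_support_iff.1 hd
  have halgL : ∀ a : A, emb (algebraMap A F a) = algebraMap Ω L (algebraMap K Ω (algebraMap A K a)) := by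
    intro a
    rw [IsScalarTower.algebraMap_apply A K F, hemb]
  have hevalL : ∀ x : ι → Ω, (∑ i, algebraMap Ω L (x i) * emb ((b i : M.lat V) : F)) ^ m - emb f =
      ∑ j, emb ((u j : M.lat U) : F) * algebraMap Ω L (aeval x ((P j).map (algebraMap A K))) := by
    intro x
    have h1 := congrArg (eval₂ emb (fun i => algebraMap Ω L (x i))) hpoly
    have h2 : ∀ j, eval₂ emb (fun i => algebraMap Ω L (x i)) ((P j).map (algebraMap A F)) =
        algebraMap Ω L (aeval x ((P j).map (algebraMap A K))) := by
      intro j
      rw [aeval_def, eval₂_map, eval₂_map, MvPolynomial.hom_eval₂]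
      congr 1
      apply RingHom.ext
      intro a
      exact halgL a
    simp only [Ψ, eval₂_sub, eval₂_pow, eval₂_sum, eval₂_mul, eval₂_C, eval₂_X, h2] at h1
    rw [← h1]
    congr 2
    refine Finset.sum_congr rfl fun i _ => mul_comm _ _
  by_cases hz : ∃ x : ι → Ω, ∀ j, aeval x ((P j).map (algebraMap A K)) = 0
  · obtain ⟨x, hx⟩ := hz
    refine ⟨∑ i, algebraMap Ω L (x i) * emb ((b i : M.lat V) : F), ?_⟩
    have := hevalL x
    simp only [hx, map_zero, mul_zero, Finset.sum_const_zero] at this
    exact sub_eq_zero.1 this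
  · exfalso
    push Not at hz
    let I : Ideal (MvPolynomial ι K) := Ideal.span (Set.range fun j => (P j).map (algebraMap A K))
    have hI : I = ⊤ := by
      have h1 : zeroLocus Ω I = ∅ := by
        rw [Set.eq_empty_iff_forall_notMem]
        intro x hx
        rw [mem_zeroLocus_iff] at hx
        obtain ⟨j, hj⟩ := hz x
        apply hj
        exact hx ((P j).map (algebraMap A K)) (Ideal.subset_span ⟨j, rfl⟩)
      have h2 := vanishingIdeal_zeroLocus_eq_radical (K := Ω) I
      rw [h1, vanishingIdeal_empty] at h2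
      exact Ideal.radical_eq_top.1 h2.symm
    have h1 : (1 : MvPolynomial ι K) ∈ I := by rw [hI]; trivial
    obtain ⟨q, hq⟩ := (Ideal.mem_span_range_iff_exists_fun).1 h1
    letI : Algebra (MvPolynomial ι A) (MvPolynomial ι K) := MvPolynomial.algebraMvPolynomial
    haveI := MvPolynomial.isLocalization (σ := ι) (nonZeroDivisors A) K
    obtain ⟨s, hs⟩ := IsLocalization.exist_integer_multiples_of_finite
      ((nonZeroDivisors A).map (C (σ := ι) (R := A))) q
    obtain ⟨_, ⟨s, hs0, rfl⟩⟩ := s
    choose q' hq' using hs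
    have hs0' : s ≠ 0 := nonZeroDivisors.ne_zero hs0
    have halg : ∀ p : MvPolynomial ι A, algebraMap (MvPolynomial ι A) (MvPolynomial ι K) p =
        p.map (algebraMap A K) := fun p => rfl
    have hinj : Function.Injective (MvPolynomial.map (σ := ι) (algebraMap A K)) :=
      MvPolynomial.map_injective _ (IsFractionRing.injective A K)
    have hsum : (C s : MvPolynomial ι A) = ∑ j, q' j * P j := by
      apply hinj
      rw [map_sum]
      simp only [map_mul]
      have : (MvPolynomial.map (algebraMap A K)) (C s : MvPolynomial ι A) =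
          ((MvPolynomial.map (algebraMap A K)) (C s : MvPolynomial ι A)) * 1 := by ring
      rw [this, ← hq, Finset.mul_sum]
      refine Finset.sum_congr rfl fun j _ => ?_
      have h3 := hq' j
      rw [halg] at h3
      rw [h3, Algebra.smul_def, halg]
      ring
    obtain ⟨t, ht0, htu⟩ := hA
    have hc0 : s * t ≠ 0 := mul_ne_zero hs0' ht0
    obtain ⟨φ, hφ, w, hw, hφw⟩ := h (s * t) hc0
    let a : ι → A := fun i => b.repr ⟨φ, hφ⟩ i
    have hφsum : φ = ∑ i, algebraMap A F (a i) * ((b i : M.lat V) : F) := by
      have := congrArg Subtype.val (b.sum_repr ⟨φ, hφ⟩)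
      simp only [AddSubmonoidClass.coe_finsetSum, SetLike.val_smul] at this
      rw [← this]
      refine Finset.sum_congr rfl fun i _ => ?_
      rw [Algebra.smul_def]
    have e1 : φ ^ m - f = ∑ j, ((u j : M.lat U) : F) * algebraMap A F (eval a (P j)) := by
      have h1 := congrArg (eval (fun i => algebraMap A F (a i))) hpoly
      simp only [Ψ, map_sub, map_pow, map_sum, map_mul, eval_C, eval_X] at h1
      have h2 : ∀ j, eval (fun i => algebraMap A F (a i)) ((P j).map (algebraMap A F)) =
          algebraMap A F (eval a (P j)) := by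
        intro j
        rw [eval_map, ← MvPolynomial.eval₂_id, MvPolynomial.hom_eval₂, RingHom.comp_id]
      simp only [h2] at h1
      rw [← h1, hφsum]
      congr 2
      refine Finset.sum_congr rfl fun i _ => mul_comm _ _
    rw [hφw] at e1
    have hwU : w ∈ U := by
      rw [← smul_mem_iff (K := K) hc0 (V := U), e1]
      refine Submodule.sum_mem _ fun j _ => ?_
      rw [mul_comm, ← Algebra.smul_def, ← algebraMap_smul K]
      exact Submodule.smul_mem _ _ (u j).2.2
    let w' : M.lat U := ⟨w, hw, hwU⟩
    have hPa : ∀ j, eval a (P j) = (s * t) * u.repr w' j := by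
      have e2 : (∑ j, (eval a (P j)) • u j) = (s * t) • w' := by
        apply Subtype.ext
        simp only [AddSubmonoidClass.coe_finsetSum, SetLike.val_smul]
        rw [show ((w' : M.lat U) : F) = w from rfl, e1]
        refine Finset.sum_congr rfl fun j _ => ?_
        rw [Algebra.smul_def, mul_comm]
      intro j
      have := congrArg (fun z => u.repr z j) e2
      simpa [Finsupp.single_apply, Finset.sum_apply'] using this
    have hdiv : s * t ∣ s := by
      have := congrArg (eval a) hsum
      rw [eval_C, map_sum] at this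
      have h5 : s * t ∣ ∑ x, eval a (q' x * P x) := by
        refine Finset.dvd_sum fun j _ => ?_
        rw [map_mul, hPa]
        exact ⟨eval a (q' j) * u.repr w' j, by ring⟩
      rwa [← this] at h5
    obtain ⟨r, hr⟩ := hdiv
    have : t * r = 1 := by
      have : s * (t * r) = s * 1 := by rw [mul_one, ← mul_assoc]; exact hr.symm
      exact mul_left_cancel₀ hs0' this
    exact htu (IsUnit.of_mul_eq_one _ this)

end Fermat.Agent.Car
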