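import Fermat.Agent.Car.Model

/-!
# The affine rings of a model with components
-/

set_option autoImplicit false
set_option linter.unusedSectionVars false
set_option linter.style.haveILetI false

namespace Fermat.Agent.Car

open Module Polynomial IntermediateField AlgebraicCurve Fermat.Agent.Red Fermat.Agent.RR
  Fermat.Agent.Nod Fermat.Agent.Curve

variable {A K F k R κ Ω L : Type*} [CommRing A] [IsDomain A] [IsDiscreteValuationRing A]
    [Field K] [Algebra A K] [IsFractionRing A K] [Field F] [Algebra K F] [Algebra A F]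
    [IsScalarTower A K F] [Field k] [Algebra A k] [CommRing R] [Algebra k R] [Algebra A R]
    [IsScalarTower A k R] [Field κ] [Algebra k κ] [Field Ω] [Field L] [Algebra Ω L] [Algebra K Ω]
    {ι J : Type*} [Fintype ι] [Fintype J]

namespace CModel

variable (M : CModel A K F k R κ Ω L ι J)

theorem finiteDimensional_t [Nonempty J] : FiniteDimensional K⟮M.t⟯ F := by
  classical
  refine ⟨⟨Finset.univ.image M.G.y, ?_⟩⟩
  rw [eq_top_iff]
  intro x _
  obtain ⟨q, hq, P, hP⟩ := M.hspan x
  have hmem : ∀ p : K[X], aeval M.t p ∈ K⟮M.t⟯ := fun p => aeval_mem_adjoin M.t p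
  have hq0 : aeval M.t q ≠ 0 := by
    intro h
    have := M.transcendental_t
    rw [transcendental_iff] at this
    exact hq (this q h)
  have e : x = ∑ i, ((⟨_, inv_mem (hmem q)⟩ * ⟨_, hmem (P i)⟩ : K⟮M.t⟯)) • M.G.y i := by
    have h1 : x = (aeval M.t q)⁻¹ * M.G.comb P := by
      rw [← hP]
      change x = (aeval M.t q)⁻¹ * (aeval M.t q * x)
      rw [inv_mul_cancel_left₀ hq0]
    rw [h1, GaussData.comb, Finset.mul_sum]
    refine Finset.sum_congr rfl fun i _ => ?_
    rw [Algebra.smul_def, ← mul_assoc]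
    rfl
  rw [e]
  refine Submodule.sum_mem _ fun i _ => Submodule.smul_mem _ _ (Submodule.subset_span ?_)
  simp

theorem transcendental_emb_t [Nonempty J] : Transcendental Ω (M.emb M.t) := by
  rw [transcendental_iff]
  intro p hp
  have h1 : LinearIndependent K (fun i : Fin (p.natDegree + 1) => M.t ^ (i : ℕ)) := by
    rw [Fintype.linearIndependent_iff]
    intro g hg
    have h2 : aeval M.t (∑ i : Fin (p.natDegree + 1), C (g i) * X ^ (i : ℕ) : K[X]) = 0 := by
      rw [map_sum, ← hg]
      refine Finset.sum_congr rfl fun i _ => ?_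
      rw [map_mul, aeval_C, map_pow, aeval_X, Algebra.smul_def]
    have h3 := (transcendental_iff.1 M.transcendental_t) _ h2
    intro i
    have h4 := congrArg (fun q => Polynomial.coeff q (i : ℕ)) h3
    simp only [finsetSum_coeff, coeff_C_mul, coeff_X_pow, coeff_zero] at h4
    rw [Finset.sum_eq_single i] at h4
    · simpa using h4
    · intro j _ hj
      rw [if_neg, mul_zero]
      intro h
      exact hj (Fin.ext h.symm)
    · intro h; exact absurd (Finset.mem_univ _) h
  have h2 := M.indep _ _ h1
  rw [Fintype.linearIndependent_iff] at h2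
  rw [aeval_eq_sum_range, Finset.sum_range] at hp
  have h3 := h2 (fun i => p.coeff i) (by
    rw [← hp]
    refine Finset.sum_congr rfl fun i _ => ?_
    rw [map_pow])
  ext n
  rw [coeff_zero]
  by_cases hn : n < p.natDegree + 1
  · exact h3 ⟨n, hn⟩
  · exact coeff_eq_zero_of_natDegree_lt (by omega)

section Int

variable [IsAlgClosed Ω] [CharZero Ω] [FunField Ω L] [Algebra.IsAlgebraic K Ω] [Nonempty J]

/-- elements regular where `t` is finite are integral over `K[t]` -/
theorem isIntegralElem_iff (x : F) : Reg Ω (M.emb M.t) (M.emb x) ↔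
    (aeval M.t : K[X] →ₐ[K] F).toRingHom.IsIntegralElem x := by
  rw [reg_iff_isIntegralElem M.transcendental_emb_t]
  let ψ : K[X] →+* L := M.emb.comp (aeval M.t : K[X] →ₐ[K] F).toRingHom
  have hψ : ψ = (aeval (M.emb M.t) : (Polynomial Ω) →ₐ[Ω] L).toRingHom.comp (mapRingHom (algebraMap K Ω)) := by
    apply Polynomial.ringHom_ext
    · intro a
      change M.emb (aeval M.t (C a)) = aeval (M.emb M.t) ((C a).map (algebraMap K Ω))
      rw [aeval_C, map_C, aeval_C, M.hemb]
    · change M.emb (aeval M.t X) = aeval (M.emb M.t) ((X : K[X]).map (algebraMap K Ω))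
      rw [aeval_X, map_X, aeval_X]
  constructor
  · intro h
    have h1 : ψ.IsIntegralElem (M.emb x) := by
      letI : Algebra K[X] L := ψ.toAlgebra
      have hc : ∀ c : Ω, IsIntegral K[X] (algebraMap Ω L c) := by
        intro c
        obtain ⟨p, hp, hp'⟩ := (Algebra.IsAlgebraic.isAlgebraic (R := K) c).isIntegral
        refine ⟨p.map C, hp.map _, ?_⟩
        rw [eval₂_map]
        have e : (algebraMap K[X] L).comp C = (algebraMap Ω L).comp (algebraMap K Ω) := by
          apply RingHom.ext
          intro a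
          change ψ (C a) = _
          rw [hψ]
          change aeval (M.emb M.t) ((C a).map (algebraMap K Ω)) = _
          rw [map_C, aeval_C]
          rfl
        rw [e, ← hom_eval₂, hp', map_zero]
      have ht : IsIntegral K[X] (M.emb M.t) := by
        have : M.emb M.t = algebraMap K[X] L X := by
          change M.emb M.t = M.emb (aeval M.t X)
          rw [aeval_X]
        rw [this]
        exact isIntegral_algebraMap
      let S := integralClosure K[X] L
      have hP : ∀ p : (Polynomial Ω), aeval (M.emb M.t) p ∈ S := by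
        intro p
        rw [aeval_eq_sum_range]
        refine sum_mem fun i _ => ?_
        rw [Algebra.smul_def]
        exact mul_mem (hc _) (pow_mem ht i)
      let φ : (Polynomial Ω) →+* S := (aeval (M.emb M.t) : (Polynomial Ω) →ₐ[Ω] L).toRingHom.codRestrict S hP
      obtain ⟨P, hPm, hPx⟩ := h
      have h2 : IsIntegral S (M.emb x) := by
        refine ⟨P.map φ, hPm.map _, ?_⟩
        rw [eval₂_map]
        exact hPx
      exact isIntegral_trans (R := K[X]) (A := S) (M.emb x) h2
    obtain ⟨P, hP, hP'⟩ := h1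
    refine ⟨P, hP, M.emb.injective ?_⟩
    rw [hom_eval₂, map_zero]
    exact hP'
  · rintro ⟨P, hP, hP'⟩
    refine ⟨P.map (mapRingHom (algebraMap K Ω)), hP.map _, ?_⟩
    rw [eval₂_map, ← hψ, ← hom_eval₂, hP', map_zero]

theorem mem_B_iff (x : F) : x ∈ M.B ↔ x ∈ M.G.W ∧
    (aeval M.t : K[X] →ₐ[K] F).toRingHom.IsIntegralElem x := by
  rw [M.mem_B, M.isIntegralElem_iff]

theorem mem_B_iff' (x : F) : x ∈ M.B ↔ (aeval M.t : A[X] →ₐ[A] F).toRingHom.IsIntegralElem x := by
  haveI := M.nontrivial_R (Classical.arbitrary J)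
  haveI := M.nonempty_ι
  constructor
  · intro h
    rw [M.mem_B_iff] at h
    obtain ⟨P, hP, hP'⟩ := M.G.exists_monic M.hk M.hspan M.transcendental_t h.1 h.2
    exact ⟨P, hP, hP'⟩
  · intro h
    have hK : (aeval M.t : A[X] →ₐ[A] F).toRingHom =
        (aeval M.t : K[X] →ₐ[K] F).toRingHom.comp (mapRingHom (algebraMap A K)) := by
      apply RingHom.ext
      intro p
      exact (aeval_map_algebraMap K M.t p).symm
    obtain ⟨P, hP, hP'⟩ := h
    rw [M.mem_B_iff]
    refine ⟨?_, ⟨P.map (mapRingHom (algebraMap A K)), hP.map _, by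
      rw [eval₂_map, ← hK, hP']⟩⟩
    rw [M.mem_W]
    intro j
    -- `W_j` is integrally closed
    by_contra hx
    have hx0 : x ≠ 0 := by rintro rfl; exact hx (zero_mem _)
    have hv : (M.comp j).v x < 0 := by
      by_contra hc
      push Not at hc
      exact hx (Comp.mem_of_v hc)
    have hinv : x⁻¹ ∈ (M.comp j).W := by
      apply Comp.mem_of_v; rw [Comp.v_inv]; omega
    have hinv0 : (M.comp j).π ⟨x⁻¹, hinv⟩ = 0 := by
      rw [Comp.π_eq_zero_iff]; right; rw [Comp.v_inv]; omega
    have ht : ∀ p : A[X], aeval M.t p ∈ (M.comp j).W := fun p => M.memj (M.aeval_mem_B p).1 j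
    -- multiply by `x⁻¹ ^ n`
    rw [eval₂_eq_sum_range, Finset.sum_range_succ] at hP'
    have hlead : P.coeff P.natDegree = 1 := hP
    rw [hlead, map_one, one_mul] at hP'
    have h1 : (1 : F) = -∑ i ∈ Finset.range P.natDegree,
        (aeval M.t (P.coeff i)) * x⁻¹ ^ (P.natDegree - i) := by
      have h2 : x⁻¹ ^ P.natDegree * (∑ i ∈ Finset.range P.natDegree,
          (aeval M.t (P.coeff i)) * x ^ i + x ^ P.natDegree) = 0 := by
        have : (∑ i ∈ Finset.range P.natDegree,
          (aeval M.t (P.coeff i)) * x ^ i + x ^ P.natDegree) = 0 := hP'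
        rw [this, mul_zero]
      rw [mul_add, ← mul_pow, inv_mul_cancel₀ hx0, one_pow, Finset.mul_sum] at h2
      rw [eq_neg_iff_add_eq_zero, add_comm, ← h2]
      congr 1
      refine Finset.sum_congr rfl fun i hi => ?_
      rw [Finset.mem_range] at hi
      have : x⁻¹ ^ P.natDegree = x⁻¹ ^ (P.natDegree - i) * x⁻¹ ^ i := by
        rw [← pow_add, Nat.sub_add_cancel hi.le]
      rw [this]
      have h3 : x⁻¹ ^ i * x ^ i = 1 := by rw [← mul_pow, inv_mul_cancel₀ hx0, one_pow]
      linear_combination -(aeval M.t (P.coeff i)) * x⁻¹ ^ (P.natDegree - i) * h3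
    have h4 : (1 : (M.comp j).W) = -∑ i ∈ Finset.range P.natDegree,
        (⟨aeval M.t (P.coeff i), ht _⟩ : (M.comp j).W) * ⟨x⁻¹, hinv⟩ ^ (P.natDegree - i) := by
      apply Subtype.ext
      push_cast
      exact h1
    have h5 := congrArg (M.comp j).π h4
    rw [map_one, map_neg, map_sum] at h5
    have h6 : ∑ i ∈ Finset.range P.natDegree, (M.comp j).π
        ((⟨aeval M.t (P.coeff i), ht _⟩ : (M.comp j).W) * ⟨x⁻¹, hinv⟩ ^ (P.natDegree - i)) = 0 := by
      refine Finset.sum_eq_zero fun i hi => ?_
      rw [Finset.mem_range] at hi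
      rw [map_mul, map_pow, hinv0, zero_pow (by omega), mul_zero]
    rw [h6, neg_zero] at h5
    exact one_ne_zero h5

/-- `B` is finitely generated over `A[t]` -/
theorem exists_gen [CharZero K] : ∃ s : Finset F, (∀ y ∈ s, y ∈ M.B) ∧ ∀ x ∈ M.B, ∃ c : F → A[X],
    x = ∑ y ∈ s, aeval M.t (c y) * y := by
  classical
  haveI := M.finiteDimensional_t
  letI : Algebra A[X] F := (aeval M.t : A[X] →ₐ[A] F).toRingHom.toAlgebra
  haveI : IsNoetherian A[X] (integralClosure A[X] F) := noeth M.transcendental_t
  have hfg : (Subalgebra.toSubmodule (integralClosure A[X] F)).FG :=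
    Module.Finite.iff_fg.1 inferInstance
  obtain ⟨s, hs⟩ := hfg
  refine ⟨s, fun y hy => ?_, fun x hx => ?_⟩
  · rw [M.mem_B_iff']
    have : y ∈ Subalgebra.toSubmodule (integralClosure A[X] F) := by
      rw [← hs]; exact Submodule.subset_span hy
    exact this
  · rw [M.mem_B_iff'] at hx
    have hx' : x ∈ Submodule.span A[X] (s : Set F) := by
      rw [hs]; exact hx
    obtain ⟨c, hc⟩ := (Submodule.mem_span_finset (R := A[X])).1 hx'
    refine ⟨c, hc.2.symm.trans ?_⟩
    refine Finset.sum_congr rfl fun y _ => ?_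
    rw [Algebra.smul_def]
    rfl

theorem isNoetherianRing_B [CharZero K] : IsNoetherianRing M.B := by
  haveI := M.finiteDimensional_t
  letI : Algebra A[X] F := (aeval M.t : A[X] →ₐ[A] F).toRingHom.toAlgebra
  haveI h1 : IsNoetherian A[X] (integralClosure A[X] F) := noeth M.transcendental_t
  haveI h2 : IsNoetherianRing (integralClosure A[X] F) := isNoetherian_of_tower A[X] h1
  let e : (integralClosure A[X] F) ≃+* M.B :=
    { toFun := fun x => ⟨x, (M.mem_B_iff' _).2 x.2⟩
      invFun := fun x => ⟨x, (M.mem_B_iff' _).1 x.2⟩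
      left_inv := fun x => rfl
      right_inv := fun x => rfl
      map_mul' := fun x y => rfl
      map_add' := fun x y => rfl }
  exact isNoetherianRing_of_ringEquiv _ e

end Int

end CModel

end Fermat.Agent.Car
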