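import Fermat.Agent.Car.Abs

/-!
# The abstract form of Carayol's theorem
-/

set_option autoImplicit false
set_option linter.unusedSectionVars false
set_option linter.style.haveILetI false

namespace Fermat.Agent.Car

open Module Polynomial IntermediateField AlgebraicCurve Fermat.Agent.Red Fermat.Agent.RR
  Fermat.Agent.Nod Fermat.Agent.Curve

variable {A K F k R κ Ω L : Type*} [CommRing A] [IsDomain A] [IsDiscreteValuationRing A]
    [Field K] [Algebra A K] [IsFractionRing A K] [Field F] [Algebra K F] [Algebra A F]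
    [IsScalarTower A K F] [Field k] [Algebra A k] [CommRing R] [Algebra k R] [Algebra A R]
    [IsScalarTower A k R] [Field κ] [Algebra k κ] [Field Ω] [Field L] [Algebra Ω L] [Algebra K Ω]
    {ι : Type*} [Fintype ι]

variable [IsAlgClosed Ω] [CharZero Ω] [FunField Ω L] [Algebra.IsAlgebraic K Ω]
  [IsAlgClosed k] [FunField k κ] [CharZero K]

namespace Norm3

variable {M : CModel A K F k R κ Ω L ι (Fin 3)} {q : ℕ} (N : Norm3 M q)

theorem w_ne {x : F} (hx : x ≠ 0) : N.w x ≠ 0 := (_root_.map_ne_zero N.w).2 hx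

theorem NN_inv (x : F) (hx : x ≠ 0) : N.NN x⁻¹ = (N.NN x)⁻¹ := by
  apply eq_inv_of_mul_eq_one_right
  rw [← map_mul, mul_inv_cancel₀ hx, map_one]

theorem v_w (x : F) (hv : ∀ j, (M.comp j).v x = 0) (j : Fin 3) : (M.comp j).v (N.w x) = 0 := by
  fin_cases j
  · exact (N.v_w0 x).trans (hv 2)
  · exact (N.v_w1 x).trans (hv 1)
  · exact (N.v_w2 x).trans (hv 0)

/-- normalisation of the root of the norm -/
theorem exists_norm {f : F} (hf0 : f ≠ 0) (hv : ∀ j, (M.comp j).v f = 0) {m : ℕ} (hm : m ≠ 0)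
    {c : K} {z : F} (h : N.NN f = algebraMap K F c * z ^ m) :
    ∃ (ε : Aˣ) (z' : F), N.NN f = algebraMap A F (ε : A) * z' ^ m ∧ z' ≠ 0 ∧
      (M.comp 0).v z' = 0 ∧ (M.comp 2).v z' = 0 := by
  have hNf := N.NN_ne f hf0
  have hc0 : c ≠ 0 := by
    rintro rfl
    rw [map_zero, zero_mul] at h
    exact hNf h
  have hz0 : z ≠ 0 := by
    rintro rfl
    rw [zero_pow hm, mul_zero] at h
    exact hNf h
  have hcF : algebraMap K F c ≠ 0 := by rwa [Ne, map_eq_zero]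
  obtain ⟨n, u, hcu⟩ := M.exists_unit_pow hc0
  have hpF := M.pF_ne
  have huF : algebraMap A F (u : A) ≠ 0 := by
    rw [Ne, map_eq_zero_iff _ M.algebraMap_inj]; exact Units.ne_zero _
  have h0 := N.v_NN0 f hf0
  rw [h, hv, hv, Comp.v_mul _ hcF (pow_ne_zero _ hz0), M.v_K hcu, N.e0, Comp.v_pow] at h0
  set a := (M.comp 0).v z with ha
  have hn : n = -(m * a) := by push_cast at h0; linarith
  have e : N.NN f = algebraMap A F (u : A) * (algebraMap A F M.p ^ (-a) * z) ^ m := by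
    rw [h, hcu, map_mul, map_zpow₀, ← IsScalarTower.algebraMap_apply A K F,
      ← IsScalarTower.algebraMap_apply A K F, mul_pow, mul_assoc]
    congr 1
    rw [← zpow_natCast (algebraMap A F M.p ^ (-a)) m, ← zpow_mul, hn]
    congr 2
    ring
  have hz'0 : algebraMap A F M.p ^ (-a) * z ≠ 0 := mul_ne_zero (zpow_ne_zero _ hpF) hz0
  refine ⟨u, _, e, hz'0, ?_, ?_⟩
  · rw [Comp.v_mul _ (zpow_ne_zero _ hpF) hz0, Comp.v_zpow, M.v_p, N.e0]
    push_cast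
    ring
  · have h2 := N.v_NN2 f hf0
    rw [hv, mul_zero, e, Comp.v_mul _ huF (pow_ne_zero _ hz'0), M.v_unit, Comp.v_pow, zero_add] at h2
    rcases mul_eq_zero.1 h2 with h3 | h3
    · exact absurd (by exact_mod_cast h3) hm
    · exact h3

/-- the relation at the intersection points -/
theorem node_rel (H : M.Good) (hS : N.Stab) {m : ℕ} (hm0 : m ≠ 0) {f : F}
    (hf0 : f ≠ 0) (hv : ∀ j, (M.comp j).v f = 0) {E : Divisor Ω L}
    (hE : ∀ v, (m : ℤ) * E v = v.ord (M.emb f)) {ε1 ε2 : Aˣ} {z1 z2 : F}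
    (h1 : N.NN f = algebraMap A F (ε1 : A) * z1 ^ m)
    (h2 : N.NN (N.w f) = algebraMap A F (ε2 : A) * z2 ^ m) (hz1 : z1 ≠ 0) (hz2 : z2 ≠ 0)
    (v10 : (M.comp 0).v z1 = 0) (v12 : (M.comp 2).v z1 = 0)
    (v20 : (M.comp 0).v z2 = 0) (v22 : (M.comp 2).v z2 = 0)
    {γ0 γ1 γ2 : κ} (hγ0 : γ0 ^ m = (M.comp 0).r f) (hγ1 : γ1 ^ m = (M.comp 1).r f ^ (q - 1))
    (hγ2 : γ2 ^ m = (M.comp 2).r f) {c1 c2 d1 d2 d3 : k} (hc1 : c1 ≠ 0) (hc2 : c2 ≠ 0)
    (hd1 : d1 ≠ 0) (hd2 : d2 ≠ 0) (hd3 : d3 ≠ 0)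
    (r10 : algebraMap k κ c1 * (M.comp 0).r z1 = γ0 * γ1)
    (r12 : algebraMap k κ c1 * (M.comp 2).r z1 = algebraMap k κ d1 * γ2 ^ q)
    (r20 : algebraMap k κ c2 * (M.comp 0).r z2 = algebraMap k κ d2 * (γ2 * γ1))
    (r22 : algebraMap k κ c2 * (M.comp 2).r z2 = algebraMap k κ d3 * γ0 ^ q)
    {Q : Place k κ} (hQ : ∀ l, 0 ≤ Q.ord (M.tb l)) (hsame : ∀ l l', M.SameAt l Q l' Q) :
    ∃ s, s ∈ M.M0 E ∧ (∀ l, val Q ((M.comp l).r (s ^ m * f⁻¹)) ≠ 0) ∧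
      Ge Q 0 ((M.comp 0).r s / γ0) ∧ Ge Q 0 ((M.comp 1).r s ^ (q - 1) / γ1) ∧
      Ge Q 0 ((M.comp 2).r s / γ2) ∧ val Q ((M.comp 0).r s / γ0) ≠ 0 ∧
      val Q ((M.comp 0).r s / γ0) ^ (q + 1) * (d1 * d2) =
        d3 * val Q ((M.comp 2).r s / γ2) ^ (q + 1) ∧
      d1 * val Q ((M.comp 0).r s / γ0) * val Q ((M.comp 1).r s ^ (q - 1) / γ1) =
        val Q ((M.comp 2).r s / γ2) ^ q := by
  obtain ⟨s, hs, hsQ⟩ := M.exists_gen_at H hf0 hv hm0 hE (hQ 0)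
  have hη := M.pow_mul_inv_mem_B hf0 hv hm0 hE hs
  have hηQ : ∀ l, val Q ((M.comp l).r (s ^ m * f⁻¹)) ≠ 0 := by
    intro l
    rw [← hsame 0 l _ hη]; exact hsQ
  have hs0 : s ≠ 0 := by
    rintro rfl
    apply hsQ
    rw [zero_pow hm0, zero_mul, Comp.r_zero, val_zero]
  have hsW : ∀ l, s ∈ (M.comp l).W := fun l => M.memj hs.1 l
  have hfW : ∀ l, f⁻¹ ∈ (M.comp l).W := fun l => Comp.mem_of_v (by rw [Comp.v_inv, hv]; norm_num)
  have hrη : ∀ l, (M.comp l).r (s ^ m * f⁻¹) = (M.comp l).r s ^ m * ((M.comp l).r f)⁻¹ := by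
    intro l
    rw [Comp.r_mul (pow_mem (hsW l) m) (hfW l), Comp.r_pow (hsW l), Comp.r_inv (hv l)]
  have hrs : ∀ l, (M.comp l).r s ≠ 0 := by
    intro l h
    apply hηQ l
    rw [hrη, h, zero_pow hm0, zero_mul, val_zero]
  have hvs : ∀ l, (M.comp l).v s = 0 := fun l => (Comp.r_ne_zero_iff hs0).1 (hrs l)
  have hrf : ∀ l, (M.comp l).r f ≠ 0 := fun l => (Comp.r_ne_zero_iff hf0).2 (hv l)
  have g0ne : γ0 ≠ 0 := fun h => hrf 0 (by rw [← hγ0, h, zero_pow hm0])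
  have g2ne : γ2 ≠ 0 := fun h => hrf 2 (by rw [← hγ2, h, zero_pow hm0])
  have g1ne : γ1 ≠ 0 := fun h => by
    rw [h, zero_pow hm0] at hγ1
    exact pow_ne_zero _ (hrf 1) hγ1.symm
  obtain ⟨G0, G0'⟩ := M.ge_div hf0 hv hm0 hE hs (hQ 0) hγ0
  obtain ⟨G2, G2'⟩ := M.ge_div hf0 hv hm0 hE hs (hQ 2) hγ2
  have G1 : Ge Q 0 ((M.comp 1).r s ^ (q - 1) / γ1) := by
    have h3 : ((M.comp 1).r s ^ (q - 1) / γ1) ^ m = (M.comp 1).r (s ^ m * f⁻¹) ^ (q - 1) := by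
      rw [div_pow, hγ1, hrη, mul_pow, inv_pow, div_eq_mul_inv, ← pow_mul, ← pow_mul, mul_comm m]
    have h4 : Ge Q 0 (((M.comp 1).r s ^ (q - 1) / γ1) ^ m) := by
      rw [h3]; exact ge_zero_pow (M.reg_r hη 1 Q (hQ 1)) _
    have h5 : (M.comp 1).r s ^ (q - 1) / γ1 ≠ 0 := div_ne_zero (pow_ne_zero _ (hrs 1)) g1ne
    have h6 := h4.le_ord (pow_ne_zero _ h5)
    rw [ord_pow] at h6
    right
    have hm' : (0 : ℤ) < m := by exact_mod_cast Nat.pos_of_ne_zero hm0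
    by_contra h7
    push Not at h7
    nlinarith
  have hδ0 : val Q ((M.comp 0).r s / γ0) ≠ 0 := by
    intro h
    rw [h, zero_pow hm0] at G0'
    exact hηQ 0 G0'.symm
  -- constants
  have hK : ∀ c : k, c ≠ 0 → algebraMap k κ c ≠ 0 := fun c hc => by rwa [Ne, map_eq_zero]
  have hz1r0 : (M.comp 0).r z1 ≠ 0 := (Comp.r_ne_zero_iff hz1).2 v10
  have hz1r2 : (M.comp 2).r z1 ≠ 0 := (Comp.r_ne_zero_iff hz1).2 v12
  have hz2r0 : (M.comp 0).r z2 ≠ 0 := (Comp.r_ne_zero_iff hz2).2 v20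
  have hz2r2 : (M.comp 2).r z2 ≠ 0 := (Comp.r_ne_zero_iff hz2).2 v22
  have hunit : ∀ u : Aˣ, algebraMap A F (u : A) ≠ 0 := fun u => by
    rw [Ne, map_eq_zero_iff _ M.algebraMap_inj]; exact Units.ne_zero _
  have hf0' := N.w_ne hf0
  -- first relation
  have B1 : N.NN s / z1 ∈ M.B := by
    apply M.mem_B_of_pow hm0
    have e : (N.NN s / z1) ^ m = algebraMap A F (ε1 : A) * N.NN (s ^ m * f⁻¹) := by
      rw [div_pow, map_mul, map_pow, N.NN_inv _ hf0, h1]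
      have := hunit ε1
      field_simp
    rw [e]
    exact mul_mem (M.algebraMap_mem_B _) (hS.NN_B _ hη)
  have R1 := hsame 0 2 _ B1
  have hNsW0 : N.NN s ∈ (M.comp 0).W := Comp.mem_of_v (by
    rw [N.v_NN0 s hs0, hvs, hvs]; norm_num)
  have hNsW2 : N.NN s ∈ (M.comp 2).W := Comp.mem_of_v (by
    rw [N.v_NN2 s hs0, hvs]; norm_num)
  rw [Comp.r_div hNsW0 v10, Comp.r_div hNsW2 v12, N.r_NN0 s hs0 (hvs 0) (hvs 1),
    N.r_NN2 s hs0 (hvs 2)] at R1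
  have e1 : (M.comp 0).r s * (M.comp 1).r s ^ (q - 1) / (M.comp 0).r z1 =
      algebraMap k κ c1 * (((M.comp 0).r s / γ0) * ((M.comp 1).r s ^ (q - 1) / γ1)) := by
    have : (M.comp 0).r z1 = γ0 * γ1 / algebraMap k κ c1 := by
      rw [eq_div_iff (hK c1 hc1), ← r10, mul_comm]
    rw [this]
    have := hK c1 hc1
    field_simp
  have e2 : (M.comp 2).r s ^ q / (M.comp 2).r z1 =
      algebraMap k κ (c1 / d1) * ((M.comp 2).r s / γ2) ^ q := by
    have : (M.comp 2).r z1 = algebraMap k κ d1 * γ2 ^ q / algebraMap k κ c1 := by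
      rw [eq_div_iff (hK c1 hc1), ← r12, mul_comm]
    rw [this, map_div₀, div_pow]
    have := hK c1 hc1
    have := hK d1 hd1
    field_simp
  have G01 : Ge Q 0 (((M.comp 0).r s / γ0) * ((M.comp 1).r s ^ (q - 1) / γ1)) :=
    (G0.mul G1).mono (by norm_num)
  rw [e1, e2, val_mul (Ge.algebraMap Q _) G01, val_mul (Ge.algebraMap Q _) (ge_zero_pow G2 q),
    val_algebraMap, val_algebraMap, val_mul G0 G1, val_pow G2] at R1
  -- second relation
  have B2 : N.NN (N.w s) / z2 ∈ M.B := by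
    apply M.mem_B_of_pow hm0
    have e : (N.NN (N.w s) / z2) ^ m = algebraMap A F (ε2 : A) * N.NN (N.w (s ^ m * f⁻¹)) := by
      rw [div_pow, map_mul, map_mul, map_pow, map_pow, map_inv₀, N.NN_inv _ hf0', h2]
      have := hunit ε2
      field_simp
    rw [e]
    exact mul_mem (M.algebraMap_mem_B _) (hS.NN_B _ (hS.w_B _ hη))
  have R2 := hsame 0 2 _ B2
  have hws0 := N.w_ne hs0
  have hvws := N.v_w s hvs
  have hNwW0 : N.NN (N.w s) ∈ (M.comp 0).W := Comp.mem_of_v (by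
    rw [N.v_NN0 _ hws0, hvws, hvws]; norm_num)
  have hNwW2 : N.NN (N.w s) ∈ (M.comp 2).W := Comp.mem_of_v (by
    rw [N.v_NN2 _ hws0, hvws]; norm_num)
  rw [Comp.r_div hNwW0 v20, Comp.r_div hNwW2 v22, N.r_NN0 _ hws0 (hvws 0) (hvws 1),
    N.r_NN2 _ hws0 (hvws 2), N.r_w0, N.r_w1, N.r_w2] at R2
  have e3 : (M.comp 2).r s * (M.comp 1).r s ^ (q - 1) / (M.comp 0).r z2 =
      algebraMap k κ (c2 / d2) * (((M.comp 2).r s / γ2) * ((M.comp 1).r s ^ (q - 1) / γ1)) := by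
    have : (M.comp 0).r z2 = algebraMap k κ d2 * (γ2 * γ1) / algebraMap k κ c2 := by
      rw [eq_div_iff (hK c2 hc2), ← r20, mul_comm]
    rw [this, map_div₀]
    have := hK c2 hc2
    have := hK d2 hd2
    field_simp
  have e4 : (M.comp 0).r s ^ q / (M.comp 2).r z2 =
      algebraMap k κ (c2 / d3) * ((M.comp 0).r s / γ0) ^ q := by
    have : (M.comp 2).r z2 = algebraMap k κ d3 * γ0 ^ q / algebraMap k κ c2 := by
      rw [eq_div_iff (hK c2 hc2), ← r22, mul_comm]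
    rw [this, map_div₀, div_pow]
    have := hK c2 hc2
    have := hK d3 hd3
    field_simp
  have G21 : Ge Q 0 (((M.comp 2).r s / γ2) * ((M.comp 1).r s ^ (q - 1) / γ1)) :=
    (G2.mul G1).mono (by norm_num)
  rw [e3, e4, val_mul (Ge.algebraMap Q _) G21, val_mul (Ge.algebraMap Q _) (ge_zero_pow G0 q),
    val_algebraMap, val_algebraMap, val_mul G2 G1, val_pow G0] at R2
  set δ0 := val Q ((M.comp 0).r s / γ0) with hδ0def
  set δ2 := val Q ((M.comp 2).r s / γ2) with hδ2def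
  set D1 := val Q ((M.comp 1).r s ^ (q - 1) / γ1) with hD1def
  have S1 : d1 * δ0 * D1 = δ2 ^ q := by
    have h5 : c1 * (δ0 * D1) * d1 = c1 * δ2 ^ q := by
      rw [R1]; field_simp
    have h6 : c1 * (d1 * δ0 * D1) = c1 * δ2 ^ q := by rw [← h5]; ring
    exact mul_left_cancel₀ hc1 h6
  have S2 : d3 * (δ2 * D1) = d2 * δ0 ^ q := by
    have h5 : c2 / d2 * (δ2 * D1) * (d2 * d3) = c2 / d3 * δ0 ^ q * (d2 * d3) := by rw [R2]
    have h6 : c2 * (d3 * (δ2 * D1)) = c2 * (d2 * δ0 ^ q) := by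
      calc c2 * (d3 * (δ2 * D1)) = c2 / d2 * (δ2 * D1) * (d2 * d3) := by field_simp
        _ = _ := h5
        _ = _ := by field_simp
    exact mul_left_cancel₀ hc2 h6
  refine ⟨s, hs, hηQ, G0, G1, G2, hδ0, ?_, S1⟩
  calc δ0 ^ (q + 1) * (d1 * d2) = d1 * δ0 * (d2 * δ0 ^ q) := by ring
    _ = d1 * δ0 * (d3 * (δ2 * D1)) := by rw [S2]
    _ = d3 * δ2 * (d1 * δ0 * D1) := by ring
    _ = d3 * δ2 * δ2 ^ q := by rw [S1]
    _ = d3 * δ2 ^ (q + 1) := by ring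

end Norm3

end Fermat.Agent.Car
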