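import Fermat.Agent.Car.Main

/-!
# Divisibility of the orders on the components
-/

set_option autoImplicit false
set_option linter.unusedSectionVars false
set_option linter.style.haveILetI false

namespace Fermat.Agent.Car

open Module Polynomial IntermediateField AlgebraicCurve Fermat.Agent.Red Fermat.Agent.RR
  Fermat.Agent.Nod Fermat.Agent.Curve

variable {A K F k R κ Ω L : Type*} [CommRing A] [IsDomain A] [IsDiscreteValuationRing A]
    [Field K] [Algebra A K] [IsFractionRing A K] [Field F] [Algebra K F] [Algebra A F]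
    [IsScalarTower A K F] [Field k] [Algebra A k] [CommRing R] [Algebra k R] [Algebra A R]
    [IsScalarTower A k R] [Field κ] [Algebra k κ] [Field Ω] [Field L] [Algebra Ω L] [Algebra K Ω]
    {ι J : Type*} [Fintype ι] [Fintype J]

namespace CModel

variable (M : CModel A K F k R κ Ω L ι J)

variable [IsAlgClosed Ω] [CharZero Ω] [FunField Ω L] [Algebra.IsAlgebraic K Ω] [Nonempty J]
  [IsAlgClosed k] [FunField k κ] [CharZero K]

theorem dvd_ord_of_good (H : M.Good) {f : F} (hf0 : f ≠ 0) (hv : ∀ j, (M.comp j).v f = 0) {m : ℕ}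
    (hm : m ≠ 0) (hdvd : ∀ v : Place Ω L, (m : ℤ) ∣ v.ord (M.emb f)) {j : J}
    {Q : Place k κ} (hQ : 0 ≤ Q.ord (M.tb j)) : (m : ℤ) ∣ Q.ord ((M.comp j).r f) := by
  obtain ⟨E, hE⟩ := exists_div_divisor hm hdvd
  obtain ⟨s, hs, hval⟩ := M.exists_gen_at H hf0 hv hm hE hQ
  have hsW : s ∈ (M.comp j).W := M.memj hs.1 j
  have hfW : f⁻¹ ∈ (M.comp j).W := Comp.mem_of_v (by rw [Comp.v_inv, hv]; norm_num)
  have h1 := M.reg_r (M.pow_mul_inv_mem_B hf0 hv hm hE hs) j Q hQ
  rw [Comp.r_mul (pow_mem hsW m) hfW, Comp.r_pow hsW, Comp.r_inv (hv j)] at h1 hval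
  have hrf : (M.comp j).r f ≠ 0 := (Comp.r_ne_zero_iff hf0).2 (hv j)
  have hrs : (M.comp j).r s ≠ 0 := by
    intro h0
    rw [h0, zero_pow hm, zero_mul, val_zero] at hval
    exact hval rfl
  have h2 := (val_ne_zero_iff h1 (mul_ne_zero (pow_ne_zero _ hrs) (inv_ne_zero hrf))).1 hval
  rw [Place.ord_mul _ (pow_ne_zero _ hrs) (inv_ne_zero hrf), ord_pow, Place.ord_inv] at h2
  exact ⟨Q.ord ((M.comp j).r s), by linarith⟩

/-- **Divisibility of the orders of the reductions.** -/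
theorem dvd_ord (H : M.Good) (H' : M.inv.Good) {f : F} (hf0 : f ≠ 0)
    (hv : ∀ j, (M.comp j).v f = 0) {m : ℕ}
    (hm : m ≠ 0) (hdvd : ∀ v : Place Ω L, (m : ℤ) ∣ v.ord (M.emb f)) (j : J)
    (Q : Place k κ) : (m : ℤ) ∣ Q.ord ((M.comp j).r f) := by
  rcases le_total 0 (Q.ord (M.tb j)) with h | h
  · exact M.dvd_ord_of_good H hf0 hv hm hdvd h
  · refine M.inv.dvd_ord_of_good H' hf0 hv hm hdvd (j := j) ?_
    rw [M.tb_inv, Place.ord_inv]
    omega

end CModel

end Fermat.Agent.Car
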