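import Fermat.Agent.Red.Genus

/-!
# Finiteness of the integral closure of `A[s]`
-/

set_option autoImplicit false
set_option linter.unusedSectionVars false
set_option linter.style.haveILetI false

namespace Fermat.Agent.Car

open Module Polynomial IntermediateField

variable {A K F : Type*} [CommRing A] [IsDomain A] [IsDiscreteValuationRing A]
  [Field K] [Algebra A K] [IsFractionRing A K] [Field F] [Algebra K F] [Algebra A F]
  [IsScalarTower A K F]

theorem aeval_injective_of_transcendental {s : F} (hs : Transcendental K s) :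
    Function.Injective (aeval s : A[X] →ₐ[A] F) := by
  rw [injective_iff_map_eq_zero]
  intro p hp
  have h1 : aeval s (p.map (algebraMap A K)) = 0 := by rw [aeval_map_algebraMap, hp]
  have h2 := (transcendental_iff_injective.1 hs) (h1.trans (map_zero _).symm)
  exact (Polynomial.map_eq_zero_iff (IsFractionRing.injective A K)).1 h2

theorem exists_mul_map (p : K[X]) : ∃ a : A, a ≠ 0 ∧ ∃ P : A[X],
    C (algebraMap A K a) * p = P.map (algebraMap A K) := by
  obtain ⟨a, ha, h⟩ := IsLocalization.integerNormalization_spec (nonZeroDivisors A) p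
  refine ⟨a, nonZeroDivisors.ne_zero ha, IsLocalization.integerNormalization (nonZeroDivisors A) p, ?_⟩
  rw [h, Polynomial.C_mul', algebraMap_smul]

theorem noeth [CharZero K] {s : F} (hs : Transcendental K s) [FiniteDimensional K⟮s⟯ F] :
    letI : Algebra A[X] F := (aeval s : A[X] →ₐ[A] F).toRingHom.toAlgebra
    IsNoetherian A[X] (integralClosure A[X] F) := by
  letI : Algebra A[X] F := (aeval s : A[X] →ₐ[A] F).toRingHom.toAlgebra
  let g : K⟮s⟯ := AdjoinSimple.gen K s
  let φ : A[X] →+* K⟮s⟯ := (aeval g : K[X] →ₐ[K] K⟮s⟯).toRingHom.comp (mapRingHom (algebraMap A K))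
  letI : Algebra A[X] K⟮s⟯ := φ.toAlgebra
  have hφ : ∀ p : A[X], ((φ p : K⟮s⟯) : F) = aeval s p := by
    intro p
    change algebraMap K⟮s⟯ F (aeval g (p.map (algebraMap A K))) = _
    rw [← aeval_algebraMap_apply]
    change aeval s _ = _
    rw [aeval_map_algebraMap]
  haveI : IsScalarTower A[X] K⟮s⟯ F := by
    refine IsScalarTower.of_algebraMap_eq fun p => ?_
    exact (hφ p).symm
  haveI : FaithfulSMul A[X] K⟮s⟯ := by
    rw [faithfulSMul_iff_algebraMap_injective]
    intro p p' h
    apply aeval_injective_of_transcendental (A := A) hs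
    rw [← hφ, ← hφ]
    exact congrArg _ h
  haveI : IsFractionRing A[X] K⟮s⟯ := by
    refine IsFractionRing.of_field A[X] K⟮s⟯ fun z => ?_
    obtain ⟨p, q, hpq⟩ := (IntermediateField.mem_adjoin_simple_iff K (z : F)).1 z.2
    obtain ⟨a, ha, P, hP⟩ := exists_mul_map (A := A) p
    obtain ⟨b, hb, Q, hQ⟩ := exists_mul_map (A := A) q
    refine ⟨C b * P, C a * Q, ?_⟩
    apply Subtype.ext
    have e1 : aeval s P = algebraMap A F a * aeval s p := by
      have := congrArg (aeval s) hP
      rw [map_mul, aeval_C, aeval_map_algebraMap, ← IsScalarTower.algebraMap_apply] at this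
      exact this.symm
    have e2 : aeval s Q = algebraMap A F b * aeval s q := by
      have := congrArg (aeval s) hQ
      rw [map_mul, aeval_C, aeval_map_algebraMap, ← IsScalarTower.algebraMap_apply] at this
      exact this.symm
    have ha' : algebraMap A F a ≠ 0 := by
      rw [IsScalarTower.algebraMap_apply A K F]; simpa using ha
    have hb' : algebraMap A F b ≠ 0 := by
      rw [IsScalarTower.algebraMap_apply A K F]; simpa using hb
    change (z : F) = ((φ (C b * P) : K⟮s⟯) : F) / ((φ (C a * Q) : K⟮s⟯) : F)
    rw [hφ, hφ, map_mul, map_mul, aeval_C, aeval_C, e1, e2, hpq]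
    rw [show algebraMap A F b * (algebraMap A F a * aeval s p) =
      (algebraMap A F a * algebraMap A F b) * aeval s p by ring,
      show algebraMap A F a * (algebraMap A F b * aeval s q) =
      (algebraMap A F a * algebraMap A F b) * aeval s q by ring,
      mul_div_mul_left _ _ (mul_ne_zero ha' hb')]
  haveI : CharZero K⟮s⟯ := charZero_of_injective_algebraMap (algebraMap K K⟮s⟯).injective
  haveI : Algebra.IsSeparable K⟮s⟯ F := inferInstance
  exact IsIntegralClosure.isNoetherian A[X] K⟮s⟯ F (integralClosure A[X] F)

end Fermat.Agent.Car
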