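import Fermat.Agent.Car.BB

/-!
# Reduction of Riemann-Roch spaces
-/

set_option autoImplicit false
set_option linter.unusedSectionVars false
set_option linter.style.haveILetI false

namespace Fermat.Agent.Car

open Module Polynomial IntermediateField AlgebraicCurve Fermat.Agent.Red Fermat.Agent.RR
  Fermat.Agent.Nod Fermat.Agent.Curve

variable {A K F k R κ Ω L : Type*} [CommRing A] [IsDomain A] [IsDiscreteValuationRing A]
    [Field K] [Algebra A K] [IsFractionRing A K] [Field F] [Algebra K F] [Algebra A F]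
    [IsScalarTower A K F] [Field k] [Algebra A k] [CommRing R] [Algebra k R] [Algebra A R]
    [IsScalarTower A k R] [Field κ] [Algebra k κ] [Field Ω] [Field L] [Algebra Ω L] [Algebra K Ω]
    {ι J : Type*} [Fintype ι] [Fintype J]

namespace CModel

variable (M : CModel A K F k R κ Ω L ι J)

/-- the reduction of the parameter -/
noncomputable def τ : R := M.G.π ⟨M.t, M.t_mem⟩

theorem τ_mul : M.τ * M.inv.τ = 1 := M.G.π_inv_t

theorem τ_mul' : M.inv.τ * M.τ = 1 := by rw [mul_comm]; exact M.τ_mul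

theorem τ_pow_mul (n : ℕ) (r : R) : M.τ ^ n * (M.inv.τ ^ n * r) = r := by
  rw [← mul_assoc, ← mul_pow, M.τ_mul, one_pow, one_mul]

theorem τ_pow_mul' (n : ℕ) (r : R) : M.inv.τ ^ n * (M.τ ^ n * r) = r := by
  rw [← mul_assoc, ← mul_pow, M.τ_mul', one_pow, one_mul]

/-- the ring of regular functions on the special fibre -/
noncomputable def BB : Subalgebra k R where
  carrier := {r | ∃ x : F, ∃ hx : x ∈ M.B, M.G.π ⟨x, hx.1⟩ = r}
  mul_mem' := by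
    rintro _ _ ⟨x, hx, rfl⟩ ⟨y, hy, rfl⟩
    exact ⟨x * y, mul_mem hx hy, map_mul M.G.π ⟨x, hx.1⟩ ⟨y, hy.1⟩⟩
  add_mem' := by
    rintro _ _ ⟨x, hx, rfl⟩ ⟨y, hy, rfl⟩
    exact ⟨x + y, add_mem hx hy, map_add M.G.π ⟨x, hx.1⟩ ⟨y, hy.1⟩⟩
  algebraMap_mem' := by
    intro c
    obtain ⟨a, rfl⟩ := M.hk c
    refine ⟨algebraMap A F a, M.algebraMap_mem_B a, ?_⟩
    have := M.G.π.commutes a
    rw [IsScalarTower.algebraMap_apply A k R] at this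
    exact this

theorem π_mem_BB {x : F} (hx : x ∈ M.B) : M.G.π ⟨x, hx.1⟩ ∈ M.BB := ⟨x, hx, rfl⟩

theorem mem_BB {r : R} : r ∈ M.BB ↔ ∃ x : F, ∃ hx : x ∈ M.B, M.G.π ⟨x, hx.1⟩ = r := Iff.rfl

theorem τ_mem_BB : M.τ ∈ M.BB := ⟨_, M.t_mem_B, rfl⟩

theorem π_pow_mul {x : F} (hx : x ∈ M.G.W) (n : ℕ) (h : M.t ^ n * x ∈ M.G.W) :
    M.G.π ⟨M.t ^ n * x, h⟩ = M.τ ^ n * M.G.π ⟨x, hx⟩ := by
  have h4 : (⟨M.t ^ n * x, h⟩ : M.G.W) = ⟨M.t, M.t_mem⟩ ^ n * ⟨x, hx⟩ := rfl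
  rw [h4, map_mul, map_pow]
  rfl

theorem inv_t_mem : M.t⁻¹ ∈ M.G.W := M.G.inv_t_mem

theorem π_inv_pow_mul {x : F} (hx : x ∈ M.G.W) (n : ℕ) (h : M.t⁻¹ ^ n * x ∈ M.G.W) :
    M.G.π ⟨M.t⁻¹ ^ n * x, h⟩ = M.inv.τ ^ n * M.G.π ⟨x, hx⟩ := M.inv.π_pow_mul hx n h

theorem pow_mul_mem {x : F} (hx : x ∈ M.G.W) (n : ℕ) : M.t ^ n * x ∈ M.G.W :=
  mul_mem (pow_mem M.t_mem n) hx

theorem inv_pow_mul_mem {x : F} (hx : x ∈ M.G.W) (n : ℕ) : M.t⁻¹ ^ n * x ∈ M.G.W :=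
  mul_mem (pow_mem M.inv_t_mem n) hx

theorem pow_mul_inv (n : ℕ) (x : F) : M.t ^ n * (M.t⁻¹ ^ n * x) = x := by
  rw [← mul_assoc, ← mul_pow, mul_inv_cancel₀ M.t_ne, one_pow, one_mul]

theorem inv_mul_pow (n : ℕ) (x : F) : M.t⁻¹ ^ n * (M.t ^ n * x) = x := by
  rw [← mul_assoc, ← mul_pow, inv_mul_cancel₀ M.t_ne, one_pow, one_mul]

section Int

variable [IsAlgClosed Ω] [CharZero Ω] [FunField Ω L] [Algebra.IsAlgebraic K Ω] [Nonempty J]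

theorem exists_inv_pow {x : F} (hx : x ∈ M.B) : ∃ n : ℕ, ∀ m, n ≤ m → M.t⁻¹ ^ m * x ∈ M.inv.B := by
  obtain ⟨n, hn⟩ := exists_mem_DD M.transcendental_emb_t hx.2
  have h1 : M.t⁻¹ ^ n * x ∈ M.inv.B := by
    refine ⟨M.inv_pow_mul_mem hx.1 n, ?_⟩
    have h2 := inv_pow_mul_mem_L_DD (k := Ω) (t := M.emb M.t) (a := 0) (b := 0) n
      (by rw [zero_add]; exact hn)
    rw [zero_add, ← DD_inv] at h2
    have h3 := reg_of_mem_DD h2
    change Reg Ω (M.emb M.t⁻¹) (M.emb (M.t⁻¹ ^ n * x))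
    rw [map_mul, map_pow, map_inv₀]
    exact h3
  refine ⟨n, fun m hm => ?_⟩
  obtain ⟨d, rfl⟩ := Nat.exists_eq_add_of_le hm
  rw [pow_add, mul_comm (M.t⁻¹ ^ n), mul_assoc]
  exact mul_mem (pow_mem M.inv.t_mem_B d) h1

theorem exists_pow {x : F} (hx : x ∈ M.inv.B) : ∃ n : ℕ, ∀ m, n ≤ m → M.t ^ m * x ∈ M.B := by
  obtain ⟨n, hn⟩ := M.inv.exists_inv_pow hx
  refine ⟨n, fun m hm => ?_⟩
  have h1 := hn m hm
  have h2 : M.inv.t⁻¹ = M.t := by rw [M.t_inv, inv_inv]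
  rw [h2] at h1
  refine ⟨h1.1, ?_⟩
  have h3 := h1.2
  have h4 : M.inv.inv.t = M.t := by
    change M.inv.t⁻¹ = M.t
    exact h2
  rw [h4] at h3
  exact h3

variable [CharZero K]

/-- splitting -/
theorem split : ∃ N : ℕ, ∀ n, N ≤ n → ∀ w : F, (∃ j : ℕ, M.t ^ j * w ∈ M.B) →
    ∃ u ∈ M.B, ∃ v, M.t⁻¹ ^ n * v ∈ M.inv.B ∧ w = u + v := by
  classical
  obtain ⟨s, hs, hgen⟩ := M.exists_gen
  have h1 : ∀ y : F, ∃ n : ℕ, y ∈ s → ∀ m, n ≤ m → M.t⁻¹ ^ m * y ∈ M.inv.B := by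
    intro y
    by_cases hy : y ∈ s
    · obtain ⟨n, hn⟩ := M.exists_inv_pow (hs y hy)
      exact ⟨n, fun _ => hn⟩
    · exact ⟨0, fun h => absurd h hy⟩
  choose N0 hN0 using h1
  refine ⟨s.sup N0, fun n hn w hw => ?_⟩
  obtain ⟨j, hj⟩ := hw
  let D : AddSubgroup F :=
    { carrier := {w | ∃ u ∈ M.B, ∃ v, M.t⁻¹ ^ n * v ∈ M.inv.B ∧ w = u + v}
      add_mem' := by
        rintro _ _ ⟨u, hu, v, hv, rfl⟩ ⟨u', hu', v', hv', rfl⟩
        exact ⟨u + u', add_mem hu hu', v + v', by rw [mul_add]; exact add_mem hv hv', by ring⟩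
      zero_mem' := ⟨0, zero_mem _, 0, by rw [mul_zero]; exact zero_mem _, by ring⟩
      neg_mem' := by
        rintro _ ⟨u, hu, v, hv, rfl⟩
        exact ⟨-u, neg_mem hu, -v, by rw [mul_neg]; exact neg_mem hv, by ring⟩ }
  change w ∈ D
  obtain ⟨c, hc⟩ := hgen _ hj
  have e : w = ∑ y ∈ s, ∑ i ∈ Finset.range ((c y).natDegree + 1),
      algebraMap A F ((c y).coeff i) * (M.t⁻¹ ^ j * M.t ^ i) * y := by
    rw [← M.inv_mul_pow j w, hc, Finset.mul_sum]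
    refine Finset.sum_congr rfl fun y _ => ?_
    rw [aeval_eq_sum_range, Finset.sum_mul, Finset.mul_sum]
    refine Finset.sum_congr rfl fun i _ => ?_
    rw [Algebra.smul_def]
    ring
  rw [e]
  refine sum_mem fun y hy => sum_mem fun i _ => ?_
  have hB : ∀ a : A, algebraMap A F a ∈ M.B := M.algebraMap_mem_B
  have hB' : ∀ a : A, algebraMap A F a ∈ M.inv.B := M.inv.algebraMap_mem_B
  rcases le_total j i with hji | hij
  · refine ⟨_, ?_, 0, by rw [mul_zero]; exact zero_mem _, by rw [add_zero]⟩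
    obtain ⟨d, rfl⟩ := Nat.exists_eq_add_of_le hji
    rw [pow_add, M.inv_mul_pow]
    exact mul_mem (mul_mem (hB _) (pow_mem M.t_mem_B d)) (hs y hy)
  · refine ⟨0, zero_mem _, _, ?_, by rw [zero_add]⟩
    obtain ⟨d, rfl⟩ := Nat.exists_eq_add_of_le hij
    have e2 : M.t⁻¹ ^ n * (algebraMap A F ((c y).coeff i) * (M.t⁻¹ ^ (i + d) * M.t ^ i) * y) =
        algebraMap A F ((c y).coeff i) * M.t⁻¹ ^ d * (M.t⁻¹ ^ n * y) * (M.t⁻¹ ^ i * M.t ^ i) := by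
      rw [pow_add]; ring
    rw [e2, ← mul_pow, inv_mul_cancel₀ M.t_ne, one_pow, mul_one]
    exact mul_mem (mul_mem (hB' _) (pow_mem M.inv.t_mem_B d))
      (hN0 y hy n ((Finset.le_sup (f := N0) hy).trans hn))

/-- splitting downstairs -/
theorem splitR : ∃ N : ℕ, ∀ n, N ≤ n → ∀ w : R, (∃ j : ℕ, M.τ ^ j * w ∈ M.BB) →
    ∃ u ∈ M.BB, ∃ v, M.inv.τ ^ n * v ∈ M.inv.BB ∧ w = u + v := by
  obtain ⟨N, hN⟩ := M.split
  refine ⟨N, fun n hn w hw => ?_⟩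
  obtain ⟨j, x, hx, hxw⟩ := hw
  obtain ⟨u, hu, v, hv, huv⟩ := hN n hn (M.t⁻¹ ^ j * x) ⟨j, by rw [M.pow_mul_inv]; exact hx⟩
  have hvW : v ∈ M.G.W := by
    have : v = M.t⁻¹ ^ j * x - u := by rw [huv]; ring
    rw [this]
    exact sub_mem (M.inv_pow_mul_mem hx.1 j) hu.1
  refine ⟨_, M.π_mem_BB hu, M.G.π ⟨v, hvW⟩, ?_, ?_⟩
  · refine ⟨_, hv, ?_⟩
    exact M.π_inv_pow_mul hvW n _
  · have h1 : M.G.π ⟨M.t⁻¹ ^ j * x, M.inv_pow_mul_mem hx.1 j⟩ = w := by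
      rw [M.π_inv_pow_mul hx.1, hxw, M.τ_pow_mul']
    rw [← h1, ← map_add]
    congr 1
    exact Subtype.ext huv

/-- the spaces on the special fibre -/
noncomputable def S (a b : ℕ) : Submodule k R :=
  (Subalgebra.toSubmodule M.BB).comap (LinearMap.mulLeft k (M.τ ^ b)) ⊓
    (Subalgebra.toSubmodule M.inv.BB).comap (LinearMap.mulLeft k (M.inv.τ ^ a))

omit [IsAlgClosed Ω] [CharZero Ω] [FunField Ω L] [Algebra.IsAlgebraic K Ω] [Nonempty J]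
  [CharZero K] in
theorem mem_S {a b : ℕ} {r : R} : r ∈ M.S a b ↔
    M.τ ^ b * r ∈ M.BB ∧ M.inv.τ ^ a * r ∈ M.inv.BB := Iff.rfl

theorem one_mem_S (a b : ℕ) : (1 : R) ∈ M.S a b := by
  rw [mem_S, mul_one, mul_one]
  exact ⟨pow_mem M.τ_mem_BB b, pow_mem M.inv.τ_mem_BB a⟩

theorem S_split : ∃ N : ℕ, ∀ n, N ≤ n → ∀ a b, n ≤ a → n ≤ b → ∀ r ∈ M.S a b,
    ∃ r₁ ∈ M.S a n, ∃ r₂ ∈ M.S n b, r = r₁ + r₂ := by
  obtain ⟨N, hN⟩ := M.splitR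
  refine ⟨N, fun n hn a b ha hb r hr => ?_⟩
  obtain ⟨hr1, hr2⟩ := M.mem_S.1 hr
  obtain ⟨b', rfl⟩ := Nat.exists_eq_add_of_le hb
  obtain ⟨a', rfl⟩ := Nat.exists_eq_add_of_le ha
  obtain ⟨u, hu, v, hv, huv⟩ := hN (n + n) (by omega) (M.τ ^ n * r) ⟨b', by
    rw [← mul_assoc, ← pow_add, add_comm]; exact hr1⟩
  have hr' : r = M.inv.τ ^ n * u + M.inv.τ ^ n * v := by
    rw [← mul_add, ← huv, M.τ_pow_mul']
  have hv1 : M.inv.τ ^ n * (M.inv.τ ^ n * v) ∈ M.inv.BB := by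
    rw [← mul_assoc, ← pow_add]; exact hv
  have hu1 : M.τ ^ n * (M.inv.τ ^ n * u) ∈ M.BB := by
    rw [M.τ_pow_mul]; exact hu
  refine ⟨M.inv.τ ^ n * u, M.mem_S.2 ⟨hu1, ?_⟩, M.inv.τ ^ n * v, M.mem_S.2 ⟨?_, hv1⟩, hr'⟩
  · have e : M.inv.τ ^ (n + a') * (M.inv.τ ^ n * u) = M.inv.τ ^ (n + a') * r -
        M.inv.τ ^ a' * (M.inv.τ ^ n * (M.inv.τ ^ n * v)) := by
      rw [hr', pow_add]; ring
    rw [e]
    exact sub_mem hr2 (mul_mem (pow_mem M.inv.τ_mem_BB a') hv1)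
  · have e : M.τ ^ (n + b') * (M.inv.τ ^ n * v) = M.τ ^ (n + b') * r -
        M.τ ^ b' * (M.τ ^ n * (M.inv.τ ^ n * u)) := by
      rw [hr', pow_add]; ring
    rw [e]
    exact sub_mem hr1 (mul_mem (pow_mem M.τ_mem_BB b') hu1)

/-- every element of `S a b`, `a + b` large, is a reduction -/
theorem exists_lift_S : ∃ N : ℕ, ∀ a b, N ≤ a + b → ∀ r ∈ M.S a b, ∃ x : F, ∃ hx : x ∈ M.G.W,
    M.t ^ b * x ∈ M.B ∧ M.t⁻¹ ^ a * x ∈ M.inv.B ∧ M.G.π ⟨x, hx⟩ = r := by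
  obtain ⟨N, hN⟩ := M.split
  -- the case `b = 0`
  have h0 : ∀ n, N ≤ n → ∀ r ∈ M.S n 0, ∃ x : F, ∃ hx : x ∈ M.B,
      M.t⁻¹ ^ n * x ∈ M.inv.B ∧ M.G.π ⟨x, hx.1⟩ = r := by
    intro n hn r hr
    obtain ⟨hr1, hr2⟩ := M.mem_S.1 hr
    rw [pow_zero, one_mul] at hr1
    obtain ⟨x, hx, hxr⟩ := hr1
    obtain ⟨y, hy, hyr⟩ := hr2
    have hyW : M.t ^ n * y ∈ M.G.W := M.pow_mul_mem hy.1 n
    have hπ : M.G.π ⟨x - M.t ^ n * y, sub_mem hx.1 hyW⟩ = 0 := by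
      have e : (⟨x - M.t ^ n * y, sub_mem hx.1 hyW⟩ : M.G.W) = ⟨x, hx.1⟩ - ⟨M.t ^ n * y, hyW⟩ := rfl
      have hyr' : M.G.π ⟨y, hy.1⟩ = M.inv.τ ^ n * r := hyr
      rw [e, map_sub, hxr, M.π_pow_mul hy.1, hyr', M.τ_pow_mul, sub_self]
    have hge := fun j => M.ge_of_π_eq_zero hπ j
    have hw := M.div_p_mem hge
    set w := (algebraMap A F M.p)⁻¹ * (x - M.t ^ n * y) with hwdef
    have hxw : x - M.t ^ n * y = algebraMap A F M.p * w := by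
      rw [hwdef, mul_inv_cancel_left₀ M.pF_ne]
    obtain ⟨m, hm⟩ := M.exists_pow hy
    obtain ⟨u, hu, v, hv, huv⟩ := hN n hn w ⟨m, by
      have h1 : M.t ^ m * (M.t ^ n * y) ∈ M.B := by
        rw [← mul_assoc, ← pow_add, add_comm, pow_add, mul_assoc]
        exact mul_mem (pow_mem M.t_mem_B n) (hm m le_rfl)
      refine ⟨M.pow_mul_mem hw m, ?_⟩
      have h2 : M.t ^ m * (x - M.t ^ n * y) ∈ M.B := by
        rw [mul_sub]
        exact sub_mem (mul_mem (pow_mem M.t_mem_B m) hx) h1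
      have h3 : M.emb (M.t ^ m * w) = algebraMap Ω L (algebraMap K Ω (algebraMap A K M.p))⁻¹ *
          M.emb (M.t ^ m * (x - M.t ^ n * y)) := by
        rw [map_inv₀, ← M.hemb, ← IsScalarTower.algebraMap_apply A K F, ← map_inv₀ M.emb,
          ← map_mul M.emb, hwdef]
        congr 1
        ring
      rw [h3]
      exact (Reg.algebraMap _ _).mul h2.2⟩
    have hpu : algebraMap A F M.p * u ∈ M.B := mul_mem (M.algebraMap_mem_B _) hu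
    refine ⟨x - algebraMap A F M.p * u, sub_mem hx hpu, ?_, ?_⟩
    · have e : M.t⁻¹ ^ n * (x - algebraMap A F M.p * u) =
          y + algebraMap A F M.p * (M.t⁻¹ ^ n * v) := by
        have h4 : x - algebraMap A F M.p * u = M.t ^ n * y + algebraMap A F M.p * v := by
          have h5 : x = M.t ^ n * y + algebraMap A F M.p * w := by rw [← hxw]; ring
          rw [h5, huv]; ring
        rw [h4, mul_add, M.inv_mul_pow]; ring
      rw [e]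
      exact add_mem hy (mul_mem (M.inv.algebraMap_mem_B _) hv)
    · have e : (⟨x - algebraMap A F M.p * u, (sub_mem hx hpu).1⟩ : M.G.W) =
          ⟨x, hx.1⟩ - algebraMap A M.G.W M.p * ⟨u, hu.1⟩ := rfl
      have h0 : algebraMap A R M.p = 0 := by
        have h5 : M.G.π ⟨algebraMap A F M.p, M.G.W.algebraMap_mem _⟩ = 0 :=
          M.ker_π _ _ fun j => Or.inr (M.v_p j).ge
        have h6 : M.G.π (algebraMap A M.G.W M.p) = algebraMap A R M.p := M.G.π.commutes M.p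
        rw [← h6]; exact h5
      rw [e, map_sub, map_mul, hxr, M.G.π.commutes, h0, zero_mul, sub_zero]
  refine ⟨N, fun a b hab r hr => ?_⟩
  obtain ⟨hr1, hr2⟩ := M.mem_S.1 hr
  obtain ⟨x, hx, hx1, hx2⟩ := h0 (a + b) hab (M.τ ^ b * r) (M.mem_S.2 ⟨by
    rw [pow_zero, one_mul]; exact hr1, by
    rw [pow_add, mul_assoc, M.τ_pow_mul']; exact hr2⟩)
  refine ⟨M.t⁻¹ ^ b * x, M.inv_pow_mul_mem hx.1 b, by rw [M.pow_mul_inv]; exact hx, by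
    rw [← mul_assoc, ← pow_add]; exact hx1, ?_⟩
  rw [M.π_inv_pow_mul hx.1, hx2, M.τ_pow_mul']

end Int

end CModel

end Fermat.Agent.Car
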