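import Fermat.Agent.Car.LP

/-!
# Reduction of sections of a root divisor
-/

set_option autoImplicit false
set_option linter.unusedSectionVars false
set_option linter.style.haveILetI false

namespace Fermat.Agent.Car

open Module Polynomial IntermediateField AlgebraicCurve Fermat.Agent.Red Fermat.Agent.RR
  Fermat.Agent.Nod Fermat.Agent.Curve

variable {A K F k R κ Ω L : Type*} [CommRing A] [IsDomain A] [IsDiscreteValuationRing A]
    [Field K] [Algebra A K] [IsFractionRing A K] [Field F] [Algebra K F] [Algebra A F]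
    [IsScalarTower A K F] [Field k] [Algebra A k] [CommRing R] [Algebra k R] [Algebra A R]
    [IsScalarTower A k R] [Field κ] [Algebra k κ] [Field Ω] [Field L] [Algebra Ω L] [Algebra K Ω]
    {ι J : Type*} [Fintype ι] [Fintype J]

namespace CModel

variable (M : CModel A K F k R κ Ω L ι J)

theorem ρ_r {x : F} (hx : x ∈ M.G.W) (j : J) : M.ρ j (M.G.π ⟨x, hx⟩) = (M.comp j).r x :=
  M.ρ_π j x hx

theorem isNilpotent_of_ρ {r : R} (h : ∀ j, M.ρ j r = 0) : IsNilpotent r := by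
  obtain ⟨⟨x, hx⟩, rfl⟩ := M.π_surj r
  refine ⟨∑ j, M.e j, ?_⟩
  rw [← map_pow]
  change M.G.π ⟨x ^ (∑ j, M.e j), pow_mem hx _⟩ = 0
  apply M.ker_π
  intro j
  have h1 : (M.comp j).Ge 1 x := by
    rw [← Comp.r_eq_zero_iff (M.memj hx j), ← M.ρ_r hx, h]
  refine (h1.pow _).mono ?_
  rw [mul_one]
  exact_mod_cast Finset.single_le_sum (f := M.e) (fun _ _ => Nat.zero_le _) (Finset.mem_univ j)

variable [IsAlgClosed Ω] [CharZero Ω] [FunField Ω L] [Algebra.IsAlgebraic K Ω] [Nonempty J]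
  [IsAlgClosed k] [FunField k κ]

/-- a proper ideal of an integral extension of `BB` has a zero on some component -/
theorem exists_zero (hsurj : ∀ j (z : κ), Reg k (M.tb j) z → ∃ x ∈ M.B, (M.comp j).r x = z)
    {T : Type*} [CommRing T] (φ : T →+* R) (hφ : Function.Injective φ)
    (hB : ∀ r ∈ M.BB, ∃ x, φ x = r)
    (hint : ∀ x, (aeval M.τ : k[X] →ₐ[k] R).toRingHom.IsIntegralElem (φ x))
    (I : Ideal T) (hI : I ≠ ⊤) :
    ∃ j, ∃ Q : Place k κ, 0 ≤ Q.ord (M.tb j) ∧ ∀ x ∈ I, val Q (M.ρ j (φ x)) = 0 := by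
  classical
  obtain ⟨𝔪, h𝔪, hI𝔪⟩ := Ideal.exists_le_maximal I hI
  haveI := h𝔪.isPrime
  obtain ⟨j, hj⟩ : ∃ j, ∀ x, M.ρ j (φ x) = 0 → x ∈ 𝔪 := by
    by_contra hcon
    push Not at hcon
    choose x hx hx' using hcon
    have h1 : (∏ j, x j) ∉ 𝔪 := by
      intro h
      obtain ⟨j, -, hj⟩ := (Ideal.IsPrime.prod_mem_iff (hp := h𝔪.isPrime)).1 h
      exact hx' j hj
    apply h1
    have h2 : IsNilpotent (φ (∏ j, x j)) := by
      apply M.isNilpotent_of_ρ
      intro j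
      rw [map_prod, map_prod]
      exact Finset.prod_eq_zero (Finset.mem_univ j) (hx j)
    obtain ⟨n, hn⟩ := h2
    rw [← map_pow] at hn
    have h3 : (∏ j, x j) ^ n = 0 := hφ (hn.trans (map_zero φ).symm)
    exact h𝔪.isPrime.mem_of_pow_mem n (by rw [h3]; exact zero_mem _)
  let ψ : T →+* regAlg k (M.tb j) :=
    ((M.ρ j : R →+* κ).comp φ).codRestrict (regAlg k (M.tb j)).toSubring
      (fun x => M.reg_ρ_of_integral (hint x) j)
  have hψ : ∀ x, (ψ x : κ) = M.ρ j (φ x) := fun x => rfl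
  have hψs : Function.Surjective ψ := by
    rintro ⟨z, hz⟩
    obtain ⟨a, ha, har⟩ := hsurj j z hz
    obtain ⟨x, hx⟩ := hB _ (M.π_mem_BB ha)
    refine ⟨x, Subtype.ext ?_⟩
    rw [hψ, hx, M.ρ_r ha.1, har]
  have hne : 𝔪.map ψ ≠ ⊤ := by
    intro h
    have h1 : (1 : regAlg k (M.tb j)) ∈ 𝔪.map ψ := by rw [h]; trivial
    rw [Ideal.mem_map_iff_of_surjective ψ hψs] at h1
    obtain ⟨x, hx, hx1⟩ := h1
    have h2 : 1 - x ∈ 𝔪 := by
      apply hj
      rw [← hψ, map_sub, hx1, map_one, sub_self]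
      rfl
    have h3 := add_mem h2 hx
    rw [sub_add_cancel] at h3
    exact h𝔪.ne_top ((Ideal.eq_top_iff_one _).2 h3)
  obtain ⟨Q, hQ, hQ'⟩ := exists_zero_of_ideal (M.transcendental_tb j) _ hne
  exact ⟨j, Q, hQ, fun x hx => hQ' (ψ x) (Ideal.mem_map_of_mem ψ (hI𝔪 hx))⟩

theorem ev_ker_sameAt {j : J} {Q : Place k κ} (hQ : 0 ≤ Q.ord (M.tb j)) {i : J} {Q' : Place k κ}
    (hQ' : 0 ≤ Q'.ord (M.tb i))
    (h : ∀ x ∈ M.B, val Q ((M.comp j).r x) = 0 → val Q' ((M.comp i).r x) = 0) :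
    M.SameAt j Q i Q' := by
  intro x hx
  obtain ⟨a, ha⟩ := M.hk (val Q ((M.comp j).r x))
  have hk : ∀ (l : J) (P : Place k κ), val P ((M.comp l).r (algebraMap A F a)) =
      algebraMap A k a := by
    intro l P
    rw [← M.ρ_r (M.G.W.algebraMap_mem a)]
    have h2 : M.G.π ⟨algebraMap A F a, M.G.W.algebraMap_mem a⟩ =
        algebraMap k R (algebraMap A k a) := by
      have := M.G.π.commutes a
      rw [IsScalarTower.algebraMap_apply A k R] at this
      exact this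
    rw [h2, AlgHom.commutes, val_algebraMap]
  have haB := M.algebraMap_mem_B a
  have h1 := h (x - algebraMap A F a) (sub_mem hx haB) (by
    rw [Comp.r_sub (M.memj hx.1 j) (M.memj haB.1 j),
      val_sub (M.reg_r hx j Q hQ) (M.reg_r haB j Q hQ), hk, ha, sub_self])
  rw [Comp.r_sub (M.memj hx.1 i) (M.memj haB.1 i),
    val_sub (M.reg_r hx i Q' hQ') (M.reg_r haB i Q' hQ'), hk, ha, sub_eq_zero] at h1
  exact h1.symm

variable [CharZero K]

theorem mul_pow_mul_inv_mem_B {f : F} (hf0 : f ≠ 0) (hv : ∀ j, (M.comp j).v f = 0) {m : ℕ}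
    (hm : m ≠ 0) {E : Divisor Ω L} (hE : ∀ v, (m : ℤ) * E v = v.ord (M.emb f)) {s x : F}
    (hs : s ∈ M.M0 E) (hx : x ∈ M.M0 E) : x * s ^ (m - 1) * f⁻¹ ∈ M.B := by
  rcases eq_or_ne x 0 with rfl | hx0
  · rw [zero_mul, zero_mul]; exact zero_mem _
  rcases eq_or_ne s 0 with rfl | hs0
  · by_cases h1 : m - 1 = 0
    · have hm1 : m = 1 := by omega
      subst hm1
      have := M.pow_mul_inv_mem_B hf0 hv hm hE hx
      simpa using this
    · rw [zero_pow h1, mul_zero, zero_mul]; exact zero_mem _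
  have hs0' : M.emb s ≠ 0 := by rwa [Ne, map_eq_zero]
  have hf0' : M.emb f ≠ 0 := by rwa [Ne, map_eq_zero]
  have hx0' : M.emb x ≠ 0 := by rwa [Ne, map_eq_zero]
  have hm1 : ((m - 1 : ℕ) : ℤ) = m - 1 := by
    have := Nat.pos_of_ne_zero hm
    omega
  refine ⟨?_, fun v hv' => ?_⟩
  · rw [M.mem_W_iff]
    intro j
    right
    rw [Comp.v_mul _ (mul_ne_zero hx0 (pow_ne_zero _ hs0)) (inv_ne_zero hf0),
      Comp.v_mul _ hx0 (pow_ne_zero _ hs0), Comp.v_pow, Comp.v_inv, hv j]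
    have h1 := M.memj hs.1 j
    have h2 := M.memj hx.1 j
    rw [Comp.mem_iff] at h1 h2
    rcases h1 with h | h
    · exact absurd h hs0
    rcases h2 with h' | h'
    · exact absurd h' hx0
    have : 0 ≤ ((m - 1 : ℕ) : ℤ) * (M.comp j).v s := mul_nonneg (by positivity) h
    linarith
  · right
    have h2 := (hs.2 v hv').le_ord hs0'
    have h3 := (hx.2 v hv').le_ord hx0'
    rw [map_mul, map_mul, map_pow, map_inv₀,
      Place.ord_mul _ (mul_ne_zero hx0' (pow_ne_zero _ hs0')) (inv_ne_zero hf0'),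
      Place.ord_mul _ hx0' (pow_ne_zero _ hs0'), ord_pow, Place.ord_inv, ← hE]
    have : ((m - 1 : ℕ) : ℤ) * E v ≤ ((m - 1 : ℕ) : ℤ) * v.ord (M.emb s) :=
      mul_le_mul_of_nonneg_left h2 (by positivity)
    rw [hm1] at this ⊢
    linarith

/-- the key local lemma -/
theorem exists_mul_mem (H : M.Good) {m : ℕ} (hm : (m : k) ≠ 0) {j : J} {Q : Place k κ}
    (hQ : 0 ≤ Q.ord (M.tb j)) {δ : R} (hδ : δ ^ m ∈ M.BB) (hne : val Q (M.ρ j (δ ^ m)) ≠ 0)
    (hmatch : ∀ i (Q' : Place k κ), 0 ≤ Q'.ord (M.tb i) → M.SameAt j Q i Q' →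
      val Q (M.ρ j δ) = val Q' (M.ρ i δ)) :
    ∃ b ∈ M.BB, val Q (M.ρ j b) ≠ 0 ∧ b * δ ∈ M.BB := by
  classical
  have hm0 : m ≠ 0 := by rintro rfl; simp at hm
  -- integrality
  letI : Algebra k[X] R := (aeval M.τ : k[X] →ₐ[k] R).toRingHom.toAlgebra
  have hδint : IsIntegral k[X] δ := by
    apply IsIntegral.of_pow (Nat.pos_of_ne_zero hm0)
    exact M.integral_of_mem_BB hδ
  let T := Algebra.adjoin M.BB {δ}
  have hTint : ∀ x : T, (aeval M.τ : k[X] →ₐ[k] R).toRingHom.IsIntegralElem (x : R) := by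
    rintro ⟨x, hx⟩
    change IsIntegral k[X] x
    induction hx using Algebra.adjoin_induction with
    | mem x hx =>
      rw [Set.mem_singleton_iff] at hx
      rw [hx]; exact hδint
    | algebraMap r => exact M.integral_of_mem_BB r.2
    | add x y _ _ hx hy => exact hx.add hy
    | mul x y _ _ hx hy => exact hx.mul hy
  have hgeδ : ∀ i (Q' : Place k κ), 0 ≤ Q'.ord (M.tb i) → Ge Q' 0 (M.ρ i δ) := fun i Q' hQ' =>
    M.reg_ρ_of_integral hδint i Q' hQ'
  set c := val Q (M.ρ j δ) with hc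
  have hcm : c ^ m = val Q (M.ρ j (δ ^ m)) := by
    rw [map_pow, val_pow (hgeδ j Q hQ)]
  have hc0 : c ≠ 0 := by
    rintro h
    rw [h, zero_pow hm0] at hcm
    exact hne hcm.symm
  -- the maximal ideal of `BB`
  let evB : M.BB →+* k :=
    { toFun := fun x => val Q (M.ρ j (x : R))
      map_one' := by
        change val Q (M.ρ j 1) = 1
        rw [map_one, val_one]
      map_mul' := fun x y => by
        change val Q (M.ρ j ((x : R) * y)) = _
        rw [map_mul, val_mul (M.reg_ρ x.2 j Q hQ) (M.reg_ρ y.2 j Q hQ)]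
      map_zero' := by
        change val Q (M.ρ j 0) = 0
        rw [map_zero, val_zero]
      map_add' := fun x y => by
        change val Q (M.ρ j ((x : R) + y)) = _
        rw [map_add, val_add (M.reg_ρ x.2 j Q hQ) (M.reg_ρ y.2 j Q hQ)] }
  have hevB : ∀ x : M.BB, evB x = val Q (M.ρ j (x : R)) := fun x => rfl
  have hevc : ∀ a : k, evB (algebraMap k M.BB a) = a := by
    intro a
    rw [hevB]
    change val Q (M.ρ j (algebraMap k R a)) = a
    rw [AlgHom.commutes, val_algebraMap]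
  let 𝔫 : Ideal M.BB := RingHom.ker evB
  let δT : T := ⟨δ, Algebra.subset_adjoin (Set.mem_singleton δ)⟩
  let cT : T := algebraMap M.BB T (algebraMap k M.BB c)
  let eT : T := ∑ l ∈ Finset.range m, δT ^ l * cT ^ (m - 1 - l)
  have heT : eT * (δT - cT) = δT ^ m - cT ^ m := (Commute.all δT cT).geom_sum₂_mul m
  let ηT : M.BB := ⟨δ ^ m, hδ⟩
  have hηT : algebraMap M.BB T ηT = δT ^ m := rfl
  let 𝔠 : Ideal T := 𝔫.map (algebraMap M.BB T) ⊔ Ideal.span {eT}
  have h𝔠 : 𝔠 = ⊤ := by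
    by_contra hne'
    obtain ⟨i, Q', hQ', hz⟩ := M.exists_zero H.surj (T := T)
      (T.subtype : T →+* R) Subtype.val_injective
      (fun r hr => ⟨algebraMap M.BB T ⟨r, hr⟩, rfl⟩) hTint 𝔠 hne'
    have hsame : M.SameAt j Q i Q' := by
      apply M.ev_ker_sameAt hQ hQ'
      intro x hx hx0
      have h1 : (⟨M.G.π ⟨x, hx.1⟩, M.π_mem_BB hx⟩ : M.BB) ∈ 𝔫 := by
        change val Q (M.ρ j (M.G.π ⟨x, hx.1⟩)) = 0
        rw [M.ρ_r hx.1]; exact hx0
      have h2 := hz _ (Ideal.mem_sup_left (Ideal.mem_map_of_mem (algebraMap M.BB T) h1))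
      change val Q' (M.ρ i (M.G.π ⟨x, hx.1⟩)) = 0 at h2
      rwa [M.ρ_r hx.1] at h2
    have hcc := hmatch i Q' hQ' hsame
    have h3 := hz eT (Ideal.mem_sup_right (Ideal.mem_span_singleton_self eT))
    have h4 : ((T.subtype : T →+* R) eT) =
        ∑ l ∈ Finset.range m, δ ^ l * (algebraMap k R c) ^ (m - 1 - l) := by
      simp only [eT]
      rw [map_sum]
      refine Finset.sum_congr rfl fun l _ => ?_
      rw [map_mul, map_pow, map_pow]
      rfl
    rw [h4, map_sum] at h3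
    have hge : ∀ l, Ge Q' 0 (M.ρ i (δ ^ l * (algebraMap k R c) ^ (m - 1 - l))) := by
      intro l
      rw [map_mul, map_pow, map_pow, AlgHom.commutes]
      exact ((ge_zero_pow (hgeδ i Q' hQ') l).mul (ge_zero_pow (Ge.algebraMap Q' c) _)).mono
        (by norm_num)
    rw [val_sum _ fun l _ => hge l] at h3
    have h5 : ∀ l ∈ Finset.range m, val Q' (M.ρ i (δ ^ l * (algebraMap k R c) ^ (m - 1 - l))) =
        c ^ (m - 1) := by
      intro l hl
      rw [Finset.mem_range] at hl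
      rw [map_mul, map_pow, map_pow, AlgHom.commutes,
        val_mul (ge_zero_pow (hgeδ i Q' hQ') l) (ge_zero_pow (Ge.algebraMap Q' c) _),
        val_pow (hgeδ i Q' hQ'), val_pow (Ge.algebraMap Q' c), val_algebraMap, ← hcc, ← pow_add]
      congr 1
      omega
    rw [Finset.sum_congr rfl h5, Finset.sum_const, Finset.card_range, nsmul_eq_mul] at h3
    exact mul_ne_zero hm (pow_ne_zero _ hc0) h3
  have h1 : (1 : T) ∈ 𝔠 := by rw [h𝔠]; trivial
  obtain ⟨ν, hν, w, hw, hνw⟩ := Submodule.mem_sup.1 h1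
  obtain ⟨θ, rfl⟩ := Ideal.mem_span_singleton'.1 hw
  have hδc : δT - cT ∈ 𝔫.map (algebraMap M.BB T) := by
    have e : δT - cT = (δT - cT) * ν + θ * (algebraMap M.BB T (ηT - algebraMap k M.BB (c ^ m))) := by
      have e1 : algebraMap M.BB T (ηT - algebraMap k M.BB (c ^ m)) = δT ^ m - cT ^ m := by
        rw [map_sub, hηT, map_pow, map_pow]
      rw [e1, ← heT]
      linear_combination (δT - cT) * (-hνw)
    rw [e]
    refine add_mem (Ideal.mul_mem_left _ _ hν) (Ideal.mul_mem_left _ _ (Ideal.mem_map_of_mem _ ?_))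
    change evB (ηT - algebraMap k M.BB (c ^ m)) = 0
    rw [map_sub, hevc, hcm]
    exact sub_self _
  -- `T = BB + 𝔫 T`
  have hTle : ∀ x : T, ∃ b : M.BB, x - algebraMap M.BB T b ∈ 𝔫.map (algebraMap M.BB T) := by
    have key : ∀ (x : R) (hx : x ∈ T), ∃ b : M.BB,
        (⟨x, hx⟩ : T) - algebraMap M.BB T b ∈ 𝔫.map (algebraMap M.BB T) := by
      intro x hx
      induction hx using Algebra.adjoin_induction with
      | mem x hx =>
        rw [Set.mem_singleton_iff] at hx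
        subst hx
        exact ⟨algebraMap k M.BB c, hδc⟩
      | algebraMap r =>
        refine ⟨r, ?_⟩
        have : (⟨algebraMap M.BB R r, T.algebraMap_mem r⟩ : T) - algebraMap M.BB T r = 0 :=
          sub_eq_zero.2 rfl
        rw [this]
        exact zero_mem _
      | add x y hx hy hx' hy' =>
        obtain ⟨b, hb⟩ := hx'
        obtain ⟨b', hb'⟩ := hy'
        refine ⟨b + b', ?_⟩
        have e : (⟨x + y, add_mem hx hy⟩ : T) - algebraMap M.BB T (b + b') =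
            ((⟨x, hx⟩ : T) - algebraMap M.BB T b) + ((⟨y, hy⟩ : T) - algebraMap M.BB T b') := by
          rw [map_add]
          apply Subtype.ext
          push_cast
          ring
        rw [e]
        exact add_mem hb hb'
      | mul x y hx hy hx' hy' =>
        obtain ⟨b, hb⟩ := hx'
        obtain ⟨b', hb'⟩ := hy'
        refine ⟨b * b', ?_⟩
        have e : (⟨x * y, mul_mem hx hy⟩ : T) - algebraMap M.BB T (b * b') =
            (⟨y, hy⟩ : T) * ((⟨x, hx⟩ : T) - algebraMap M.BB T b) +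
              algebraMap M.BB T b * ((⟨y, hy⟩ : T) - algebraMap M.BB T b') := by
          rw [map_mul]
          apply Subtype.ext
          push_cast
          ring
        rw [e]
        exact add_mem (Ideal.mul_mem_left _ _ hb) (Ideal.mul_mem_left _ _ hb')
    exact fun x => key x x.2
  haveI hfin : Module.Finite M.BB T := by
    have h2 : IsIntegral M.BB δ := by
      apply IsIntegral.of_pow (Nat.pos_of_ne_zero hm0)
      exact isIntegral_algebraMap (R := M.BB) (A := R) (x := ηT)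
    exact Module.Finite.iff_fg.2 h2.fg_adjoin_singleton
  have hle : (⊤ : Submodule M.BB T) ≤ Submodule.span M.BB {(1 : T)} ⊔ 𝔫 • (⊤ : Submodule M.BB T) := by
    intro x _
    obtain ⟨b, hb⟩ := hTle x
    have e : x = b • (1 : T) + (x - algebraMap M.BB T b) := by
      rw [Algebra.smul_def, mul_one]; ring
    rw [e]
    refine add_mem (Submodule.mem_sup_left (Submodule.smul_mem _ _
      (Submodule.mem_span_singleton_self _))) (Submodule.mem_sup_right ?_)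
    rw [Ideal.smul_top_eq_map]
    exact hb
  obtain ⟨b, hb1, hb2⟩ := Submodule.exists_sub_one_mem_and_smul_le_of_fg_of_le_sup
    (Module.finite_def.1 hfin) le_rfl hle
  refine ⟨b, b.2, ?_, ?_⟩
  · have h2 : evB (b - 1) = 0 := hb1
    rw [map_sub, map_one, sub_eq_zero] at h2
    rw [← hevB, h2]
    exact one_ne_zero
  · have h2 : b • δT ∈ Submodule.span M.BB {(1 : T)} :=
      hb2 (Submodule.smul_mem_pointwise_smul δT b _ Submodule.mem_top)
    obtain ⟨b', hb'⟩ := Submodule.mem_span_singleton.1 h2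
    have h3 := congrArg (Subtype.val) hb'
    have h4 : (b' : R) * 1 = (b : R) * δ := h3
    rw [← h4, mul_one]
    exact b'.2

/-- **Sections of the root divisor reduce to regular multiples of `γ`.** -/
theorem loc (H : M.Good) {f : F} (hf0 : f ≠ 0) (hv : ∀ j, (M.comp j).v f = 0) {m : ℕ}
    (hm : (m : k) ≠ 0) {E : Divisor Ω L} (hE : ∀ v, (m : ℤ) * E v = v.ord (M.emb f))
    (hf : f ∈ M.G.W) {γ : Rˣ} (hγ : M.G.π ⟨f, hf⟩ = (γ : R) ^ m)
    (hmatch : ∀ j (Q : Place k κ) i (Q' : Place k κ), 0 ≤ Q.ord (M.tb j) → 0 ≤ Q'.ord (M.tb i) →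
      M.SameAt j Q i Q' → ∀ s, s ∈ M.M0 E → val Q ((M.comp j).r (s ^ m * f⁻¹)) ≠ 0 →
      val Q ((M.comp j).r s / M.ρ j (γ : R)) = val Q' ((M.comp i).r s / M.ρ i (γ : R)))
    {x : F} (hx : x ∈ M.M0 E) : (↑γ⁻¹ : R) * M.G.π ⟨x, hx.1⟩ ∈ M.BB := by
  classical
  have hm0 : m ≠ 0 := by rintro rfl; simp at hm
  by_contra hcon
  let 𝔟 : Ideal M.BB :=
    { carrier := {r | (r : R) * ((↑γ⁻¹ : R) * M.G.π ⟨x, hx.1⟩) ∈ M.BB}
      add_mem' := fun {a b} ha hb => by
        change ((a : R) + b) * _ ∈ M.BB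
        rw [add_mul]; exact add_mem ha hb
      zero_mem' := by
        change (0 : R) * _ ∈ M.BB
        rw [zero_mul]; exact zero_mem _
      smul_mem' := fun c {a} ha => by
        change ((c : R) * a) * _ ∈ M.BB
        rw [mul_assoc]; exact mul_mem c.2 ha }
  have h𝔟 : 𝔟 ≠ ⊤ := by
    intro h
    have h1 : (1 : M.BB) ∈ 𝔟 := by rw [h]; trivial
    apply hcon
    have h2 : ((1 : M.BB) : R) * ((↑γ⁻¹ : R) * M.G.π ⟨x, hx.1⟩) ∈ M.BB := h1
    rw [OneMemClass.coe_one, one_mul] at h2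
    exact h2
  obtain ⟨j, Q, hQ, hz⟩ := M.exists_zero H.surj (T := M.BB) (M.BB.subtype : M.BB →+* R)
    Subtype.val_injective (fun r hr => ⟨⟨r, hr⟩, rfl⟩) (fun x => M.integral_of_mem_BB x.2) 𝔟 h𝔟
  obtain ⟨s, hs, hsQ⟩ := M.exists_gen_at H hf0 hv hm0 hE hQ
  have hη := M.pow_mul_inv_mem_B hf0 hv hm0 hE hs
  have hfinvW : f⁻¹ ∈ M.G.W := by
    rw [M.mem_W_iff]
    intro l; right; rw [Comp.v_inv, hv]; norm_num
  have hπfinv : M.G.π ⟨f⁻¹, hfinvW⟩ = ((↑γ⁻¹ : R)) ^ m := by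
    have h1 : M.G.π ⟨f, hf⟩ * M.G.π ⟨f⁻¹, hfinvW⟩ = 1 := by
      rw [← map_mul, ← map_one M.G.π]
      congr 1
      exact Subtype.ext (mul_inv_cancel₀ hf0)
    rw [hγ] at h1
    have h2 : ((↑γ⁻¹ : R)) ^ m * (γ : R) ^ m = 1 := by
      rw [← mul_pow, Units.inv_mul, one_pow]
    calc M.G.π ⟨f⁻¹, hfinvW⟩ = ((↑γ⁻¹ : R)) ^ m * (γ : R) ^ m * M.G.π ⟨f⁻¹, hfinvW⟩ := by
          rw [h2, one_mul]
      _ = ((↑γ⁻¹ : R)) ^ m * ((γ : R) ^ m * M.G.π ⟨f⁻¹, hfinvW⟩) := by ring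
      _ = _ := by rw [h1, mul_one]
  set δ : R := (↑γ⁻¹ : R) * M.G.π ⟨s, hs.1⟩ with hδdef
  have hδm : δ ^ m = M.G.π ⟨s ^ m * f⁻¹, hη.1⟩ := by
    have e : (⟨s ^ m * f⁻¹, hη.1⟩ : M.G.W) = ⟨s, hs.1⟩ ^ m * ⟨f⁻¹, hfinvW⟩ := rfl
    rw [e, map_mul, map_pow, hπfinv, hδdef, mul_pow, mul_comm]
  have hργ : ∀ i, M.ρ i (γ : R) ≠ 0 := fun i => (γ.isUnit.map (M.ρ i)).ne_zero
  have hρδ : ∀ i, M.ρ i δ = (M.comp i).r s / M.ρ i (γ : R) := by
    intro i
    have e1 : M.ρ i (γ : R) * M.ρ i (↑γ⁻¹ : R) = 1 := by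
      rw [← map_mul, Units.mul_inv, map_one]
    have e2 : M.ρ i (↑γ⁻¹ : R) = (M.ρ i (γ : R))⁻¹ := eq_inv_of_mul_eq_one_right e1
    rw [hδdef, map_mul, M.ρ_r hs.1, e2]
    field_simp
  obtain ⟨b, hb, hbQ, hbδ⟩ := M.exists_mul_mem H hm hQ (δ := δ) (by
    rw [hδm]; exact M.π_mem_BB hη) (by
    rw [hδm, M.ρ_r hη.1]; exact hsQ) (by
    intro i Q' hQ' hsame
    rw [hρδ, hρδ]
    exact hmatch j Q i Q' hQ hQ' hsame s hs hsQ)
  have hb' := M.mul_pow_mul_inv_mem_B hf0 hv hm0 hE hs hx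
  have hmem : (⟨b * M.G.π ⟨s ^ m * f⁻¹, hη.1⟩, mul_mem hb (M.π_mem_BB hη)⟩ : M.BB) ∈ 𝔟 := by
    change b * M.G.π ⟨s ^ m * f⁻¹, hη.1⟩ * ((↑γ⁻¹ : R) * M.G.π ⟨x, hx.1⟩) ∈ M.BB
    have e1 : M.G.π ⟨s ^ m * f⁻¹, hη.1⟩ * M.G.π ⟨x, hx.1⟩ =
        M.G.π ⟨x * s ^ (m - 1) * f⁻¹, hb'.1⟩ * M.G.π ⟨s, hs.1⟩ := by
      rw [← map_mul, ← map_mul]
      congr 1
      apply Subtype.ext
      change s ^ m * f⁻¹ * x = x * s ^ (m - 1) * f⁻¹ * s
      have : s ^ m = s ^ (m - 1) * s := by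
        rw [← pow_succ, Nat.sub_add_cancel (Nat.pos_of_ne_zero hm0)]
      rw [this]; ring
    have e2 : b * M.G.π ⟨s ^ m * f⁻¹, hη.1⟩ * ((↑γ⁻¹ : R) * M.G.π ⟨x, hx.1⟩) =
        M.G.π ⟨x * s ^ (m - 1) * f⁻¹, hb'.1⟩ * (b * δ) := by
      rw [hδdef]
      linear_combination (b * (↑γ⁻¹ : R)) * e1
    rw [e2]
    exact mul_mem (M.π_mem_BB hb') hbδ
  have h5 := hz _ hmem
  change val Q (M.ρ j (b * M.G.π ⟨s ^ m * f⁻¹, hη.1⟩)) = 0 at h5
  rw [map_mul, val_mul (M.reg_ρ hb j Q hQ) (M.reg_ρ (M.π_mem_BB hη) j Q hQ), M.ρ_r hη.1] at h5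
  exact mul_ne_zero hbQ hsQ h5

end CModel

end Fermat.Agent.Car
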