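import Fermat.Agent.Nod.Frob

/-!
# Places and ideals of regular functions
-/

set_option autoImplicit false
set_option linter.unusedSectionVars false
set_option linter.style.haveILetI false

namespace Fermat.Agent.Car

open Module Polynomial IntermediateField AlgebraicCurve Fermat.Agent.RR
  Fermat.Agent.Nod Fermat.Agent.Curve

variable {k E : Type*} [Field k] [Field E] [Algebra k E] [IsAlgClosed k] [FunField k E]

theorem exists_reg_val {s : E} (hs : Transcendental k s) {ι : Type*} [Finite ι]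
    (v : ι → Place k E) (hv : Function.Injective v) (h0 : ∀ i, 0 ≤ (v i).ord s) (a : ι → k) :
    ∃ x, Reg k s x ∧ ∀ i, val (v i) x = a i := by
  classical
  haveI := Fintype.ofFinite ι
  obtain ⟨c, hc⟩ := exists_riemann (K := k) (F := E)
  have hd : (1 : ℤ) ≤ finrank k⟮s⟯ E := by exact_mod_cast Nod.finrank_pos hs
  obtain ⟨x, hx, hx'⟩ := exists_val_of_degree v hv hc
    ((c + Fintype.card ι).toNat • poleDiv k s)
    (fun i => by
      rw [Finsupp.smul_apply, poleDiv_apply, max_eq_right (by linarith [h0 i]), smul_zero])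
    (by
      have e := Int.self_le_toNat (c + Fintype.card ι)
      rw [map_nsmul, degree_poleDiv hs, nsmul_eq_mul]
      nlinarith [Int.natCast_nonneg (c + Fintype.card ι).toNat]) a
  refine ⟨x, ?_, hx'⟩
  intro w hw
  have := mem_L.1 hx w
  rwa [Finsupp.smul_apply, poleDiv_apply, max_eq_right (by linarith), smul_zero, neg_zero] at this

theorem exists_reg_mul {s : E} (hs : Transcendental k s) {Q : Place k E} (hQ : 0 ≤ Q.ord s) {h : E}
    (hh : Ge Q 0 h) : ∃ α, Reg k s α ∧ val Q α ≠ 0 ∧ Reg k s (α * h) := by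
  classical
  rcases eq_or_ne h 0 with rfl | hh0
  · exact ⟨1, Reg.one s, by rw [val_one]; exact one_ne_zero, by
      rw [mul_zero]; exact fun v _ => Ge.zero v 0⟩
  let T := (finite_ord (K := k) hh0).toFinset.filter (fun v => 0 ≤ v.ord s ∧ v ≠ Q)
  have hT : ∀ v ∈ T, 0 ≤ v.ord s ∧ v ≠ Q := fun v hv => (Finset.mem_filter.1 hv).2
  let w : Option T → Place k E := fun o => o.elim Q (fun v => v)
  obtain ⟨α, hα, hα'⟩ := exists_reg_val hs w (by
      intro x y hxy
      rcases x with _ | x <;> rcases y with _ | y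
      · rfl
      · exact absurd hxy.symm (hT y y.2).2
      · exact absurd hxy (hT x x.2).2
      · exact congrArg some (Subtype.ext hxy))
    (fun o => by
      rcases o with _ | x
      · exact hQ
      · exact (hT x x.2).1)
    (fun o => o.elim 1 (fun _ => 0))
  have h1 : val Q α = 1 := hα' none
  have hαQ : Ge Q 0 α := hα Q hQ
  let N := ∑ v ∈ T, (v.ord h).natAbs
  have hpow : Reg k s (α ^ N) := fun v hv => ge_zero_pow (hα v hv) N
  refine ⟨α ^ N, hpow, by rw [val_pow hαQ, h1, one_pow]; exact one_ne_zero, fun v hv => ?_⟩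
  by_cases hvT : v ∈ T
  · have h2 : val v α = 0 := hα' (some ⟨v, hvT⟩)
    rw [val_eq_zero_iff (hα v hv)] at h2
    have h3 := (h2.pow N).mul (Ge.of_le (le_refl (v.ord h)))
    refine h3.mono ?_
    have h4 : (v.ord h).natAbs ≤ N := Finset.single_le_sum (f := fun v => (v.ord h).natAbs)
      (fun _ _ => Nat.zero_le _) hvT
    omega
  · by_cases hvQ : v = Q
    · subst hvQ
      exact ((hpow v hv).mul hh).mono (by norm_num)
    · have h5 : v.ord h = 0 := by
        by_contra h6
        apply hvT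
        rw [Finset.mem_filter]
        exact ⟨(Set.Finite.mem_toFinset _).2 h6, hv, hvQ⟩
      exact ((hpow v hv).mul (Ge.of_le h5.ge)).mono (by norm_num)

theorem exists_reg_frac {s : E} (hs : Transcendental k s) (h : E) :
    ∃ P : k[X], P ≠ 0 ∧ Reg k s (aeval s P * h) := by
  classical
  rcases eq_or_ne h 0 with rfl | hh0
  · exact ⟨1, one_ne_zero, by rw [mul_zero]; exact fun v _ => Ge.zero v 0⟩
  let T := (finite_ord (K := k) hh0).toFinset.filter (fun v => 0 ≤ v.ord s)
  let N := ∑ v ∈ T, (v.ord h).natAbs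
  let P : k[X] := ∏ v ∈ T, (X - C (val v s)) ^ N
  have hP0 : P ≠ 0 := Finset.prod_ne_zero_iff.2 fun v _ => pow_ne_zero _ (X_sub_C_ne_zero _)
  have hreg : ∀ P : k[X], Reg k s (aeval s P) := by
    intro P
    rw [aeval_eq_sum_range]
    refine Reg.sum _ fun i _ => Reg.smul _ ?_
    exact fun v hv => ge_zero_pow (Ge.of_le hv) i
  refine ⟨P, hP0, fun v hv => ?_⟩
  by_cases hvT : v ∈ T
  · have h1 : P = (X - C (val v s)) ^ N * ∏ w ∈ T.erase v, (X - C (val w s)) ^ N :=
      (Finset.mul_prod_erase T _ hvT).symm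
    rw [h1, map_mul, map_pow, map_sub, aeval_X, aeval_C]
    have h2 : Ge v 1 (s - algebraMap k E (val v s)) := val_spec (Ge.of_le hv)
    have h3 := ((h2.pow N).mul (hreg (∏ w ∈ T.erase v, (X - C (val w s)) ^ N) v hv)).mul
      (Ge.of_le (le_refl (v.ord h)))
    refine h3.mono ?_
    have h4 : (v.ord h).natAbs ≤ N := Finset.single_le_sum (f := fun v => (v.ord h).natAbs)
      (fun _ _ => Nat.zero_le _) hvT
    omega
  · have h5 : v.ord h = 0 := by
      by_contra h6
      apply hvT
      rw [Finset.mem_filter]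
      exact ⟨(Set.Finite.mem_toFinset _).2 h6, hv⟩
    exact ((hreg P v hv).mul (Ge.of_le h5.ge)).mono (by norm_num)

/-- a proper ideal of regular functions has a zero -/
theorem exists_zero_of_ideal {s : E} (hs : Transcendental k s) (I : Ideal (regAlg k s))
    (hI : I ≠ ⊤) : ∃ Q : Place k E, 0 ≤ Q.ord s ∧ ∀ x ∈ I, val Q (x : E) = 0 := by
  classical
  by_contra hcon
  push Not at hcon
  apply hI
  rw [Ideal.eq_top_iff_one]
  -- a nonzero element
  obtain ⟨x₀, hx₀, hx₀0⟩ : ∃ x ∈ I, (x : E) ≠ 0 := by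
    have hs0 : Transcendental k s⁻¹ := RR.transcendental_inv hs
    obtain ⟨Q, hQ⟩ := exists_pole (K := k) (f := s⁻¹) hs0
    rw [Q.ord_inv] at hQ
    obtain ⟨x, hx, hx'⟩ := hcon Q (by linarith)
    exact ⟨x, hx, fun h => hx' (by rw [h, val_zero])⟩
  let T := (finite_ord (K := k) hx₀0).toFinset.filter (fun v => 0 ≤ v.ord s)
  have hT : ∀ v ∈ T, 0 ≤ v.ord s := fun v hv => (Finset.mem_filter.1 hv).2
  choose y hy hy' using fun v : T => hcon v (hT v v.2)
  have hch := fun v : T => exists_reg_val hs (fun w : T => (w : Place k E))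
    Subtype.val_injective (fun w => hT w w.2) (fun w => if w = v then 1 else 0)
  choose a ha ha' using hch
  let Y : regAlg k s := ∑ v : T, (⟨a v, ha v⟩ : regAlg k s) * y v
  have hY : Y ∈ I := Ideal.sum_mem _ fun v _ => Ideal.mul_mem_left _ _ (hy v)
  have hYval : ∀ w : T, val (w : Place k E) (Y : E) ≠ 0 := by
    intro w
    have e : (Y : E) = ∑ v : T, a v * (y v : E) := by
      simp only [Y]
      push_cast
      rfl
    have hw := hT w w.2
    rw [e, val_sum _ (fun v _ => ((ha v w hw).mul ((y v).2 w hw)).mono (by norm_num)),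
      Finset.sum_eq_single w]
    · rw [val_mul (ha w w hw) ((y w).2 w hw), ha', if_pos rfl, one_mul]
      exact hy' w
    · intro v _ hv
      rw [val_mul (ha v w hw) ((y v).2 w hw), ha', if_neg (Ne.symm hv), zero_mul]
    · intro h; exact absurd (Finset.mem_univ _) h
  obtain ⟨b, hb, hb'⟩ := exists_reg_val hs (fun w : T => (w : Place k E))
    Subtype.val_injective (fun w => hT w w.2) (fun w => (val (w : Place k E) (Y : E))⁻¹)
  let g : regAlg k s := 1 - ⟨b, hb⟩ * Y
  let N := ∑ v ∈ T, (v.ord (x₀ : E)).natAbs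
  have hg : Reg k s ((g : E) ^ N * (x₀ : E)⁻¹) := by
    intro v hv
    by_cases hvT : v ∈ T
    · have h1 : val v (g : E) = 0 := by
        change val v (1 - b * (Y : E)) = 0
        rw [val_sub (Ge.one v) (((hb v hv).mul (Y.2 v hv)).mono (by norm_num)), val_one,
          val_mul (hb v hv) (Y.2 v hv), hb' ⟨v, hvT⟩, inv_mul_cancel₀ (hYval ⟨v, hvT⟩), sub_self]
      rw [val_eq_zero_iff (g.2 v hv)] at h1
      have h3 := (h1.pow N).mul (Ge.of_le (le_refl (v.ord (x₀ : E)⁻¹)))
      refine h3.mono ?_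
      rw [v.ord_inv]
      have h4 : (v.ord (x₀ : E)).natAbs ≤ N :=
        Finset.single_le_sum (f := fun v => (v.ord (x₀ : E)).natAbs)
          (fun _ _ => Nat.zero_le _) hvT
      omega
    · have h5 : v.ord (x₀ : E) = 0 := by
        by_contra h6
        apply hvT
        rw [Finset.mem_filter]
        exact ⟨(Set.Finite.mem_toFinset _).2 h6, hv⟩
      exact ((ge_zero_pow (g.2 v hv) N).mul (Ge.of_le (by rw [v.ord_inv, h5, neg_zero]))).mono
        (by norm_num)
  have h6 : g ^ N ∈ I := by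
    have e : g ^ N = (⟨_, hg⟩ : regAlg k s) * x₀ := by
      apply Subtype.ext
      change (g : E) ^ N = ((g : E) ^ N * (x₀ : E)⁻¹) * (x₀ : E)
      rw [inv_mul_cancel_right₀ hx₀0]
    rw [e]
    exact Ideal.mul_mem_left _ _ hx₀
  have h7 : 1 - g ^ N ∈ I := by
    obtain ⟨c, hc⟩ := sub_dvd_pow_sub_pow (1 : regAlg k s) g N
    rw [one_pow] at hc
    rw [hc]
    have e : (1 : regAlg k s) - g = ⟨b, hb⟩ * Y := by simp only [g]; ring
    rw [e]
    exact Ideal.mul_mem_right _ _ (Ideal.mul_mem_left _ _ hY)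
  have := add_mem h7 h6
  rwa [sub_add_cancel] at this

end Fermat.Agent.Car
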