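import Fermat.Agent.Car.Loc

/-!
# Rigidity for regular models with several components
-/

set_option autoImplicit false
set_option linter.unusedSectionVars false
set_option linter.style.haveILetI false

namespace Fermat.Agent.Car

open Module Polynomial IntermediateField AlgebraicCurve Fermat.Agent.Red Fermat.Agent.RR
  Fermat.Agent.Nod Fermat.Agent.Curve

variable {A K F k R κ Ω L : Type*} [CommRing A] [IsDomain A] [IsDiscreteValuationRing A]
    [Field K] [Algebra A K] [IsFractionRing A K] [Field F] [Algebra K F] [Algebra A F]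
    [IsScalarTower A K F] [Field k] [Algebra A k] [CommRing R] [Algebra k R] [Algebra A R]
    [IsScalarTower A k R] [Field κ] [Algebra k κ] [Field Ω] [Field L] [Algebra Ω L] [Algebra K Ω]
    {ι J : Type*} [Fintype ι] [Fintype J]

namespace CModel

variable (M : CModel A K F k R κ Ω L ι J)

variable [IsAlgClosed Ω] [CharZero Ω] [FunField Ω L] [Algebra.IsAlgebraic K Ω] [Nonempty J]
  [IsAlgClosed k] [FunField k κ]

theorem r_aeval (P : A[X]) (j : J) : (M.comp j).r (aeval M.t P) =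
    aeval (M.tb j) (P.map (algebraMap A k)) := by
  have h0 := M.ρ_r (M.G.aeval_mem P) j
  change _ = (M.comp j).r (aeval M.t P) at h0
  rw [← h0]
  have h1 : (⟨aeval M.G.t P, M.G.aeval_mem P⟩ : M.G.W) = aeval (⟨M.G.t, M.G.ht⟩ : M.G.W) P := by
    apply Subtype.ext
    rw [M.G.coe_aeval]
  rw [h1, M.G.π_aeval, ← aeval_algHom_apply]
  congr 2
  exact M.ρ_t j

theorem exists_lift_one (hsurj : ∀ j (z : κ), Reg k (M.tb j) z → ∃ x ∈ M.B, (M.comp j).r x = z)
    (j : J) (z : κ) : ∃ x ∈ M.G.W, (M.comp j).r x = z := by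
  obtain ⟨P, hP0, hP⟩ := exists_reg_frac (M.transcendental_tb j) z
  obtain ⟨b, hb, hbr⟩ := hsurj j _ hP
  obtain ⟨P', rfl⟩ := Polynomial.map_surjective _ M.hk P
  have h1 := fun l => M.v_aeval hP0 l
  refine ⟨b / aeval M.t P', ?_, ?_⟩
  · rw [M.mem_W_iff]
    intro l
    rcases eq_or_ne b 0 with rfl | hb0
    · rw [zero_div]; exact Comp.ge_zero _
    · right
      haveI := M.nontrivial_R j
      have h2 : aeval M.t P' ≠ 0 := M.G.aeval_ne_zero hP0
      rw [Comp.v_div _ hb0 h2, h1, sub_zero]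
      have := M.memj hb.1 l
      rw [Comp.mem_iff] at this
      exact this.resolve_left hb0
  · rw [Comp.r_div (M.memj hb.1 j) (h1 j), hbr, M.r_aeval]
    have h2 : aeval (M.tb j) (P'.map (algebraMap A k)) ≠ 0 := by
      intro h
      exact hP0 ((transcendental_iff.1 (M.transcendental_tb j)) _ h)
    field_simp

theorem exists_idem (j : J) : ∃ x ∈ M.G.W, (M.comp j).r x = 1 ∧ ∀ i, i ≠ j → (M.comp i).r x = 0 := by
  classical
  choose c hcW hc hc' using M.sep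
  have hs : ∀ i, (M.comp i).r (∑ l, c l) = (M.comp i).r (c i) := by
    intro i
    rw [← Finset.add_sum_erase _ _ (Finset.mem_univ i)]
    have h1 : ∑ l ∈ Finset.univ.erase i, c l ∈ (M.comp i).W :=
      sum_mem fun l _ => M.memj (hcW l) i
    rw [Comp.r_add (M.memj (hcW i) i) h1]
    have h2 : (M.comp i).r (∑ l ∈ Finset.univ.erase i, c l) = 0 := by
      rw [Comp.r_eq_zero_iff h1]
      exact Comp.Ge.sum fun l hl => hc' l i (Finset.ne_of_mem_erase hl).symm
    rw [h2, add_zero]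
  have hsW : ∑ l, c l ∈ M.G.W := sum_mem fun l _ => hcW l
  have hs0 : ∑ l, c l ≠ 0 := by
    intro h
    have := hs j
    rw [h, Comp.r_zero] at this
    exact hc j this.symm
  have hv : ∀ i, (M.comp i).v (∑ l, c l) = 0 := by
    intro i
    rw [← Comp.r_ne_zero_iff hs0, hs]
    exact hc i
  have hc0 : c j ≠ 0 := fun h => hc j (by rw [h, Comp.r_zero])
  refine ⟨c j / ∑ l, c l, ?_, ?_, fun i hi => ?_⟩
  · rw [M.mem_W_iff]
    intro i
    right
    rw [Comp.v_div _ hc0 hs0, hv, sub_zero]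
    have := M.memj (hcW j) i
    rw [Comp.mem_iff] at this
    exact this.resolve_left hc0
  · rw [Comp.r_div (M.memj (hcW j) j) (hv j), hs, div_self (hc j)]
  · rw [Comp.r_div (M.memj (hcW j) i) (hv i)]
    have : (M.comp i).r (c j) = 0 := by
      rw [Comp.r_eq_zero_iff (M.memj (hcW j) i)]
      exact hc' j i hi
    rw [this, zero_div]

theorem exists_lift_all (hsurj : ∀ j (z : κ), Reg k (M.tb j) z → ∃ x ∈ M.B, (M.comp j).r x = z)
    (z : J → κ) : ∃ x ∈ M.G.W, ∀ j, (M.comp j).r x = z j := by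
  classical
  choose e heW he1 he0 using M.exists_idem
  choose x hxW hx using fun j => M.exists_lift_one hsurj j (z j)
  refine ⟨∑ j, e j * x j, sum_mem fun j _ => mul_mem (heW j) (hxW j), fun i => ?_⟩
  have h1 : ∑ l ∈ Finset.univ.erase i, e l * x l ∈ (M.comp i).W :=
    sum_mem fun l _ => mul_mem (M.memj (heW l) i) (M.memj (hxW l) i)
  rw [← Finset.add_sum_erase _ _ (Finset.mem_univ i),
    Comp.r_add (mul_mem (M.memj (heW i) i) (M.memj (hxW i) i)) h1,
    Comp.r_mul (M.memj (heW i) i) (M.memj (hxW i) i), he1, hx, one_mul]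
  have h2 : (M.comp i).r (∑ l ∈ Finset.univ.erase i, e l * x l) = 0 := by
    rw [Comp.r_eq_zero_iff h1]
    refine Comp.Ge.sum fun l hl => ?_
    have h3 : (M.comp i).Ge 1 (e l) := by
      rw [← Comp.r_eq_zero_iff (M.memj (heW l) i)]
      exact he0 l i (Finset.ne_of_mem_erase hl).symm
    exact (h3.mul (Comp.ge_of_mem (M.memj (hxW l) i))).mono (by norm_num)
  rw [h2, add_zero]

/-- lifting of roots -/
theorem exists_γ (hsurj : ∀ j (z : κ), Reg k (M.tb j) z → ∃ x ∈ M.B, (M.comp j).r x = z)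
    {q : ℕ} [Fact q.Prime] [CharP k q] {m : ℕ} (hm : (m : k) ≠ 0) {f : F} (hf0 : f ≠ 0)
    (hf : f ∈ M.G.W) (hv : ∀ j, (M.comp j).v f = 0) (γ : J → κ)
    (hγ : ∀ j, γ j ^ m = (M.comp j).r f) :
    ∃ g : Rˣ, M.G.π ⟨f, hf⟩ = (g : R) ^ m ∧ ∀ j, M.ρ j (g : R) = γ j := by
  classical
  have hm0 : m ≠ 0 := by rintro rfl; simp at hm
  haveI := M.nontrivial_R (Classical.arbitrary J)
  haveI : CharP R q := charP_of_injective_algebraMap (algebraMap k R).injective q
  have hrf : ∀ j, (M.comp j).r f ≠ 0 := fun j => (Comp.r_ne_zero_iff hf0).2 (hv j)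
  have hγ0 : ∀ j, γ j ≠ 0 := fun j h => hrf j (by rw [← hγ, h, zero_pow hm0])
  obtain ⟨x, hxW, hx⟩ := M.exists_lift_all hsurj γ
  have hx0 : x ≠ 0 := by
    rintro rfl
    exact hγ0 (Classical.arbitrary J) (by rw [← hx, Comp.r_zero])
  have hvx : ∀ j, (M.comp j).v x = 0 := fun j => by
    rw [← Comp.r_ne_zero_iff hx0, hx]; exact hγ0 j
  have hunit : ∀ (y : F) (hy : y ∈ M.G.W), y ≠ 0 → (∀ j, (M.comp j).v y = 0) →
      ∃ u : Rˣ, (u : R) = M.G.π ⟨y, hy⟩ := by
    intro y hy hy0 hvy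
    have hyi : y⁻¹ ∈ M.G.W := by
      rw [M.mem_W_iff]
      intro j; right; rw [Comp.v_inv, hvy]; norm_num
    have e1 : M.G.π ⟨y, hy⟩ * M.G.π ⟨y⁻¹, hyi⟩ = 1 := by
      rw [← map_mul, ← map_one M.G.π]
      congr 1
      exact Subtype.ext (mul_inv_cancel₀ hy0)
    exact ⟨⟨_, _, e1, by rw [mul_comm]; exact e1⟩, rfl⟩
  obtain ⟨X, hX⟩ := hunit x hxW hx0 hvx
  obtain ⟨Φ, hΦ⟩ := hunit f hf hf0 hv
  have hρX : ∀ j, M.ρ j (X : R) = γ j := fun j => by rw [hX, M.ρ_r hxW, hx]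
  have hρΦ : ∀ j, M.ρ j (Φ : R) = γ j ^ m := fun j => by rw [hΦ, M.ρ_r hf, hγ]
  -- nilpotence
  have hnil : IsNilpotent ((Φ : R) - (X : R) ^ m) := by
    apply M.isNilpotent_of_ρ
    intro j
    rw [map_sub, map_pow, hρX, hρΦ, sub_self]
  obtain ⟨n, hn⟩ := hnil
  have hq := (Fact.out : q.Prime)
  have hn' : ((Φ : R) - (X : R) ^ m) ^ q ^ n = 0 := by
    have h1 : n ≤ q ^ n := (Nat.lt_pow_self hq.one_lt).le
    obtain ⟨d, hd⟩ := Nat.exists_eq_add_of_le h1
    rw [hd, pow_add, hn, zero_mul]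
  have hΦX : Φ ^ (q ^ n) = (X ^ (q ^ n)) ^ m := by
    apply Units.ext
    rw [sub_pow_char_pow, sub_eq_zero] at hn'
    rw [Units.val_pow_eq_pow_val, Units.val_pow_eq_pow_val, Units.val_pow_eq_pow_val, hn', ← pow_mul,
      ← pow_mul, mul_comm]
  have hco : Nat.Coprime m (q ^ n) := by
    apply Nat.Coprime.pow_right
    rw [Nat.coprime_comm, hq.coprime_iff_not_dvd]
    intro h
    exact hm ((CharP.cast_eq_zero_iff k q m).2 h)
  obtain ⟨a, b, hab⟩ := Nat.isCoprime_iff_coprime.2 hco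
  push_cast at hab
  let g : Rˣ := Φ ^ a * (X ^ (q ^ n)) ^ b
  have hg : g ^ m = Φ := by
    have e1 : g ^ m = Φ ^ (a * m) * ((X ^ (q ^ n)) ^ m) ^ b := by
      simp only [g]
      rw [mul_pow, zpow_mul, zpow_natCast]
      congr 1
      rw [← zpow_natCast, ← zpow_mul, mul_comm b, zpow_mul, zpow_natCast]
    rw [e1, ← hΦX, ← zpow_natCast Φ (q ^ n), ← zpow_mul, ← zpow_add]
    have : a * (m : ℤ) + ((q ^ n : ℕ) : ℤ) * b = 1 := by push_cast; linarith
    rw [this, zpow_one]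
  refine ⟨g, ?_, fun j => ?_⟩
  · rw [← hΦ, ← Units.val_pow_eq_pow_val, hg]
  · let ψ : Rˣ →* κˣ := Units.map (M.ρ j : R →* κ)
    have hψ : ∀ u : Rˣ, ((ψ u : κˣ) : κ) = M.ρ j (u : R) := fun u => rfl
    let γu : κˣ := Units.mk0 (γ j) (hγ0 j)
    have h1 : ψ X = γu := Units.ext (hρX j)
    have h2 : ψ Φ = γu ^ m := Units.ext (by
      rw [hψ, hρΦ, Units.val_pow_eq_pow_val]
      rfl)
    have h3 : ψ g = γu := by
      simp only [g]
      rw [map_mul, map_zpow, map_zpow, map_pow, h1, h2, ← zpow_natCast, ← zpow_natCast γu (q ^ n),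
        ← zpow_mul, ← zpow_mul, ← zpow_add]
      have : (m : ℤ) * a + ((q ^ n : ℕ) : ℤ) * b = 1 := by push_cast; linarith
      rw [this, zpow_one]
    rw [← hψ, h3]
    rfl

variable [CharZero K]

/-- **Rigidity for regular models with several components.** -/
theorem rigC (H : M.Good) (H' : M.inv.Good) {q : ℕ} [Fact q.Prime] [CharP k q] {f : F}
    (hf0 : f ≠ 0) (hv : ∀ j, (M.comp j).v f = 0) {m : ℕ}
    (hm : (m : k) ≠ 0) {E : Divisor Ω L} (hE : ∀ v, (m : ℤ) * E v = v.ord (M.emb f))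
    (γ : J → κ) (hγ : ∀ j, γ j ^ m = (M.comp j).r f)
    (hmatch : ∀ j (Q : Place k κ) i (Q' : Place k κ), 0 ≤ Q.ord (M.tb j) → 0 ≤ Q'.ord (M.tb i) →
      M.SameAt j Q i Q' → ∀ s, s ∈ M.M0 E → val Q ((M.comp j).r (s ^ m * f⁻¹)) ≠ 0 →
      val Q ((M.comp j).r s / γ j) = val Q' ((M.comp i).r s / γ i))
    (hmatch' : ∀ j (Q : Place k κ) i (Q' : Place k κ), 0 ≤ Q.ord (M.inv.tb j) →
      0 ≤ Q'.ord (M.inv.tb i) →
      M.inv.SameAt j Q i Q' → ∀ s, s ∈ M.inv.M0 E → val Q ((M.comp j).r (s ^ m * f⁻¹)) ≠ 0 →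
      val Q ((M.comp j).r s / γ j) = val Q' ((M.comp i).r s / γ i)) :
    ∃ x : L, x ^ m = M.emb f := by
  have hfW : f ∈ M.G.W := by
    rw [M.mem_W_iff]
    intro j; right; rw [hv]
  obtain ⟨g, hg, hgγ⟩ := M.exists_γ H.surj hm hf0 hfW hv γ hγ
  refine M.rigid hm hf0 hfW hE hg ?_ ?_
  · intro x hx hx'
    refine M.loc H hf0 hv hm hE hfW hg ?_ (x := x) ⟨hx, hx'⟩
    intro j Q i Q' hQ hQ' hs s hsM hne
    rw [hgγ, hgγ]
    exact hmatch j Q i Q' hQ hQ' hs s hsM hne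
  · intro x hx hx'
    refine M.inv.loc H' hf0 hv hm hE hfW hg ?_ (x := x) ⟨hx, hx'⟩
    intro j Q i Q' hQ hQ' hs s hsM hne
    have e : ∀ l, M.inv.ρ l (g : R) = γ l := hgγ
    rw [e, e]
    exact hmatch' j Q i Q' hQ hQ' hs s hsM hne

end CModel

end Fermat.Agent.Car
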